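import Fermat.Agent.EC.Local.Congr

/-!
# Torsion on the normal form `y² + xy = x³ + c`, `c` in the maximal ideal

For a point of odd prime order `p` (invertible in the valuation ring) either `x` is a unit, or
`v(x)ᵖ = v(c)ᵏ` for some `k`: the point lies on the `±k`-th component.
-/

set_option autoImplicit false

namespace Fermat.Agent.EC

open WeierstrassCurve

variable {L : Type*} [Field L] [IsAlgClosed L] [CharZero L] [DecidableEq L]
variable {A : ValuationSubring L}

/-- The normal form over `A`. -/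
def tateNF (c : A) : WeierstrassCurve A := ⟨1, 0, 0, 0, c⟩

variable (c : A) [((tateNF c).map (algebraMap A L)).IsElliptic]
variable {p : ℕ} [hp : Fact p.Prime]

local notation "v" => A.valuation

omit [IsAlgClosed L] [CharZero L] [DecidableEq L] [((tateNF c).map (algebraMap A L)).IsElliptic] in
lemma tateNF_sP (s t : L) : sP ((tateNF c).map (algebraMap A L)) s t 1 = s ^ 2 - (4 * (algebraMap A L c) * t + (algebraMap A L c)) := by
  simp [sP, tateNF, WeierstrassCurve.b₄, WeierstrassCurve.b₆, WeierstrassCurve.b₈]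
  ring

omit [IsAlgClosed L] [CharZero L] [DecidableEq L] [((tateNF c).map (algebraMap A L)).IsElliptic] in
lemma tateNF_tP (s t : L) : tP ((tateNF c).map (algebraMap A L)) s t 1 = s + (2 * t * s + 4 * (algebraMap A L c)) := by
  simp [tP, tateNF, WeierstrassCurve.b₂, WeierstrassCurve.b₄, WeierstrassCurve.b₆]
  ring

variable {c}

omit [IsAlgClosed L] [CharZero L] [DecidableEq L] in
lemma val_natCast_le_one (n : ℕ) : v (n : L) ≤ 1 :=
  (A.valuation_le_one_iff _).2 (natCast_mem A n)

omit [IsAlgClosed L] [CharZero L] [DecidableEq L] [((tateNF c).map (algebraMap A L)).IsElliptic] in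
lemma val_four_mul_lt (hc0 : c ≠ 0) {t : L} (ht : v t < 1) : v (4 * (algebraMap A L c) * t) < v (algebraMap A L c) := by
  have h4 : v (4 : L) ≤ 1 := by exact_mod_cast val_natCast_le_one (A := A) 4
  have hcpos : 0 < v (algebraMap A L c) := zero_lt_iff.2 ((map_ne_zero _).2 (by
    simpa using (FaithfulSMul.algebraMap_injective A L).ne hc0))
  rw [map_mul, map_mul]
  calc v (4 : L) * v (algebraMap A L c) * v t ≤ 1 * v (algebraMap A L c) * v t := by gcongr
    _ < v (algebraMap A L c) := by
      rw [one_mul]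
      exact mul_lt_of_lt_one_right hcpos ht

variable (hc0 : c ≠ 0) (hc : A.valuation (algebraMap A L c) < 1) (hpu : IsUnit (p : A))

include hpu

lemma tate_val_le {x y : L} (h : (((tateNF c).map (algebraMap A L))).toAffine.Nonsingular x y)
    (t : p • Affine.Point.some x y h = 0) : v x ≤ 1 :=
  val_torsion_x A (tateNF c) hpu h t

include hc

/-- Doubling preserves unit abscissae. -/
lemma tate_double_unit {x y xa ya : L} (h : (((tateNF c).map (algebraMap A L))).toAffine.Nonsingular x y)
    (ha : (((tateNF c).map (algebraMap A L))).toAffine.Nonsingular xa ya) (hx : v x = 1) (ta : p • Affine.Point.some xa ya ha = 0)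
    (hxa : xa * tP ((tateNF c).map (algebraMap A L)) (x * x) (x + x) 1 = sP ((tateNF c).map (algebraMap A L)) (x * x) (x + x) 1) : v xa = 1 := by
  have h4 : v (4 : L) ≤ 1 := by exact_mod_cast val_natCast_le_one (A := A) 4
  have h2 : v (2 : L) ≤ 1 := by exact_mod_cast val_natCast_le_one (A := A) 2
  have hxx : v (x + x) ≤ 1 := (A.valuation.map_add _ _).trans (max_le hx.le hx.le)
  have hs : v (sP ((tateNF c).map (algebraMap A L)) (x * x) (x + x) 1) = 1 := by
    rw [tateNF_sP, Valuation.map_sub_eq_of_lt_left]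
    · simp [hx]
    · simp only [map_pow, map_mul, hx, mul_one, one_pow]
      exact val_add_lt _ (val_mul_lt_one _ (val_mul_lt_one' _ h4 hc) hxx) hc
  have ht : v (tP ((tateNF c).map (algebraMap A L)) (x * x) (x + x) 1) ≤ 1 := by
    rw [tateNF_tP]
    refine (A.valuation.map_add _ _).trans (max_le (by simp [hx])
      ((A.valuation.map_add _ _).trans (max_le ?_ ?_)))
    · exact val_mul_le_one _ (val_mul_le_one _ h2 hxx) (by simp [hx])
    · exact val_mul_le_one _ h4 hc.le
  refine le_antisymm (tate_val_le hpu ha ta) ?_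
  have := congrArg v hxa
  rw [hs, map_mul] at this
  calc (1 : A.ValueGroup) = v xa * _ := this.symm
    _ ≤ v xa * 1 := by gcongr
    _ = v xa := mul_one _

/-- Multiples of a point with unit abscissa have unit abscissa. -/
lemma tate_nsmul_unit {x y : L} (h : (((tateNF c).map (algebraMap A L))).toAffine.Nonsingular x y)
    (t : p • Affine.Point.some x y h = 0) (hx : v x = 1) :
    ∀ (j : ℕ) (x' y' : L) (h' : (((tateNF c).map (algebraMap A L))).toAffine.Nonsingular x' y'),
      j • Affine.Point.some x y h = Affine.Point.some x' y' h' → v x' = 1 := by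
  intro j
  induction j with
  | zero =>
    intro x' y' h' e
    rw [zero_smul] at e
    exact absurd e.symm (Affine.Point.some_ne_zero h')
  | succ j ih =>
    intro x' y' h' e
    have t' : p • Affine.Point.some x' y' h' = 0 := by rw [← e, smul_comm, t, nsmul_zero]
    rw [succ_nsmul] at e
    rcases hj : j • Affine.Point.some x y h with _ | ⟨xj, yj, hxj⟩
    · rw [hj, ← Affine.Point.zero_def, zero_add, Affine.Point.some.injEq] at e
      rw [← e.1, hx]
    have hxj1 := ih _ _ hxj hj
    rw [hj] at e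
    rcases eq_or_ne xj x with hxx | hxx
    · subst hxx
      rcases (Affine.Point.X_eq_iff (h₁ := hxj) (h₂ := h)).1 rfl with e' | e'
      · rw [e'] at e
        have hy0 : 2 * y + (((tateNF c).map (algebraMap A L))).a₁ * xj + (((tateNF c).map (algebraMap A L))).a₃ ≠ 0 := by
          intro h0
          rw [(add_self_eq_zero_iff h).2 h0] at e
          exact Affine.Point.some_ne_zero h' e.symm
        obtain ⟨xa, ya, hha, e'', hxa⟩ := double_of_ne h hy0
        rw [e'', Affine.Point.some.injEq] at e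
        rw [← e.1]
        exact tate_double_unit hc hpu h hha hx
          (by rw [← e'', nsmul_add, t, add_zero]) hxa
      · rw [e', neg_add_cancel] at e
        exact absurd e.symm (Affine.Point.some_ne_zero h')
    obtain ⟨xa, ya, xs, ys, hha, hhs, ea, es, -, hprod⟩ := addSub_of_ne hxj h hxx
    rw [ea, Affine.Point.some.injEq] at e
    rw [← e.1]
    have tj : p • Affine.Point.some xj yj hxj = 0 := by rw [← hj, smul_comm, t, nsmul_zero]
    have ia := tate_val_le hpu hha (by rw [← ea, nsmul_add, tj, t, add_zero])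
    have is := tate_val_le hpu hhs (by rw [← es, nsmul_sub, tj, t, sub_zero])
    have h4 : v (4 : L) ≤ 1 := by exact_mod_cast val_natCast_le_one (A := A) 4
    have hxx' : v (xj + x) ≤ 1 := (A.valuation.map_add _ _).trans (max_le hxj1.le hx.le)
    have hs : v (sP ((tateNF c).map (algebraMap A L)) (xj * x) (xj + x) 1) = 1 := by
      rw [tateNF_sP, Valuation.map_sub_eq_of_lt_left]
      · simp [hx, hxj1]
      · simp only [map_pow, map_mul, hx, hxj1, mul_one, one_pow]
        exact val_add_lt _ (val_mul_lt_one _ (val_mul_lt_one' _ h4 hc) hxx') hc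
    have hu : v (uP (xj * x) (xj + x) 1) ≤ 1 := by
      rw [show uP (xj * x) (xj + x) 1 = (xj - x) ^ 2 by simp only [uP]; ring, map_pow]
      exact pow_le_one₀ zero_le ((A.valuation.map_sub _ _).trans (max_le hxj1.le hx.le))
    rw [← hprod, map_mul, map_mul] at hs
    refine le_antisymm ia ?_
    calc (1 : A.ValueGroup) = v xa * v xs * _ := hs.symm
      _ ≤ v xa * 1 * 1 := by gcongr
      _ = v xa := by simp

/-- A nonzero torsion point none of whose multiples has a unit abscissa: not a unit, and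
no multiple is. -/
lemma tate_singular_nsmul {x y : L} (h : (((tateNF c).map (algebraMap A L))).toAffine.Nonsingular x y)
    (t : p • Affine.Point.some x y h = 0) (hx : v x < 1) {j : ℕ} (hj : ¬ p ∣ j) :
    ∃ (x' y' : L) (h' : (((tateNF c).map (algebraMap A L))).toAffine.Nonsingular x' y'),
      j • Affine.Point.some x y h = Affine.Point.some x' y' h' ∧ v x' < 1 ∧
      p • Affine.Point.some x' y' h' = 0 := by
  obtain ⟨k, hk⟩ := (Nat.exists_mul_mod_eq_one_of_coprime
    (hp.out.coprime_iff_not_dvd.2 hj).symm hp.out.one_lt)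
  have hkj : k • (j • Affine.Point.some x y h) = Affine.Point.some x y h := by
    rw [← mul_nsmul', mul_comm, ← Nat.mod_add_div (j * k) p, add_nsmul, hk.2, one_nsmul,
      mul_nsmul, t, nsmul_zero, add_zero]
  rcases e : j • Affine.Point.some x y h with _ | ⟨x', y', h'⟩
  · rw [e, ← Affine.Point.zero_def, nsmul_zero] at hkj
    exact absurd hkj.symm (Affine.Point.some_ne_zero h)
  have t' : p • Affine.Point.some x' y' h' = 0 := by rw [← e, smul_comm, t, nsmul_zero]
  refine ⟨x', y', h', rfl, lt_of_le_of_ne (tate_val_le hpu h' t') fun h1 => ?_, t'⟩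
  rw [e] at hkj
  exact hx.ne (tate_nsmul_unit hc hpu h' t' h1 k x y h hkj)

/-- Every nonzero multiple of the torsion point lies on the singular part `v x < 1`. -/
def TateSing (c : A) (p : ℕ) (P : ((tateNF c).map (algebraMap A L)).toAffine.Point) : Prop :=
  ∀ j : ℕ, ¬ p ∣ j → ∃ (x' y' : L) (h' : ((tateNF c).map (algebraMap A L)).toAffine.Nonsingular x' y'),
    j • P = Affine.Point.some x' y' h' ∧ A.valuation x' < 1 ∧ p • Affine.Point.some x' y' h' = 0

omit [IsAlgClosed L] [CharZero L] hc hpu in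
lemma TateSing.nsmul {P : ((tateNF c).map (algebraMap A L)).toAffine.Point} (hP : TateSing c p P)
    {i : ℕ} (hi : ¬ p ∣ i) : TateSing c p (i • P) := fun j hj => by
  obtain ⟨x', y', h', e, h1, h2⟩ := hP (i * j) (fun h => (hp.out.dvd_mul.1 h).elim hi hj)
  exact ⟨x', y', h', by rw [← mul_nsmul, e], h1, h2⟩

lemma tate_tateSing {x y : L} (h : ((tateNF c).map (algebraMap A L)).toAffine.Nonsingular x y)
    (t : p • Affine.Point.some x y h = 0) (hx : v x < 1) :
    TateSing c p (Affine.Point.some x y h) :=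
  fun _ hj => tate_singular_nsmul hc hpu h t hx hj

omit hpu
include hc0

/-- Position is strictly less than half. -/
lemma tate_c_lt_sq_of_sing (hodd : Odd p) {x y : L} (h : (((tateNF c).map (algebraMap A L))).toAffine.Nonsingular x y)
    (hsing : TateSing c p (Affine.Point.some x y h)) (hx : v x < 1) : v (algebraMap A L c) < v x ^ 2 := by
  by_contra hle
  push Not at hle
  have hp2 : ¬ p ∣ 2 := fun hd => by
    have := Nat.le_of_dvd two_pos hd
    have := hp.out.two_le
    obtain ⟨k, hk⟩ := hodd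
    omega
  obtain ⟨xa, ya, ha, ea, hxa, -⟩ := hsing 2 hp2
  rw [two_nsmul] at ea
  have hy0 : 2 * y + (((tateNF c).map (algebraMap A L))).a₁ * x + (((tateNF c).map (algebraMap A L))).a₃ ≠ 0 := by
    intro h0
    rw [(add_self_eq_zero_iff h).2 h0] at ea
    exact Affine.Point.some_ne_zero ha ea.symm
  obtain ⟨xb, yb, hb, eb, hxb⟩ := double_of_ne h hy0
  rw [eb, Affine.Point.some.injEq] at ea
  rw [ea.1] at hxb
  have hxx : v (x + x) < 1 := val_add_lt _ hx hx
  have hcpos : 0 < v (algebraMap A L c) := zero_lt_iff.2 ((map_ne_zero _).2 (by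
    simpa using (FaithfulSMul.algebraMap_injective A L).ne hc0))
  have hs : v (sP ((tateNF c).map (algebraMap A L)) (x * x) (x + x) 1) = v (algebraMap A L c) := by
    rw [tateNF_sP, Valuation.map_sub_eq_of_lt_right, Valuation.map_add_eq_of_lt_right]
    · exact val_four_mul_lt hc0 hxx
    · rw [Valuation.map_add_eq_of_lt_right _ (val_four_mul_lt hc0 hxx)]
      rw [map_pow, map_mul, ← pow_two, ← pow_mul]
      calc v x ^ (2 * 2) = v x ^ 2 * v x ^ 2 := by rw [← pow_add]
        _ ≤ v (algebraMap A L c) * v (algebraMap A L c) := by gcongr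
        _ < v (algebraMap A L c) := mul_lt_of_lt_one_right hcpos hc
  have ht : v (tP ((tateNF c).map (algebraMap A L)) (x * x) (x + x) 1) ≤ v (algebraMap A L c) := by
    rw [tateNF_tP]
    have h2 : v (2 : L) ≤ 1 := by exact_mod_cast val_natCast_le_one (A := A) 2
    have h4 : v (4 : L) ≤ 1 := by exact_mod_cast val_natCast_le_one (A := A) 4
    have hxx2 : v (x * x) ≤ v (algebraMap A L c) := by rwa [map_mul, ← pow_two]
    refine (A.valuation.map_add _ _).trans (max_le hxx2
      ((A.valuation.map_add _ _).trans (max_le ?_ ?_)))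
    · rw [map_mul]
      calc v (2 * (x + x)) * v (x * x) ≤ 1 * v (algebraMap A L c) := by
            gcongr
            exact val_mul_le_one _ h2 hxx.le
        _ = v (algebraMap A L c) := one_mul _
    · rw [map_mul]
      calc v (4 : L) * v (algebraMap A L c) ≤ 1 * v (algebraMap A L c) := by gcongr
        _ = v (algebraMap A L c) := one_mul _
  have := congrArg v hxb
  rw [hs, map_mul] at this
  refine (lt_irrefl (v (algebraMap A L c))) ?_
  calc v (algebraMap A L c) = v xa * _ := this.symm
    _ ≤ v xa * v (algebraMap A L c) := by gcongr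
    _ < v (algebraMap A L c) := mul_lt_of_lt_one_left hcpos hxa

/-- `v(product of x(P±Q))`: the numerator. -/
lemma tate_val_sP {x₁ x₂ : L} (h₁ : v x₁ < 1) (h₂ : v x₂ < 1) :
    (v (algebraMap A L c) < v (x₁ * x₂) ^ 2 → v (sP ((tateNF c).map (algebraMap A L)) (x₁ * x₂) (x₁ + x₂) 1) = v (x₁ * x₂) ^ 2) ∧
    (v (x₁ * x₂) ^ 2 < v (algebraMap A L c) → v (sP ((tateNF c).map (algebraMap A L)) (x₁ * x₂) (x₁ + x₂) 1) = v (algebraMap A L c)) ∧
    (v (x₁ * x₂) ^ 2 ≤ v (algebraMap A L c) → v (sP ((tateNF c).map (algebraMap A L)) (x₁ * x₂) (x₁ + x₂) 1) ≤ v (algebraMap A L c)) := by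
  have hr : v (4 * (algebraMap A L c) * (x₁ + x₂) + (algebraMap A L c)) = v (algebraMap A L c) :=
    Valuation.map_add_eq_of_lt_right _ (val_four_mul_lt hc0 (val_add_lt _ h₁ h₂))
  refine ⟨fun h => ?_, fun h => ?_, fun h => ?_⟩
  · rw [tateNF_sP, Valuation.map_sub_eq_of_lt_left _ (by rwa [hr, map_pow]), map_pow]
  · rw [tateNF_sP, Valuation.map_sub_eq_of_lt_right _ (by rwa [hr, map_pow]), hr]
  · rw [tateNF_sP]
    exact (A.valuation.map_sub _ _).trans (max_le (by rwa [map_pow]) hr.le)

/-- The positions of singular torsion points. -/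
theorem tate_position_of_sing (hodd : Odd p) {x y : L} (h : (((tateNF c).map (algebraMap A L))).toAffine.Nonsingular x y)
    (t : p • Affine.Point.some x y h = 0) (hsing : TateSing c p (Affine.Point.some x y h))
    (hx : v x < 1) :
    ∃ k : ℕ, v x ^ p = v (algebraMap A L c) ^ k := by
  classical
  set R₀ := Affine.Point.some x y h with hR₀
  let pos : (((tateNF c).map (algebraMap A L))).toAffine.Point → A.ValueGroup := fun P =>
    match P with
    | .zero => 0
    | .some x' _ _ => v x'
  have hne : (Finset.Ico 1 p).Nonempty := Finset.nonempty_Ico.2 hp.out.one_lt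
  obtain ⟨m, hm, hmax⟩ := (Finset.Ico 1 p).exists_max_image (fun j => pos (j • R₀)) hne
  rw [Finset.mem_Ico] at hm
  have hpm : ¬ p ∣ m := Nat.not_dvd_of_pos_of_lt (by omega) hm.2
  obtain ⟨xR, yR, hR, eR, hxR, tR⟩ := hsing m hpm
  set R := Affine.Point.some xR yR hR with hRdef
  set α := v xR with hα
  have hmax' : ∀ i : ℕ, pos (i • R₀) ≤ α := by
    intro i
    have hi : i • R₀ = (i % p) • R₀ := by
      conv_lhs => rw [← Nat.mod_add_div i p, add_nsmul, mul_nsmul, t, nsmul_zero, add_zero]
    rw [hi]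
    rcases Nat.eq_zero_or_pos (i % p) with h0 | h0
    · rw [h0, zero_smul]; exact zero_le
    · refine (hmax _ (Finset.mem_Ico.2 ⟨h0, Nat.mod_lt _ hp.out.pos⟩)).trans ?_
      rw [eR]
  have hpos : ∀ (j : ℕ) (x' y' : L) (h' : (((tateNF c).map (algebraMap A L))).toAffine.Nonsingular x' y'),
      j • R = Affine.Point.some x' y' h' → v x' ≤ α := by
    intro j x' y' h' e
    have := hmax' (j * m)
    rw [mul_nsmul', eR, e] at this
    exact this
  have hsR : TateSing c p (Affine.Point.some xR yR hR) := by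
    have := TateSing.nsmul hsing hpm
    rwa [eR] at this
  have hsq := fun (j : ℕ) (hj : ¬ p ∣ j) => hsR j hj
  have hαC : v (algebraMap A L c) < α ^ 2 := tate_c_lt_sq_of_sing hc0 hc hodd hR hsR hxR
  have hα0 : α ≠ 0 := fun e => by rw [e, zero_pow two_ne_zero] at hαC; exact not_lt_zero hαC
  have hαp : 0 < α := zero_lt_iff.2 hα0
  have hp3 : 3 ≤ p := by
    obtain ⟨k, hk⟩ := hodd
    have := hp.out.two_le
    omega
  -- the doubling facts at `R`
  obtain ⟨x2, y2, h2, e2, hx2, t2⟩ := hsq 2 (fun hd => by have := Nat.le_of_dvd two_pos hd; omega)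
  have hx2T : x2 * tP ((tateNF c).map (algebraMap A L)) (xR * xR) (xR + xR) 1 = sP ((tateNF c).map (algebraMap A L)) (xR * xR) (xR + xR) 1 := by
    rw [two_nsmul] at e2
    have hy0 : 2 * yR + (((tateNF c).map (algebraMap A L))).a₁ * xR + (((tateNF c).map (algebraMap A L))).a₃ ≠ 0 := by
      intro h0
      rw [(add_self_eq_zero_iff hR).2 h0] at e2
      exact Affine.Point.some_ne_zero h2 e2.symm
    obtain ⟨xb, yb, hb, eb, hxb⟩ := double_of_ne hR hy0
    rw [eb, Affine.Point.some.injEq] at e2
    rwa [← e2.1]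
  have hTR : v (tP ((tateNF c).map (algebraMap A L)) (xR * xR) (xR + xR) 1) = α ^ 2 := by
    have hxx : v (xR * xR) = α ^ 2 := by rw [map_mul, pow_two]
    rw [tateNF_tP, Valuation.map_add_eq_of_lt_left, hxx]
    rw [hxx]
    have h2' : v (2 : L) ≤ 1 := by exact_mod_cast val_natCast_le_one (A := A) 2
    have h4' : v (4 : L) ≤ 1 := by exact_mod_cast val_natCast_le_one (A := A) 4
    refine val_add_lt _ ?_ ?_
    · rw [map_mul, hxx]
      exact mul_lt_of_lt_one_left (pow_pos hαp 2)
        (val_mul_lt_one' _ h2' (val_add_lt _ hxR hxR))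
    · refine lt_of_le_of_lt ?_ hαC
      rw [map_mul]
      calc v (4 : L) * v (algebraMap A L c) ≤ 1 * v (algebraMap A L c) := by gcongr
        _ = v (algebraMap A L c) := one_mul _
  -- the claim
  have key : ∀ j, 1 ≤ j → v (algebraMap A L c) < α ^ (2 * j) → j < p ∧
      ∃ (xj yj : L) (hj : (((tateNF c).map (algebraMap A L))).toAffine.Nonsingular xj yj),
        j • R = Affine.Point.some xj yj hj ∧ v xj = α ^ j := by
    intro j
    induction j using Nat.strong_induction_on with
    | _ j ih =>
      intro hj1 hjC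
      rcases j with _ | _ | _ | j
      · omega
      · exact ⟨hp.out.one_lt, xR, yR, hR, one_nsmul _, by rw [pow_one]⟩
      · refine ⟨by omega, x2, y2, h2, e2, ?_⟩
        have := congrArg v hx2T
        rw [map_mul, hTR, (tate_val_sP hc0 hc hxR hxR).1 (by
          rw [map_mul, ← hα, ← pow_two, ← pow_mul]; exact hjC), map_mul, ← hα] at this
        apply mul_right_cancel₀ (pow_ne_zero 2 hα0)
        rw [this]
        simp only [zero_add, Nat.reduceAdd, pow_two]
      · have hC1 : ∀ i, i ≤ j + 3 → v (algebraMap A L c) < α ^ (2 * i) := fun i hi =>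
          hjC.trans_le (pow_le_pow_right_of_le_one' hxR.le (by omega))
        obtain ⟨hlt1, x1', y1', h1', e1', hv1⟩ := ih (j + 1) (by omega) (by omega) (hC1 _ (by omega))
        obtain ⟨hlt2, x2', y2', h2', e2', hv2⟩ := ih (j + 2) (by omega) (by omega) (hC1 _ (by omega))
        have hvlt : v x2' < v xR := by
          rw [hv2, ← hα]
          calc α ^ (j + 2) ≤ α ^ 2 := pow_le_pow_right_of_le_one' hxR.le (by omega)
            _ < α := by rw [pow_two]; exact mul_lt_of_lt_one_right hαp hxR
        have hxne : x2' ≠ xR := fun e => hvlt.ne (by rw [e])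
        obtain ⟨xa, ya, xs, ys, hha, hhs, ea, es, -, hprod⟩ := addSub_of_ne h2' hR hxne
        have e3 : (j + 3) • R = Affine.Point.some xa ya hha := by
          rw [show j + 3 = (j + 2) + 1 from rfl, succ_nsmul, e2', hRdef, ea]
        have hnd : j + 3 ≠ p := by
          intro e
          rw [e, hRdef, tR] at e3
          exact Affine.Point.some_ne_zero hha e3.symm
        refine ⟨by omega, xa, ya, hha, e3, ?_⟩
        have hxs : xs = x1' := by
          have : (j + 1) • R = Affine.Point.some xs ys hhs := by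
            rw [← es, ← e2', ← hRdef, show j + 2 = (j + 1) + 1 from rfl, succ_nsmul R (j + 1),
              add_sub_cancel_right]
          rw [e1', Affine.Point.some.injEq] at this
          exact this.1.symm
        have hU : v (uP (x2' * xR) (x2' + xR) 1) = α ^ 2 := by
          rw [show uP (x2' * xR) (x2' + xR) 1 = (x2' - xR) ^ 2 by simp only [uP]; ring, map_pow,
            Valuation.map_sub_eq_of_lt_right _ hvlt]
        have := congrArg v hprod
        rw [(tate_val_sP hc0 hc (hvlt.trans hxR) hxR).1 (by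
          rw [map_mul, hv2, ← hα, ← pow_succ, ← pow_mul]
          convert hjC using 2; ring), map_mul, map_mul, hU, map_mul, hxs, hv1, hv2, ← hα] at this
        apply mul_right_cancel₀ (pow_ne_zero (j + 3) hα0)
        calc v xa * α ^ (j + 3) = v xa * α ^ (j + 1) * α ^ 2 := by
              rw [mul_assoc, ← pow_add]
          _ = (α ^ (j + 2) * α) ^ 2 := this
          _ = α ^ (j + 3) * α ^ (j + 3) := by rw [← pow_succ, pow_two]
  -- the first failure
  have hfail : ∃ j, ¬ v (algebraMap A L c) < α ^ (2 * (j + 1)) := by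
    refine ⟨p, fun hlt => ?_⟩
    have := (key (p + 1) (by omega) hlt).1
    omega
  obtain ⟨hJfail, hJmin⟩ := Nat.find_spec hfail, @Nat.find_min _ _ hfail
  set J := Nat.find hfail with hJdef
  have hJ1 : 1 ≤ J := by
    by_contra h0
    rw [show J = 0 by omega] at hJfail
    exact hJfail (by simpa using hαC)
  have hJC : v (algebraMap A L c) < α ^ (2 * J) := by
    by_contra h0
    exact hJmin (m := J - 1) (by omega) (by rwa [Nat.sub_add_cancel hJ1])
  push Not at hJfail
  obtain ⟨hJp, xJ, yJ, hJ, eJ, hvJ⟩ := key J hJ1 hJC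
  have hJ1p : ¬ p ∣ J + 1 := by
    intro hd
    have hJe : J + 1 = p := le_antisymm (by omega) (Nat.le_of_dvd (by omega) hd)
    have e0 : J • R + R = 0 := by rw [← succ_nsmul, hJe, hRdef, tR]
    have hneg : J • R = -R := eq_neg_of_add_eq_zero_left e0
    rw [eJ, hRdef, Affine.Point.neg_some, Affine.Point.some.injEq] at hneg
    rw [hneg.1, ← hα] at hvJ
    have : α ^ J ≤ α ^ 2 := pow_le_pow_right_of_le_one' hxR.le (by omega)
    rw [← hvJ] at this
    exact absurd this (not_le.2 (by rw [pow_two]; exact mul_lt_of_lt_one_right hαp hxR))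
  obtain ⟨xB, yB, hB, eB, hxB, tB⟩ := hsq (J + 1) hJ1p
  set β := v xB with hβ
  have hβα : β ≤ α := hpos _ _ _ _ eB
  have hβC : v (algebraMap A L c) < β ^ 2 := tate_c_lt_sq_of_sing hc0 hc hodd hB (eB ▸ TateSing.nsmul hsR hJ1p) hxB
  -- `β α^(J+1) = v c` and `α^(2J+2) < v c`
  have hrel : (v (algebraMap A L c) ≥ α ^ (2 * (J + 1)) → β * α ^ (J + 1) ≤ v (algebraMap A L c)) ∧
      (v (algebraMap A L c) > α ^ (2 * (J + 1)) → β * α ^ (J + 1) = v (algebraMap A L c)) := by
    rcases Nat.eq_or_lt_of_le hJ1 with hJ1' | hJ1'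
    · -- `J = 1`
      have hB2 : xB = x2 := by
        rw [← hJ1'] at eB
        have := eB.symm.trans e2
        rw [Affine.Point.some.injEq] at this
        exact this.1
      have hS := tate_val_sP hc0 hc hxR hxR
      have := congrArg v hx2T
      rw [map_mul, hTR, ← hB2, ← hβ] at this
      rw [← hJ1', show (1 + 1) = 2 from rfl, this]
      refine ⟨fun hh => hS.2.2 ?_, fun hh => hS.2.1 ?_⟩
      · rw [map_mul, ← hα, ← pow_two, ← pow_mul]; exact hh
      · rw [map_mul, ← hα, ← pow_two, ← pow_mul]; exact hh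
    · have hvlt : v xJ < v xR := by
        rw [hvJ, ← hα]
        calc α ^ J ≤ α ^ 2 := pow_le_pow_right_of_le_one' hxR.le (by omega)
          _ < α := by rw [pow_two]; exact mul_lt_of_lt_one_right hαp hxR
      have hxne : xJ ≠ xR := fun e => hvlt.ne (by rw [e])
      obtain ⟨xa, ya, xs, ys, hha, hhs, ea, es, -, hprod⟩ := addSub_of_ne hJ hR hxne
      have hxa : xa = xB := by
        rw [← eJ, ← hRdef, ← succ_nsmul, eB, Affine.Point.some.injEq] at ea
        exact ea.1.symm
      obtain ⟨-, xP, yP, hP, eP, hvP⟩ := key (J - 1) (by omega)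
        (hJC.trans_le (pow_le_pow_right_of_le_one' hxR.le (by omega)))
      have hxs : xs = xP := by
        rw [← eJ, ← hRdef, show J = J - 1 + 1 by omega, succ_nsmul, add_sub_cancel_right, eP,
          Affine.Point.some.injEq] at es
        exact es.1.symm
      have hU : v (uP (xJ * xR) (xJ + xR) 1) = α ^ 2 := by
        rw [show uP (xJ * xR) (xJ + xR) 1 = (xJ - xR) ^ 2 by simp only [uP]; ring, map_pow,
          Valuation.map_sub_eq_of_lt_right _ hvlt]
      have := congrArg v hprod
      rw [map_mul, map_mul, hU, hxs, hvP, hxa, ← hβ, mul_assoc, ← pow_add,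
        show J - 1 + 2 = J + 1 by omega] at this
      rw [this]
      have hS := tate_val_sP hc0 hc (hvlt.trans hxR) hxR
      refine ⟨fun hh => hS.2.2 ?_, fun hh => hS.2.1 ?_⟩
      · rw [map_mul, hvJ, ← hα, ← pow_succ, ← pow_mul]; convert hh using 2; ring
      · rw [map_mul, hvJ, ← hα, ← pow_succ, ← pow_mul]; convert hh using 2; ring
  have hlt : α ^ (2 * (J + 1)) < v (algebraMap A L c) := by
    refine lt_of_le_of_ne hJfail fun he => ?_
    have h1 := hrel.1 he.le
    rw [← he, two_mul, pow_add α (J + 1) (J + 1)] at h1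
    have hβle : β ≤ α ^ (J + 1) := le_of_mul_le_mul_right h1 (pow_pos hαp _)
    have : β ^ 2 ≤ v (algebraMap A L c) := by
      rw [← he, two_mul, pow_add, pow_two]; gcongr
    exact absurd hβC (not_lt.2 this)
  have hrel' := hrel.2 hlt
  have hcpos : 0 < v (algebraMap A L c) := lt_of_le_of_lt zero_le hlt
  -- compare `β` and `α ^ J`
  have hne2 : β = α ^ J := by
    by_contra hne
    have hxne : xB ≠ xJ := fun e => hne (by rw [hβ, e, hvJ])
    obtain ⟨xa, ya, xs, ys, hha, hhs, ea, es, -, hprod⟩ := addSub_of_ne hB hJ hxne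
    have e1 : (2 * J + 1) • R = Affine.Point.some xa ya hha := by
      rw [show 2 * J + 1 = J + 1 + J by ring, add_nsmul, eB, eJ, ea]
    have hγ := hpos _ _ _ _ e1
    have hxs : xs = xR := by
      rw [← eB, ← eJ, succ_nsmul, add_sub_cancel_left, Affine.Point.some.injEq] at es
      exact es.1.symm
    have hvs : v (sP ((tateNF c).map (algebraMap A L)) (xB * xJ) (xB + xJ) 1) = v (algebraMap A L c) := by
      refine (tate_val_sP hc0 hc hxB ?_).2.1 ?_
      · rw [hvJ]; exact pow_lt_one₀ zero_le hxR (by omega)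
      · rw [map_mul, ← hβ, hvJ]
        refine lt_of_mul_lt_mul_right (a := α ^ 2) ?_ zero_le
        calc (β * α ^ J) ^ 2 * α ^ 2 = (β * α ^ (J + 1)) ^ 2 := by
              rw [← mul_pow, mul_assoc, ← pow_succ]
          _ = v (algebraMap A L c) * v (algebraMap A L c) := by rw [hrel', pow_two]
          _ < v (algebraMap A L c) * α ^ 2 := mul_lt_mul_of_pos_left hαC hcpos
    have := congrArg v hprod
    rw [map_mul, map_mul, hvs, hxs, ← hα,
      show uP (xB * xJ) (xB + xJ) 1 = (xB - xJ) ^ 2 by simp only [uP]; ring, map_pow] at this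
    rcases lt_or_gt_of_ne hne with hlt' | hlt'
    · rw [Valuation.map_sub_eq_of_lt_right _ (by rwa [← hβ, hvJ]), hvJ] at this
      refine absurd hlt (not_lt.2 ?_)
      calc v (algebraMap A L c) = v xa * α * (α ^ J) ^ 2 := this.symm
        _ ≤ α * α * (α ^ J) ^ 2 := by gcongr
        _ = α ^ (2 * (J + 1)) := by
          rw [← pow_two, ← pow_mul, ← pow_add]; congr 1; ring
    · rw [Valuation.map_sub_eq_of_lt_left _ (by rw [← hβ, hvJ]; exact hlt'), ← hβ] at this
      refine absurd hJC (not_lt.2 ?_)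
      have hβ0 : β ≠ 0 := fun e => by rw [e] at hlt'; exact not_lt_zero hlt'
      have h1 : v xa * β = α ^ J := by
        apply mul_right_cancel₀ (mul_ne_zero hβ0 hα0)
        calc v xa * β * (β * α) = v xa * α * β ^ 2 := by
              rw [pow_two]; ac_rfl
          _ = β * α ^ (J + 1) := this.trans hrel'.symm
          _ = α ^ J * (β * α) := by rw [pow_succ]; ac_rfl
      have h2 : α ^ J ≤ α * β := h1 ▸ mul_le_mul_left hγ β
      calc v (algebraMap A L c) = β * α ^ (J + 1) := hrel'.symm
        _ = α ^ J * (α * β) := by rw [pow_succ]; ac_rfl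
        _ ≥ α ^ J * α ^ J := by gcongr
        _ = α ^ (2 * J) := by rw [← pow_add, two_mul]
  have hcc : v (algebraMap A L c) = α ^ (2 * J + 1) := by
    rw [← hrel', hne2, ← pow_add]; congr 1; ring
  -- `p = 2J+1`
  have hp2J : 2 * J + 1 = p := by
    by_contra hne
    have hnd : ¬ p ∣ 2 * J + 1 := by
      rintro ⟨k, hk⟩
      rcases k with _ | _ | k
      · omega
      · omega
      · have : p * 2 ≤ p * (k + 1 + 1) := Nat.mul_le_mul_left p (by omega)
        omega
    obtain ⟨xa, ya, hha, ea, hxa, ta⟩ := hsq (2 * J + 1) hnd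
    have hxx : xB ≠ xJ := by
      intro e
      subst e
      rcases (Affine.Point.X_eq_iff (h₁ := hB) (h₂ := hJ)).1 rfl with e' | e'
      · rw [← eB, ← eJ, succ_nsmul, add_eq_left] at e'
        exact Affine.Point.some_ne_zero hR e'
      · rw [← eB, ← eJ, eq_neg_iff_add_eq_zero, ← add_nsmul,
          show J + 1 + J = 2 * J + 1 by ring, ea] at e'
        exact Affine.Point.some_ne_zero hha e'
    obtain ⟨xa', ya', xs, ys, hha', hhs, ea', es, hsum, -⟩ := addSub_of_ne hB hJ hxx
    have e1 : xa' = xa := by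
      rw [← eB, ← eJ, ← add_nsmul, show J + 1 + J = 2 * J + 1 by ring, ea,
        Affine.Point.some.injEq] at ea'
      exact ea'.1.symm
    have e2' : xs = xR := by
      rw [← eB, ← eJ, succ_nsmul, add_sub_cancel_left, Affine.Point.some.injEq] at es
      exact es.1.symm
    rw [e1, e2', show uP (xB * xJ) (xB + xJ) 1 = (xB - xJ) ^ 2 by simp only [uP]; ring] at hsum
    have hT : v (tP ((tateNF c).map (algebraMap A L)) (xB * xJ) (xB + xJ) 1) = α ^ (2 * J) := by
      have hb : v (xB * xJ) = α ^ (2 * J) := by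
        rw [map_mul, ← hβ, hne2, hvJ, ← pow_add, two_mul]
      rw [tateNF_tP, Valuation.map_add_eq_of_lt_left, hb]
      rw [hb]
      have h2' : v (2 : L) ≤ 1 := by exact_mod_cast val_natCast_le_one (A := A) 2
      have h4' : v (4 : L) ≤ 1 := by exact_mod_cast val_natCast_le_one (A := A) 4
      have hJlt : v xJ < 1 := by rw [hvJ]; exact pow_lt_one₀ zero_le hxR (by omega)
      refine val_add_lt _ ?_ ?_
      · rw [map_mul, hb]
        exact mul_lt_of_lt_one_left (pow_pos hαp _)
          (val_mul_lt_one' _ h2' (val_add_lt _ hxB hJlt))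
      · refine lt_of_le_of_lt ?_ hJC
        rw [map_mul]
        calc v (4 : L) * v (algebraMap A L c) ≤ 1 * v (algebraMap A L c) := by gcongr
          _ = v (algebraMap A L c) := one_mul _
    have hsum' : v (xa + xR) < 1 := val_add_lt _ hxa hxR
    have hD : v ((xB - xJ) ^ 2) ≤ α ^ (2 * J) := by
      rw [map_pow, mul_comm 2 J, pow_mul]
      refine pow_le_pow_left₀ zero_le ((A.valuation.map_sub _ _).trans (max_le ?_ hvJ.le)) 2
      rw [← hβ, hne2]
    have := congrArg v hsum
    rw [map_mul, hT] at this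
    refine (lt_irrefl (α ^ (2 * J))) ?_
    calc α ^ (2 * J) = v (xa + xR) * v ((xB - xJ) ^ 2) := this.symm
      _ ≤ v (xa + xR) * α ^ (2 * J) := by gcongr
      _ < α ^ (2 * J) := mul_lt_of_lt_one_left (pow_pos hαp _) hsum'
  -- back to `x`
  obtain ⟨k, hk, hk0⟩ : ∃ k, k < p ∧ k • R = R₀ := by
    obtain ⟨i, hi⟩ := Nat.exists_mul_mod_eq_one_of_coprime
      (hp.out.coprime_iff_not_dvd.2 hpm).symm hp.out.one_lt
    refine ⟨i, hi.1, ?_⟩
    rw [← eR, ← mul_nsmul', mul_comm, ← Nat.mod_add_div (m * i) p, add_nsmul, hi.2, one_nsmul,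
      mul_nsmul, t, nsmul_zero, add_zero]
  have hk1 : 1 ≤ k := by
    by_contra hh
    rw [show k = 0 by omega, zero_smul] at hk0
    exact Affine.Point.some_ne_zero h hk0.symm
  have hgood : ∀ i, 1 ≤ i → i ≤ J → v (algebraMap A L c) < α ^ (2 * i) := fun i _ hi =>
    hJC.trans_le (pow_le_pow_right_of_le_one' hxR.le (by omega))
  have hfin : ∀ i, v x = α ^ i → ∃ k : ℕ, v x ^ p = v (algebraMap A L c) ^ k := fun i hi =>
    ⟨i, by rw [hi, hcc, hp2J, ← pow_mul, ← pow_mul, mul_comm]⟩
  rcases le_or_gt k J with hkJ | hkJ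
  · obtain ⟨-, xk, yk, hxk, ek, hvk⟩ := key k hk1 (hgood k hk1 hkJ)
    rw [hk0, hR₀, Affine.Point.some.injEq] at ek
    exact hfin k (by rw [ek.1, hvk])
  · obtain ⟨-, xk, yk, hxk, ek, hvk⟩ := key (p - k) (by omega) (hgood _ (by omega) (by omega))
    have : (p - k) • R = -R₀ := by
      rw [← hk0, eq_neg_iff_add_eq_zero, ← add_nsmul, Nat.sub_add_cancel hk.le]
      exact tR
    rw [ek, hR₀, Affine.Point.neg_some, Affine.Point.some.injEq] at this
    exact hfin (p - k) (by rw [← this.1, hvk])

include hpu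

lemma tate_c_lt_sq (hodd : Odd p) {x y : L}
    (h : ((tateNF c).map (algebraMap A L)).toAffine.Nonsingular x y)
    (t : p • Affine.Point.some x y h = 0) (hx : v x < 1) : v (algebraMap A L c) < v x ^ 2 :=
  tate_c_lt_sq_of_sing hc0 hc hodd h (tate_tateSing hc hpu h t hx) hx

/-- The positions of singular torsion points. -/
theorem tate_position (hodd : Odd p) {x y : L}
    (h : ((tateNF c).map (algebraMap A L)).toAffine.Nonsingular x y)
    (t : p • Affine.Point.some x y h = 0) (hx : v x < 1) :
    ∃ k : ℕ, v x ^ p = v (algebraMap A L c) ^ k :=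
  tate_position_of_sing hc0 hc hodd h t (tate_tateSing hc hpu h t hx) hx

/-- Singular torsion points with the same leading terms coincide. -/
theorem tate_eq_of_congr (hodd : Odd p) {x₁ y₁ x₂ y₂ : L}
    (h₁ : (((tateNF c).map (algebraMap A L))).toAffine.Nonsingular x₁ y₁) (h₂ : (((tateNF c).map (algebraMap A L))).toAffine.Nonsingular x₂ y₂)
    (t₁ : p • Affine.Point.some x₁ y₁ h₁ = 0) (t₂ : p • Affine.Point.some x₂ y₂ h₂ = 0)
    (hγ : v x₁ < 1) (hx : v (x₁ - x₂) < v x₁) (hy : v (y₁ - y₂) < v x₁) :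
    Affine.Point.some x₁ y₁ h₁ = Affine.Point.some x₂ y₂ h₂ := by
  have hC := tate_c_lt_sq hc0 hc hpu hodd h₁ t₁ hγ
  have hx2 : v x₂ = v x₁ := by
    have := Valuation.map_sub_eq_of_lt_left A.valuation hx
    rwa [sub_sub_cancel] at this
  have hγ0 : 0 < v x₁ := lt_of_le_of_lt zero_le hx
  have hT : v (tP ((tateNF c).map (algebraMap A L)) (x₁ * x₂) (x₁ + x₂) 1) = v x₁ ^ 2 := by
    have h2' : v (2 : L) ≤ 1 := by exact_mod_cast val_natCast_le_one (A := A) 2
    have h4' : v (4 : L) ≤ 1 := by exact_mod_cast val_natCast_le_one (A := A) 4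
    have hb : v (x₁ * x₂) = v x₁ ^ 2 := by rw [map_mul, hx2, pow_two]
    rw [tateNF_tP, Valuation.map_add_eq_of_lt_left, hb]
    rw [hb]
    refine val_add_lt _ ?_ ?_
    · rw [map_mul, hb]
      exact mul_lt_of_lt_one_left (pow_pos hγ0 _)
        (val_mul_lt_one' _ h2' (val_add_lt _ hγ (hx2 ▸ hγ)))
    · refine lt_of_le_of_lt ?_ hC
      rw [map_mul]
      calc v (4 : L) * v (algebraMap A L c) ≤ 1 * v (algebraMap A L c) := by gcongr
        _ = v (algebraMap A L c) := one_mul _
  rcases eq_or_ne x₁ x₂ with hxx | hxx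
  · subst hxx
    rcases (Affine.Point.X_eq_iff (h₁ := h₁) (h₂ := h₂)).1 rfl with e | e
    · exact e
    rw [Affine.Point.neg_some, Affine.Point.some.injEq] at e
    exfalso
    have hpsi : v (2 * y₁ + (((tateNF c).map (algebraMap A L))).a₁ * x₁ + (((tateNF c).map (algebraMap A L))).a₃) < v x₁ := by
      have : 2 * y₁ + (((tateNF c).map (algebraMap A L))).a₁ * x₁ + (((tateNF c).map (algebraMap A L))).a₃ = y₁ - y₂ := by
        rw [e.2, Affine.negY]
        ring
      rwa [this]
    rw [← psi2_sq h₁.1, map_pow] at hT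
    exact hT.not_lt (pow_lt_pow_left₀ hpsi zero_le two_ne_zero)
  · exfalso
    obtain ⟨xa, ya, xs, ys, hha, hhs, ea, es, hsum, -⟩ := addSub_of_ne h₁ h₂ hxx
    have ia := tate_val_le hpu hha (by rw [← ea, nsmul_add, t₁, t₂, add_zero])
    have is := tate_val_le hpu hhs (by rw [← es, nsmul_sub, t₁, t₂, sub_zero])
    have := congrArg v hsum
    rw [map_mul, hT, show uP (x₁ * x₂) (x₁ + x₂) 1 = (x₁ - x₂) ^ 2 by simp only [uP]; ring,
      map_pow] at this
    refine lt_irrefl (v x₁ ^ 2) ?_
    calc v x₁ ^ 2 = v (xa + xs) * v (x₁ - x₂) ^ 2 := this.symm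
      _ ≤ 1 * v (x₁ - x₂) ^ 2 := by
          gcongr
          exact (A.valuation.map_add _ _).trans (max_le ia is)
      _ < v x₁ ^ 2 := by rw [one_mul]; exact pow_lt_pow_left₀ hx zero_le two_ne_zero

end Fermat.Agent.EC
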