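import Mathlib

/-!
# The group homomorphism on points induced by a change of variables
-/

set_option autoImplicit false

namespace Fermat.Agent.EC

open WeierstrassCurve

variable {K : Type*} [Field K] (C : VariableChange K) (W : WeierstrassCurve K)

/-- New `x`-coordinate. -/
def vcX (x : K) : K := (x - C.r) / (C.u : K) ^ 2

/-- New `y`-coordinate. -/
def vcY (x y : K) : K := (y - C.s * (x - C.r) - C.t) / (C.u : K) ^ 3

variable {W}

lemma vc_equation {x y : K} (h : W.toAffine.Equation x y) :
    (C • W).toAffine.Equation (vcX C x) (vcY C x y) := by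
  rw [Affine.equation_iff] at h ⊢
  have hu : (C.u : K) ≠ 0 := C.u.ne_zero
  simp only [variableChange_a₁, variableChange_a₂, variableChange_a₃, variableChange_a₄,
    variableChange_a₆, vcX, vcY, Units.val_inv_eq_inv_val]
  field_simp
  linear_combination h

variable [W.IsElliptic]

lemma vc_nonsingular {x y : K} (h : W.toAffine.Nonsingular x y) :
    (C • W).toAffine.Nonsingular (vcX C x) (vcY C x y) :=
  (Affine.equation_iff_nonsingular (W := (C • W).toAffine)).1 (vc_equation C h.1)

lemma vcX_inj {x₁ x₂ : K} : vcX C x₁ = vcX C x₂ ↔ x₁ = x₂ := by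
  simp only [vcX]
  rw [div_left_inj' (pow_ne_zero 2 C.u.ne_zero), sub_left_inj]

omit [W.IsElliptic] in
lemma vc_negY (x y : K) :
    (C • W).toAffine.negY (vcX C x) (vcY C x y) = vcY C x (W.toAffine.negY x y) := by
  have hu : (C.u : K) ≠ 0 := C.u.ne_zero
  simp only [Affine.negY, variableChange_a₁, variableChange_a₃, vcX, vcY, Units.val_inv_eq_inv_val]
  field_simp
  ring

lemma vcY_inj {x y₁ y₂ : K} : vcY C x y₁ = vcY C x y₂ ↔ y₁ = y₂ := by
  simp only [vcY]
  rw [div_left_inj' (pow_ne_zero 3 C.u.ne_zero)]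
  simp

/-- The map on points. -/
noncomputable def vcFun : W.toAffine.Point → (C • W).toAffine.Point
  | .zero => 0
  | .some x y h => .some (vcX C x) (vcY C x y) (vc_nonsingular C h)

variable [DecidableEq K]

lemma vcFun_add (P Q : W.toAffine.Point) : vcFun C (P + Q) = vcFun C P + vcFun C Q := by
  rcases P with _ | ⟨x₁, y₁, h₁⟩
  · simp only [← Affine.Point.zero_def, zero_add]
    exact (zero_add (vcFun C Q)).symm
  rcases Q with _ | ⟨x₂, y₂, h₂⟩
  · simp only [← Affine.Point.zero_def, add_zero]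
    exact (add_zero (vcFun C (Affine.Point.some x₁ y₁ h₁))).symm
  have hu : (C.u : K) ≠ 0 := C.u.ne_zero
  by_cases hxy : x₁ = x₂ ∧ y₁ = W.toAffine.negY x₂ y₂
  · rw [Affine.Point.add_of_Y_eq hxy.1 hxy.2]
    show (0 : (C • W).toAffine.Point) = _
    exact (Affine.Point.add_of_Y_eq (by rw [hxy.1])
      (by rw [vc_negY, hxy.2, hxy.1])).symm
  · rw [Affine.Point.add_some hxy]
    have hxy' : ¬(vcX C x₁ = vcX C x₂ ∧
        vcY C x₁ y₁ = (C • W).toAffine.negY (vcX C x₂) (vcY C x₂ y₂)) := by
      rintro ⟨h, h'⟩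
      rw [vcX_inj] at h
      rw [vc_negY, h, vcY_inj] at h'
      exact hxy ⟨h, h'⟩
    have hl : (C • W).toAffine.slope (vcX C x₁) (vcX C x₂) (vcY C x₁ y₁) (vcY C x₂ y₂) =
        (W.toAffine.slope x₁ x₂ y₁ y₂ - C.s) / (C.u : K) := by
      by_cases hx : x₁ = x₂
      · subst hx
        have hy : y₁ ≠ W.toAffine.negY x₁ y₂ := fun e => hxy ⟨rfl, e⟩
        have hy' := fun e => hxy' ⟨rfl, e⟩
        rw [Affine.slope_of_Y_ne rfl hy, Affine.slope_of_Y_ne rfl hy', vc_negY]
        have hyy : y₁ = y₂ := Affine.Y_eq_of_Y_ne h₁.1 h₂.1 rfl hy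
        subst hyy
        have hd : y₁ - W.toAffine.negY x₁ y₁ ≠ 0 := sub_ne_zero.2 hy
        have hd' : vcY C x₁ y₁ - vcY C x₁ (W.toAffine.negY x₁ y₁) =
            (y₁ - W.toAffine.negY x₁ y₁) / (C.u : K) ^ 3 := by
          simp only [vcY]; ring
        rw [hd']
        obtain ⟨D, hD⟩ : ∃ D, D = y₁ - W.toAffine.negY x₁ y₁ := ⟨_, rfl⟩
        rw [← hD] at hd ⊢
        simp only [variableChange_a₁, variableChange_a₂, variableChange_a₄, vcX, vcY,
          Units.val_inv_eq_inv_val]
        field_simp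
        rw [hD, Affine.negY]
        ring
      · rw [Affine.slope_of_X_ne hx, Affine.slope_of_X_ne (fun e => hx ((vcX_inj C).1 e))]
        have hd : x₁ - x₂ ≠ 0 := sub_ne_zero.2 hx
        have e1 : vcX C x₁ - vcX C x₂ = (x₁ - x₂) / (C.u : K) ^ 2 := by simp only [vcX]; ring
        have e2 : vcY C x₁ y₁ - vcY C x₂ y₂ =
            (y₁ - y₂ - C.s * (x₁ - x₂)) / (C.u : K) ^ 3 := by simp only [vcY]; ring
        rw [e1, e2]
        obtain ⟨D, hD⟩ : ∃ D, D = x₁ - x₂ := ⟨_, rfl⟩
        rw [← hD] at hd ⊢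
        field_simp
    refine Eq.trans ?_ (Affine.Point.add_some hxy').symm
    simp only [vcFun, Affine.Point.some.injEq]
    rw [hl]
    constructor
    · simp only [Affine.addX, variableChange_a₁, variableChange_a₂, vcX, Units.val_inv_eq_inv_val]
      field_simp
      ring
    · simp only [Affine.addY, Affine.negAddY, Affine.negY, Affine.addX, variableChange_a₁,
        variableChange_a₂, variableChange_a₃, vcX, vcY, Units.val_inv_eq_inv_val]
      field_simp
      ring

/-- Change of variables as a group homomorphism. -/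
noncomputable def vcHom : W.toAffine.Point →+ (C • W).toAffine.Point where
  toFun := vcFun C
  map_zero' := rfl
  map_add' := vcFun_add C

lemma vcHom_some {x y : K} (h : W.toAffine.Nonsingular x y) :
    vcHom C (.some x y h) = .some (vcX C x) (vcY C x y) (vc_nonsingular C h) := rfl

lemma vcHom_injective : Function.Injective (vcHom C (W := W)) := by
  rw [injective_iff_map_eq_zero]
  rintro (_ | ⟨x, y, h⟩) e
  · rfl
  · exact absurd e (Affine.Point.some_ne_zero _)

end Fermat.Agent.EC
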