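import Fermat.Agent.EC.Local.Inertia
import Fermat.Agent.EC.Local.VarChange
import Fermat.Agent.EC.Local.Tate

/-!
# Inertia on `E[p]`: good reduction, and multiplicative reduction with `p ∣ v(Δ)`
-/

set_option autoImplicit false

namespace Fermat.Agent.EC

open WeierstrassCurve

variable {L : Type*} [Field L] [IsAlgClosed L] [CharZero L] [DecidableEq L]
variable {F : Type*} [Field F] [Algebra F L]
variable {A : ValuationSubring L} {σ : L ≃ₐ[F] L}

local notation "v" => A.valuation

/-- Good reduction: inertia fixes torsion of odd order invertible in `A`. -/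
theorem inertia_fix_good (W : WeierstrassCurve A) (hΔ : IsUnit W.Δ) {V : WeierstrassCurve L}
    [hVe : V.IsElliptic] (hV : W.map (algebraMap A L) = V) (hσ : ActsInertially A σ) {n : ℕ}
    (hn : IsUnit (n : A)) (hodd : Odd n) {x y : L} (h : V.toAffine.Nonsingular x y)
    (h' : V.toAffine.Nonsingular (σ x) (σ y)) (t : n • Affine.Point.some x y h = 0)
    (t' : n • Affine.Point.some (σ x) (σ y) h' = 0) : σ x = x ∧ σ y = y := by
  subst hV
  have hx := val_torsion_x A W hn h t
  have hy := val_torsion_y A W hn h t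
  have e := eq_of_congr hn hodd h h' t t' (forms_not_both_small hΔ hx)
    (by rw [← Valuation.map_neg, neg_sub]; exact hσ.sub_lt x hx)
    (by rw [← Valuation.map_neg, neg_sub]; exact hσ.sub_lt y hy)
  rw [Affine.Point.some.injEq] at e
  exact ⟨e.1.symm, e.2.symm⟩

/-- The change of variables to `y² + xy = x³ + c` attached to a fourth root of `c₄`. -/
noncomputable def toTateNF (V : WeierstrassCurve L) (u : Lˣ) : VariableChange L where
  u := u
  r := ((((u : L) - V.a₁) / 2) * V.a₁ + (((u : L) - V.a₁) / 2) ^ 2 - V.a₂) / 3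
  s := ((u : L) - V.a₁) / 2
  t := -(V.a₃ + ((((u : L) - V.a₁) / 2) * V.a₁ + (((u : L) - V.a₁) / 2) ^ 2 - V.a₂) / 3 * V.a₁) / 2

omit [IsAlgClosed L] [DecidableEq L] in
lemma toTateNF_eq (V : WeierstrassCurve L) (u : Lˣ) (hu : (u : L) ^ 4 = V.c₄) :
    toTateNF V u • V = ⟨1, 0, 0, 0, (toTateNF V u • V).a₆⟩ := by
  set C := toTateNF V u with hC
  have hu0 : (u : L) ≠ 0 := u.ne_zero
  have hCu : C.u = u := rfl
  have h1 : (C • V).a₁ = 1 := by
    rw [variableChange_a₁, hCu, show C.s = ((u : L) - V.a₁) / 2 from rfl,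
      Units.val_inv_eq_inv_val]
    field_simp
    ring
  have h2 : (C • V).a₂ = 0 := by
    rw [variableChange_a₂,
      show C.r = ((((u : L) - V.a₁) / 2) * V.a₁ + (((u : L) - V.a₁) / 2) ^ 2 - V.a₂) / 3 from rfl,
      show C.s = ((u : L) - V.a₁) / 2 from rfl]
    field_simp
    ring
  have h3 : (C • V).a₃ = 0 := by
    rw [variableChange_a₃, show C.t = -(V.a₃ + C.r * V.a₁) / 2 from rfl]
    field_simp
    ring
  have h4 : (C • V).a₄ = 0 := by
    have hc : (C • V).c₄ = 1 := by
      rw [variableChange_c₄, hCu, ← hu, ← mul_pow, Units.inv_mul, one_pow]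
    simp only [WeierstrassCurve.c₄, WeierstrassCurve.b₂, WeierstrassCurve.b₄, h1, h2, h3] at hc
    linear_combination -(1 / 48 : L) * hc
  ext
  · exact h1
  · exact h2
  · exact h3
  · exact h4
  · rfl

/-- Data of a multiplicative normal form. -/
theorem exists_tateNF (W : WeierstrassCurve A) (hΔ : v (algebraMap A L W.Δ) < 1)
    (hΔ0 : W.Δ ≠ 0) (hc₄ : v (algebraMap A L W.c₄) = 1) :
    ∃ (u : Lˣ) (c : A), (u : L) ^ 4 = algebraMap A L W.c₄ ∧ c ≠ 0 ∧ v (algebraMap A L c) < 1 ∧
      v (algebraMap A L c) = v (algebraMap A L W.Δ) ∧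
      toTateNF (W.map (algebraMap A L)) u • W.map (algebraMap A L) =
        (tateNF c).map (algebraMap A L) := by
  have hc40 : algebraMap A L W.c₄ ≠ 0 := fun e => by rw [e, map_zero] at hc₄; exact zero_ne_one hc₄
  obtain ⟨u₀, hu₀⟩ := IsAlgClosed.exists_pow_nat_eq (algebraMap A L W.c₄) (by norm_num : 0 < 4)
  have hu00 : u₀ ≠ 0 := fun e => by rw [e, zero_pow (by norm_num : 4 ≠ 0)] at hu₀; exact hc40 hu₀.symm
  obtain ⟨i, hi⟩ := IsAlgClosed.exists_pow_nat_eq (-1 : L) (by norm_num : 0 < 2)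
  have hi0 : i ≠ 0 := fun e => by rw [e] at hi; norm_num at hi
  set V := W.map (algebraMap A L) with hV
  have hDelta : ∀ (u : Lˣ), (u : L) ^ 4 = V.c₄ →
      -(toTateNF V u • V).a₆ * (1 + 432 * (toTateNF V u • V).a₆) = (u : L)⁻¹ ^ 12 * V.Δ ∧
      -1 - 864 * (toTateNF V u • V).a₆ = (u : L)⁻¹ ^ 6 * V.c₆ := by
    intro u hu
    constructor
    · have := variableChange_Δ V (toTateNF V u)
      rw [toTateNF_eq V u hu, Units.val_inv_eq_inv_val] at this
      rw [show (toTateNF V u).u = u from rfl] at this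
      rw [← this]
      simp [WeierstrassCurve.Δ, WeierstrassCurve.b₂, WeierstrassCurve.b₄, WeierstrassCurve.b₆,
        WeierstrassCurve.b₈]
      ring
    · have := variableChange_c₆ V (toTateNF V u)
      rw [toTateNF_eq V u hu, Units.val_inv_eq_inv_val] at this
      rw [show (toTateNF V u).u = u from rfl] at this
      rw [← this]
      simp [WeierstrassCurve.c₆, WeierstrassCurve.b₂, WeierstrassCurve.b₄, WeierstrassCurve.b₆]
      ring
  have hVc : V.c₄ = algebraMap A L W.c₄ := map_c₄ _ _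
  have hVd : V.Δ = algebraMap A L W.Δ := map_Δ _ _
  set u₁ : Lˣ := Units.mk0 u₀ hu00 with hu₁
  set u₂ : Lˣ := Units.mk0 (u₀ * i) (mul_ne_zero hu00 hi0) with hu₂
  have e₁ : (u₁ : L) ^ 4 = V.c₄ := by rw [hVc, ← hu₀]; rfl
  have e₂ : (u₂ : L) ^ 4 = V.c₄ := by
    rw [hVc, ← hu₀, hu₂, Units.val_mk0, mul_pow, show i ^ 4 = (i ^ 2) ^ 2 by ring, hi]
    ring
  have hv : ∀ u : Lˣ, (u : L) ^ 4 = V.c₄ → v (u : L) = 1 := by
    intro u hu
    have := congrArg v hu
    rw [map_pow, hVc, hc₄] at this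
    exact (pow_eq_one_iff_of_nonneg zero_le (by norm_num)).1 this
  have hD : ∀ u : Lˣ, (u : L) ^ 4 = V.c₄ →
      v ((toTateNF V u • V).a₆) * v (1 + 432 * (toTateNF V u • V).a₆) = v V.Δ := by
    intro u hu
    have := congrArg v (hDelta u hu).1
    rwa [map_mul, map_mul, map_pow, map_inv₀, Valuation.map_neg, hv u hu, inv_one, one_pow,
      one_mul] at this
  have h432 : v (432 : L) ≤ 1 := by exact_mod_cast val_natCast_le_one (A := A) 432
  obtain ⟨u, hu, hcu⟩ : ∃ u : Lˣ, (u : L) ^ 4 = V.c₄ ∧ v ((toTateNF V u • V).a₆) < 1 := by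
    rcases lt_or_ge (v ((toTateNF V u₁ • V).a₆)) 1 with hlt | hge
    · exact ⟨u₁, e₁, hlt⟩
    refine ⟨u₂, e₂, ?_⟩
    set c := (toTateNF V u₁ • V).a₆ with hc
    set c' := (toTateNF V u₂ • V).a₆ with hc'
    have hcc : 432 * c' = -(1 + 432 * c) := by
      have k1 := (hDelta u₁ e₁).2
      have k2 := (hDelta u₂ e₂).2
      have hi6 : (i⁻¹) ^ 6 = -1 := by
        rw [inv_pow, show i ^ 6 = (i ^ 2) ^ 3 by ring, hi]
        norm_num
      rw [hu₂, Units.val_mk0, mul_inv, mul_pow, hi6] at k2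
      rw [hu₁, Units.val_mk0] at k1
      linear_combination -(1 / 2 : L) * (k1 + k2)
    have hD1 := hD u₁ e₁
    have hsmall : v (1 + 432 * c) < 1 := by
      refine lt_of_le_of_lt ?_ hΔ
      rw [← hVd, ← hD1]
      exact le_mul_of_one_le_left zero_le hge
    have h432c : v (432 : L) * v c = 1 := by
      have := Valuation.map_sub_eq_of_lt_right A.valuation (x := 1 + 432 * c) (y := 1)
        (by rwa [map_one])
      rwa [show 1 + 432 * c - 1 = 432 * c by ring, map_mul, map_one] at this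
    have hvc' : v c' = v V.Δ := by
      have h1 : v (432 : L) * v c' = v (1 + 432 * c) := by
        rw [← map_mul, hcc, Valuation.map_neg]
      calc v c' = (v (432 : L) * v c) * v c' := by rw [h432c, one_mul]
        _ = v c * (v (432 : L) * v c') := by ac_rfl
        _ = v V.Δ := by rw [h1, hD1]
    rw [hvc', hVd]
    exact hΔ
  set c₀ := (toTateNF V u • V).a₆ with hc₀
  have hcA : c₀ ∈ A := A.mem_of_valuation_le_one _ hcu.le
  have h1c : v (1 + 432 * c₀) = 1 := by
    rw [Valuation.map_add_eq_of_lt_left, map_one]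
    rw [map_one]
    exact val_mul_lt_one' _ h432 hcu
  have hval : v c₀ = v (algebraMap A L W.Δ) := by
    have := hD u hu
    rwa [h1c, mul_one, hVd] at this
  refine ⟨u, ⟨c₀, hcA⟩, by rw [hu, hVc], ?_, hcu, hval, ?_⟩
  · intro e
    have e' : c₀ = 0 := congrArg Subtype.val e
    rw [e', map_zero, eq_comm, map_eq_zero] at hval
    exact hΔ0 (FaithfulSMul.algebraMap_injective A L (by rw [hval, map_zero]))
  · rw [toTateNF_eq V u hu]
    ext <;> simp [tateNF, ← hc₀]

omit [IsAlgClosed L] [CharZero L] [DecidableEq L] in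
lemma ActsInertially.fix_fourth_root (hσ : ActsInertially A σ) (h2 : v (2 : L) = 1) {u : L}
    (hu : v u = 1) (h4 : σ (u ^ 4) = u ^ 4) : σ u = u := by
  have hlt := hσ.sub_lt u hu.le
  have hf : (σ u - u) * (σ u + u) * (σ u ^ 2 + u ^ 2) = 0 := by
    rw [map_pow] at h4; linear_combination h4
  rcases mul_eq_zero.1 hf with hf | hf
  · rcases mul_eq_zero.1 hf with hf | hf
    · exact sub_eq_zero.1 hf
    · rw [show σ u - u = -(2 * u) by linear_combination hf, Valuation.map_neg, map_mul, h2, hu,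
        one_mul] at hlt
      exact absurd hlt (lt_irrefl _)
  · have h1 : v (σ u + u) ≤ 1 :=
      (A.valuation.map_add _ _).trans (max_le (by rw [hσ.valuation_eq, hu]) hu.le)
    have h3 : v ((σ u - u) * (σ u + u)) < 1 := val_mul_lt_one _ hlt h1
    rw [show (σ u - u) * (σ u + u) = -(2 * u ^ 2) by linear_combination hf, Valuation.map_neg,
      map_mul, map_pow, h2, hu, one_pow, one_mul] at h3
    exact absurd h3 (lt_irrefl _)

lemma tate_val_y_le {c : A} {x y : L} (h : ((tateNF c).map (algebraMap A L)).toAffine.Equation x y)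
    (hx : v x < 1) (hC : v (algebraMap A L c) < v x ^ 2) : v y ≤ v x := by
  by_contra hlt
  push Not at hlt
  rw [Affine.equation_iff] at h
  simp only [tateNF, map_a₁, map_a₂, map_a₃, map_a₄, map_a₆, map_one, map_zero, one_mul, zero_mul,
    add_zero] at h
  have h1 : v (y * (y + x)) = v y ^ 2 := by
    rw [map_mul, Valuation.map_add_eq_of_lt_left _ hlt, pow_two]
  have hx0 : 0 < v x ^ 2 := lt_of_le_of_lt zero_le hC
  have h2 : v (x ^ 3 + algebraMap A L c) < v x ^ 2 := by
    refine val_add_lt _ ?_ hC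
    rw [map_pow, pow_succ]
    exact mul_lt_of_lt_one_right hx0 hx
  rw [show x ^ 3 + algebraMap A L c = y * (y + x) by linear_combination -h, h1] at h2
  exact absurd h2 (not_lt.2 (pow_le_pow_left₀ zero_le hlt.le 2))

section

variable {p : ℕ} [hp : Fact p.Prime]

theorem tate_inertia_fix {c : A} (hc0 : c ≠ 0) (hc : v (algebraMap A L c) < 1)
    {V : WeierstrassCurve L} [hVe : V.IsElliptic] (hV : V = (tateNF c).map (algebraMap A L))
    (hpu : IsUnit (p : A)) (hodd : Odd p) (hσ : ActsInertially A σ) {w : L} (hw : σ w = w)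
    (hwc : v (algebraMap A L c) = v w ^ p) {x y : L} (h : V.toAffine.Nonsingular x y)
    (h' : V.toAffine.Nonsingular (σ x) (σ y)) (t : p • Affine.Point.some x y h = 0)
    (t' : p • Affine.Point.some (σ x) (σ y) h' = 0) : σ x = x ∧ σ y = y := by
  subst hV
  have hx := val_torsion_x A (tateNF c) hpu h t
  have hy := val_torsion_y A (tateNF c) hpu h t
  have e : Affine.Point.some x y h = Affine.Point.some (σ x) (σ y) h' := by
    rcases hx.lt_or_eq with hlt | heq
    · obtain ⟨k, hk⟩ := tate_position hc0 hc hpu hodd h t hlt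
      have hC := tate_c_lt_sq hc0 hc hpu hodd h t hlt
      have hw' : v x = v (w ^ k) := by
        rw [map_pow]
        refine (pow_left_inj₀ zero_le zero_le hp.out.ne_zero).1 ?_
        rw [hk, hwc, ← pow_mul, ← pow_mul, mul_comm]
      have hwk : σ (w ^ k) = w ^ k := by rw [map_pow, hw]
      have hx0 : v x ≠ 0 := fun e0 => by
        rw [e0, zero_pow two_ne_zero] at hC; exact not_lt_zero hC
      have hwk0 : w ^ k ≠ 0 := fun e0 => by rw [hw', e0, map_zero] at hx0; exact hx0 rfl
      refine tate_eq_of_congr hc0 hc hpu hodd h h' t t' hlt ?_ ?_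
      · rw [← Valuation.map_neg, neg_sub, hw']
        exact hσ.sub_lt_of_le hwk hwk0 hw'.le
      · rw [← Valuation.map_neg, neg_sub, hw']
        exact hσ.sub_lt_of_le hwk hwk0 (hw' ▸ tate_val_y_le h.1 hlt hC)
    · refine eq_of_congr hpu hodd h h' t t' ?_
        (by rw [← Valuation.map_neg, neg_sub]; exact hσ.sub_lt x hx)
        (by rw [← Valuation.map_neg, neg_sub]; exact hσ.sub_lt y hy)
      rintro ⟨hs, -⟩
      have h4 : v (4 : L) ≤ 1 := by exact_mod_cast val_natCast_le_one (A := A) 4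
      have hxx : v (x + x) ≤ 1 := (A.valuation.map_add _ _).trans (max_le heq.le heq.le)
      rw [tateNF_sP, Valuation.map_sub_eq_of_lt_left] at hs
      · simp [heq] at hs
      · simp only [map_pow, map_mul, heq, mul_one, one_pow]
        exact val_add_lt _ (val_mul_lt_one _ (val_mul_lt_one' _ h4 hc) hxx) hc
  rw [Affine.Point.some.injEq] at e
  exact ⟨e.1.symm, e.2.symm⟩

/-- Multiplicative reduction with `p ∣ v(Δ)` (`v(Δ) = v(w)ᵖ`, `w` fixed by `σ`), residue
characteristic `≠ 2, p`: inertia fixes `E[p]`. -/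
theorem inertia_fix_mult (W : WeierstrassCurve A) (hΔ : v (algebraMap A L W.Δ) < 1)
    (hΔ0 : W.Δ ≠ 0) (hc₄ : v (algebraMap A L W.c₄) = 1) (h2 : v (2 : L) = 1)
    {V : WeierstrassCurve L} [hVe : V.IsElliptic] (hV : W.map (algebraMap A L) = V)
    (hfix₁ : σ V.a₁ = V.a₁) (hfix₂ : σ V.a₂ = V.a₂) (hfix₃ : σ V.a₃ = V.a₃)
    (hfix₄ : σ V.c₄ = V.c₄)
    (hσ : ActsInertially A σ) (hpu : IsUnit (p : A)) (hodd : Odd p) {w : L} (hw : σ w = w)
    (hwc : v (algebraMap A L W.Δ) = v w ^ p) {x y : L} (h : V.toAffine.Nonsingular x y)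
    (h' : V.toAffine.Nonsingular (σ x) (σ y)) (t : p • Affine.Point.some x y h = 0)
    (t' : p • Affine.Point.some (σ x) (σ y) h' = 0) : σ x = x ∧ σ y = y := by
  subst hV
  obtain ⟨u, c, hu, hc0, hc, hcΔ, hC⟩ := exists_tateNF W hΔ hΔ0 hc₄
  set C := toTateNF (W.map (algebraMap A L)) u with hCdef
  have hvu : v (u : L) = 1 := by
    have := congrArg v hu
    rw [map_pow, hc₄] at this
    exact (pow_eq_one_iff_of_nonneg zero_le (by norm_num)).1 this
  have hσu : σ (u : L) = u := by
    refine hσ.fix_fourth_root h2 hvu ?_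
    rwa [hu, ← map_c₄]
  have hσs : σ C.s = C.s := by
    rw [show C.s = ((u : L) - (W.map (algebraMap A L)).a₁) / 2 from rfl, map_div₀ σ, map_sub,
      hσu, hfix₁, map_ofNat]
  have hσr : σ C.r = C.r := by
    rw [show C.r = (C.s * (W.map (algebraMap A L)).a₁ + C.s ^ 2
        - (W.map (algebraMap A L)).a₂) / 3 from rfl]
    simp only [map_div₀ σ, map_sub, map_add, map_mul, map_pow, hσs, hfix₁, hfix₂, map_ofNat]
  have hσt : σ C.t = C.t := by
    rw [show C.t = -((W.map (algebraMap A L)).a₃ + C.r * (W.map (algebraMap A L)).a₁) / 2 from rfl]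
    simp only [map_div₀ σ, map_neg, map_add, map_mul, hσr, hfix₁, hfix₃, map_ofNat]
  have hX : σ (vcX C x) = vcX C (σ x) := by
    rw [vcX, vcX, map_div₀ σ, map_sub, hσr, map_pow, show C.u = u from rfl, hσu]
  have hY : σ (vcY C x y) = vcY C (σ x) (σ y) := by
    rw [vcY, vcY, map_div₀ σ, map_sub, map_sub, map_mul, map_sub, hσs, hσr, hσt, map_pow,
      show C.u = u from rfl, hσu]
  have m : (C • W.map (algebraMap A L)).toAffine.Nonsingular (σ (vcX C x)) (σ (vcY C x y)) := by
    rw [hX, hY]; exact vc_nonsingular C h'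
  have key := tate_inertia_fix hc0 hc hC hpu hodd hσ hw (hcΔ.trans hwc) (vc_nonsingular C h) m
    (by rw [← vcHom_some C h, ← map_nsmul, t, map_zero])
    (by
      have e : Affine.Point.some _ _ m = vcHom C (Affine.Point.some _ _ h') := by
        rw [vcHom_some, Affine.Point.some.injEq]; exact ⟨hX, hY⟩
      rw [e, ← map_nsmul, t', map_zero])
  rw [hX, hY, vcX_inj] at key
  obtain ⟨hxx, hyy⟩ := key
  rw [hxx, vcY_inj] at hyy
  exact ⟨hxx, hyy⟩

end

end Fermat.Agent.EC
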