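import Mathlib
import Fermat.Prelude.Def_FLTPrelim_Ramification

/-!
# Inertia elements of a valuation subring
-/

set_option autoImplicit false

namespace Fermat.Agent.EC

open scoped Pointwise

variable {L : Type*} [Field L] {F : Type*} [Field F] [Algebra F L] (A : ValuationSubring L)

/-- `σ` stabilises `A`, acts trivially on the residue field and preserves the valuation. -/
structure ActsInertially (σ : L ≃ₐ[F] L) : Prop where
  valuation_eq : ∀ x, A.valuation (σ x) = A.valuation x
  sub_lt : ∀ x, A.valuation x ≤ 1 → A.valuation (σ x - x) < 1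

variable {A}

lemma exists_pow_apply_eq [Algebra.IsIntegral F L] (σ : L ≃ₐ[F] L) (x : L) :
    ∃ k : ℕ, 0 < k ∧ (σ : L → L)^[k] x = x := by
  classical
  have hfin : (Set.range fun k : ℕ => (σ : L → L)^[k] x).Finite := by
    refine ((minpoly F x).rootSet_finite L).subset ?_
    rintro _ ⟨k, rfl⟩
    rw [Polynomial.mem_rootSet]
    refine ⟨minpoly.ne_zero (Algebra.IsIntegral.isIntegral x), ?_⟩
    induction k with
    | zero => exact minpoly.aeval F x
    | succ k ih =>
      simp only [Function.iterate_succ_apply']
      rw [show σ ((σ : L → L)^[k] x) = σ.toAlgHom ((σ : L → L)^[k] x) from rfl,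
        Polynomial.aeval_algHom_apply]
      exact (congrArg σ.toAlgHom ih).trans (map_zero _)
  have hinj : Function.Injective (σ : L → L) := σ.injective
  obtain ⟨i, j, hij, hne⟩ : ∃ i j, (σ : L → L)^[i] x = (σ : L → L)^[j] x ∧ i < j := by
    obtain ⟨i, -, j, -, hne, he⟩ := Set.infinite_univ.exists_lt_map_eq_of_mapsTo
      (f := fun k : ℕ => (σ : L → L)^[k] x) (fun k _ => Set.mem_range_self k) hfin
    exact ⟨i, j, he, hne⟩
  refine ⟨j - i, by omega, hinj.iterate i ?_⟩
  rw [← Function.iterate_add_apply, Nat.add_sub_cancel' hne.le]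
  exact hij.symm

theorem actsInertially_of_mem [Algebra.IsIntegral F L] {σ : L ≃ₐ[F] L}
    (hσ : σ ∈ A.inertiaSubgroupIn F) : ActsInertially A σ := by
  obtain ⟨τ, hτ, rfl⟩ := hσ
  set σ : L ≃ₐ[F] L := (A.decompositionSubgroup F).subtype τ with hσdef
  have hA : σ • A = A := τ.2
  have hmem : ∀ x, x ∈ A ↔ σ x ∈ A := by
    intro x
    constructor
    · intro hx
      have : σ • x ∈ σ • A := ValuationSubring.smul_mem_pointwise_smul _ _ _ hx
      rwa [hA] at this
    · intro hx
      rw [← hA, ValuationSubring.mem_smul_pointwise_iff_exists] at hx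
      obtain ⟨y, hy, he⟩ := hx
      rwa [σ.injective (show σ y = σ x from he)] at hy
  have hle : ∀ x y : L, A.valuation x ≤ A.valuation y → A.valuation (σ x) ≤ A.valuation (σ y) := by
    intro x y hxy
    obtain ⟨a, ha⟩ := (A.valuation_le_iff x y).1 hxy
    exact (A.valuation_le_iff _ _).2 ⟨⟨σ a, (hmem a).1 a.2⟩, by rw [← ha, map_mul]⟩
  refine ⟨fun x => ?_, fun x hx => ?_⟩
  · obtain ⟨k, hk, hkx⟩ := exists_pow_apply_eq σ x
    rcases le_total (A.valuation x) (A.valuation (σ x)) with h | h
    · refine le_antisymm ?_ h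
      have hm : ∀ i, A.valuation (σ x) ≤ A.valuation ((σ : L → L)^[i + 1] x) := by
        intro i
        induction i with
        | zero => simp
        | succ i ih =>
          refine le_trans (hle _ _ (le_trans h ih)) (le_of_eq ?_)
          rw [Function.iterate_succ_apply' _ (i + 1)]
      have := hm (k - 1)
      rwa [Nat.sub_add_cancel hk, hkx] at this
    · refine le_antisymm h ?_
      have hm : ∀ i, A.valuation ((σ : L → L)^[i + 1] x) ≤ A.valuation (σ x) := by
        intro i
        induction i with
        | zero => simp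
        | succ i ih =>
          refine le_trans (le_of_eq ?_) (hle _ _ (le_trans ih h))
          rw [Function.iterate_succ_apply' _ (i + 1)]
      have := hm (k - 1)
      rwa [Nat.sub_add_cancel hk, hkx] at this
  · set a : A := ⟨x, A.mem_of_valuation_le_one x hx⟩ with ha
    have hres : τ • IsLocalRing.residue A a = IsLocalRing.residue A a := by
      have := RingEquiv.congr_fun (MonoidHom.mem_ker.1 hτ) (IsLocalRing.residue A a)
      simpa using this
    rw [← IsLocalRing.ResidueField.residue_smul] at hres
    exact (A.valuation_lt_one_iff _).1 (Ideal.Quotient.eq.1 hres)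

namespace ActsInertially

variable {σ : L ≃ₐ[F] L} (h : ActsInertially A σ)
include h

lemma sub_lt_of_le {x w : L} (hw : σ w = w) (hw0 : w ≠ 0)
    (hx : A.valuation x ≤ A.valuation w) : A.valuation (σ x - x) < A.valuation w := by
  have h0 : A.valuation w ≠ 0 := (map_ne_zero _).2 hw0
  have h1 : A.valuation (x / w) ≤ 1 := by rw [map_div₀]; exact div_le_one₀ (zero_lt_iff.2 h0) |>.2 hx
  have := h.sub_lt _ h1
  rw [map_div₀ σ, hw, ← sub_div, map_div₀, div_lt_one₀ (zero_lt_iff.2 h0)] at this
  exact this

lemma symm : ActsInertially A σ.symm := by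
  refine ⟨fun x => ?_, fun x hx => ?_⟩
  · conv_rhs => rw [← σ.apply_symm_apply x, h.valuation_eq]
  · have hx' : A.valuation (σ.symm x) ≤ 1 := by
      rwa [← h.valuation_eq, σ.apply_symm_apply]
    rw [← Valuation.map_neg, neg_sub]
    simpa using h.sub_lt _ hx'

end ActsInertially

end Fermat.Agent.EC
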