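import Fermat.Agent.EC.Local.Congr

/-!
# Reduction of torsion points at a good place

For unit discriminant and `n` odd, invertible in the valuation ring, reduction is an injective
homomorphism on `n`-torsion.
-/

set_option autoImplicit false
set_option linter.unusedSectionVars false

namespace Fermat.Agent.EC

open WeierstrassCurve

variable {L : Type*} [Field L] (A : ValuationSubring L)

lemma isElliptic_residue {W : WeierstrassCurve A} (hΔ : IsUnit W.Δ) :
    (W.map (IsLocalRing.residue A)).IsElliptic :=
  ⟨by rw [map_Δ]; exact hΔ.map _⟩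

lemma residue_eq_residue_iff (a b : A) :
    IsLocalRing.residue A a = IsLocalRing.residue A b ↔
      A.valuation ((a : L) - b) < 1 := by
  rw [← sub_eq_zero, ← map_sub, IsLocalRing.residue_eq_zero_iff]
  exact A.valuation_lt_one_iff (a - b)

/-- The residue field of an algebraically closed field is algebraically closed. -/
theorem isAlgClosed_residue [IsAlgClosed L] : IsAlgClosed (IsLocalRing.ResidueField A) := by
  refine IsAlgClosed.of_exists_root _ fun p hp hirr => ?_
  obtain ⟨q, hq, hqd, hqm⟩ := Polynomial.lifts_and_natDegree_eq_and_monic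
    ((Polynomial.mem_lifts p).mpr (Polynomial.map_surjective _ IsLocalRing.residue_surjective p)) hp
  obtain ⟨x, hx⟩ := IsAlgClosed.exists_root (q.map (algebraMap A L)) (by
    rw [Polynomial.degree_eq_natDegree (hqm.map _).ne_zero, hqm.natDegree_map, hqd]
    intro e
    have := hirr.natDegree_pos
    simp only [Nat.cast_eq_zero] at e
    omega)
  have hint : IsIntegral A x := ⟨q, hqm, by rwa [← Polynomial.eval_map]⟩
  obtain ⟨z, rfl⟩ := IsIntegrallyClosed.isIntegral_iff.1 hint
  refine ⟨IsLocalRing.residue A z, ?_⟩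
  rw [← hq]
  rw [Polynomial.IsRoot.def, Polynomial.eval_map, Polynomial.eval₂_at_apply] at hx
  have hz : q.eval z = 0 := Subtype.val_injective hx
  rw [Polynomial.eval_map, Polynomial.eval₂_at_apply, hz, map_zero]

variable {A} (W : WeierstrassCurve A)

open Classical in
/-- Reduction of a point (`0` unless both coordinates are integral). -/
noncomputable def redPt : (W.map (algebraMap A L)).toAffine.Point →
    (W.map (IsLocalRing.residue A)).toAffine.Point
  | .zero => 0
  | .some x y _ =>
    if h : ∃ (hx : x ∈ A) (hy : y ∈ A),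
        (W.map (IsLocalRing.residue A)).toAffine.Nonsingular
          (IsLocalRing.residue A ⟨x, hx⟩) (IsLocalRing.residue A ⟨y, hy⟩)
    then .some _ _ h.choose_spec.choose_spec
    else 0

lemma nonsingular_residue (hΔ : IsUnit W.Δ) {x y : A}
    (h : (W.map (algebraMap A L)).toAffine.Nonsingular (algebraMap A L x) (algebraMap A L y)) :
    (W.map (IsLocalRing.residue A)).toAffine.Nonsingular
      (IsLocalRing.residue A x) (IsLocalRing.residue A y) := by
  haveI := isElliptic_residue A hΔ
  refine (Affine.equation_iff_nonsingular (W := (W.map (IsLocalRing.residue A)).toAffine)).1 ?_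
  exact Affine.Equation.map _ ((Affine.map_equation W.toAffine Subtype.val_injective x y).1 h.1)

lemma redPt_some (hΔ : IsUnit W.Δ) {x y : A}
    (h : (W.map (algebraMap A L)).toAffine.Nonsingular (algebraMap A L x) (algebraMap A L y)) :
    redPt W (Affine.Point.some _ _ h) = Affine.Point.some _ _ (nonsingular_residue W hΔ h) := by
  have hh : ∃ (hx : (algebraMap A L x) ∈ A) (hy : (algebraMap A L y) ∈ A),
      (W.map (IsLocalRing.residue A)).toAffine.Nonsingular
        (IsLocalRing.residue A ⟨_, hx⟩) (IsLocalRing.residue A ⟨_, hy⟩) :=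
    ⟨x.2, y.2, nonsingular_residue W hΔ h⟩
  simp only [redPt]
  rw [dif_pos hh]
  rfl

variable [IsAlgClosed L] [CharZero L] [DecidableEq L] [(W.map (algebraMap A L)).IsElliptic]


variable {W} {n : ℕ}

lemma exists_coords (hn : IsUnit (n : A)) {x y : L}
    (h : (W.map (algebraMap A L)).toAffine.Nonsingular x y)
    (hP : n • Affine.Point.some x y h = 0) :
    ∃ a b : A, algebraMap A L a = x ∧ algebraMap A L b = y :=
  ⟨⟨x, torsion_x_mem A W hn h hP⟩, ⟨y, y_mem_of_x_mem A W (torsion_x_mem A W hn h hP) h.1⟩,
    rfl, rfl⟩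

theorem redPt_eq_zero (hn : IsUnit (n : A)) (hΔ : IsUnit W.Δ) {P : (W.map (algebraMap A L)).toAffine.Point} (hP : n • P = 0)
    (h0 : redPt W P = 0) : P = 0 := by
  rcases P with _ | ⟨x, y, h⟩
  · rfl
  · obtain ⟨a, b, rfl, rfl⟩ := exists_coords hn h hP
    rw [redPt_some W hΔ h] at h0
    exact absurd h0 (Affine.Point.some_ne_zero _)

variable [DecidableEq (IsLocalRing.ResidueField A)]

theorem redPt_add (hn : IsUnit (n : A)) (hodd : Odd n) (hΔ : IsUnit W.Δ) {P Q : (W.map (algebraMap A L)).toAffine.Point}
    (hP : n • P = 0) (hQ : n • Q = 0) : redPt W (P + Q) = redPt W P + redPt W Q := by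
  rcases P with _ | ⟨x₁, y₁, h₁⟩
  · rw [← Affine.Point.zero_def, zero_add]; exact (zero_add (redPt W Q)).symm
  rcases Q with _ | ⟨x₂, y₂, h₂⟩
  · rw [← Affine.Point.zero_def, add_zero]; exact (add_zero (redPt W _)).symm
  obtain ⟨a₁, b₁, rfl, rfl⟩ := exists_coords hn h₁ hP
  obtain ⟨a₂, b₂, rfl, rfl⟩ := exists_coords hn h₂ hQ
  set r := IsLocalRing.residue A with hr
  -- addition through an integral slope
  have key : ∀ l : A,
      (W.map (algebraMap A L)).toAffine.slope (algebraMap A L a₁) (algebraMap A L a₂)
        (algebraMap A L b₁) (algebraMap A L b₂) = algebraMap A L l →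
      (W.map r).toAffine.slope (r a₁) (r a₂) (r b₁) (r b₂) = r l →
      ¬(r a₁ = r a₂ ∧ r b₁ = (W.map r).toAffine.negY (r a₂) (r b₂)) →
      redPt W (Affine.Point.some _ _ h₁ + Affine.Point.some _ _ h₂) =
        redPt W (Affine.Point.some _ _ h₁) + redPt W (Affine.Point.some _ _ h₂) := by
    intro l e1 e2 hne
    have hne' : ¬(algebraMap A L a₁ = algebraMap A L a₂ ∧ algebraMap A L b₁ =
        (W.map (algebraMap A L)).toAffine.negY (algebraMap A L a₂) (algebraMap A L b₂)) := by
      rintro ⟨u1, u2⟩
      refine hne ⟨congrArg r (Subtype.val_injective u1), ?_⟩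
      rw [Affine.map_negY (f := algebraMap A L)] at u2
      rw [Affine.map_negY (f := r)]
      exact congrArg r (Subtype.val_injective u2)
    have hn3 := Affine.nonsingular_add h₁ h₂ hne'
    rw [Affine.Point.add_some hne', redPt_some W hΔ h₁, redPt_some W hΔ h₂,
      Affine.Point.add_some hne]
    rw [e1, Affine.map_addX (f := algebraMap A L), Affine.map_addY (f := algebraMap A L)] at hn3
    simp only [e1, e2, Affine.map_addX, Affine.map_addY]
    exact redPt_some W hΔ hn3
  by_cases hx : r a₁ = r a₂
  · have hxv : A.valuation ((a₁ : L) - a₂) < 1 := (residue_eq_residue_iff A a₁ a₂).1 hx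
    have hns := forms_not_both_small (A := A) (W := W) hΔ (A.valuation_le_one a₁)
    have hy : r b₁ = r b₂ ∨ r b₁ = (W.map r).toAffine.negY (r a₂) (r b₂) :=
      Affine.Y_eq_of_X_eq (nonsingular_residue W hΔ h₁).1 (nonsingular_residue W hΔ h₂).1 hx
    rcases hy with hy | hy
    · -- `Q = P`
      have e := eq_of_congr hn hodd h₁ h₂ hP hQ hns hxv ((residue_eq_residue_iff A b₁ b₂).1 hy)
      rw [Affine.Point.some.injEq] at e
      obtain rfl : a₁ = a₂ := Subtype.val_injective e.1
      obtain rfl : b₁ = b₂ := Subtype.val_injective e.2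
      have hy2 : r b₁ ≠ (W.map r).toAffine.negY (r a₁) (r b₁) := by
        intro e'
        have hneg : n • (-Affine.Point.some _ _ h₁ : (W.map (algebraMap A L)).toAffine.Point) = 0 := by rw [neg_nsmul, hP, neg_zero]
        rw [Affine.Point.neg_some, ] at hneg
        rw [Affine.map_negY (f := r)] at e'
        have hv := (residue_eq_residue_iff A b₁ _).1 e'
        have he := eq_of_congr hn hodd h₁ ((Affine.nonsingular_neg ..).2 h₁) hP hneg hns
          (by rw [sub_self, map_zero]; exact zero_lt_one)
          (by rw [Affine.map_negY (f := algebraMap A L)]; exact hv)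
        rw [← Affine.Point.neg_some h₁, eq_neg_iff_add_eq_zero] at he
        obtain ⟨j, rfl⟩ := hodd
        rw [succ_nsmul, mul_comm, mul_nsmul', two_nsmul, he, nsmul_zero, zero_add] at hP
        exact Affine.Point.some_ne_zero h₁ hP
      set ψ : A := 2 * b₁ + W.a₁ * a₁ + W.a₃ with hψ
      have hψu : IsUnit ψ := by
        by_contra hu
        apply hy2
        have h0 : r ψ = 0 := (IsLocalRing.residue_eq_zero_iff _).2 hu
        simp only [hψ, map_add, map_mul, map_ofNat] at h0
        simp only [Affine.negY, map_a₁, map_a₃]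
        linear_combination h0
      obtain ⟨ψi, hψi⟩ := hψu.exists_left_inv
      set num : A := 3 * a₁ ^ 2 + 2 * W.a₂ * a₁ + W.a₄ - W.a₁ * b₁
      have hgen : ∀ {F : Type _} [Field F] [DecidableEq F] (f : A →+* F),
          f b₁ ≠ (W.map f).toAffine.negY (f a₁) (f b₁) →
          (W.map f).toAffine.slope (f a₁) (f a₁) (f b₁) (f b₁) = f (ψi * num) := by
        intro F _ _ f hf
        rw [Affine.slope_of_Y_ne rfl hf, div_eq_iff (sub_ne_zero.2 hf)]
        have e := congrArg f hψi
        simp only [hψ, map_mul, map_add, map_ofNat, map_one] at e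
        simp only [num, Affine.negY, map_a₁, map_a₂, map_a₃, map_a₄, map_mul, map_add, map_sub,
          map_pow, map_ofNat]
        linear_combination -(3 * f a₁ ^ 2 + 2 * f W.a₂ * f a₁ + f W.a₄ - f W.a₁ * f b₁) * e
      refine key (ψi * num) (hgen (algebraMap A L) fun e' => hy2 ?_) (hgen r hy2)
        fun hh => hy2 hh.2
      rw [Affine.map_negY (f := algebraMap A L)] at e'
      rw [Affine.map_negY (f := r)]
      exact congrArg r (Subtype.val_injective e')
    · -- `Q = -P`
      have hQ' : n • (-Affine.Point.some _ _ h₂ : (W.map (algebraMap A L)).toAffine.Point) = 0 := by rw [neg_nsmul, hQ, neg_zero]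
      rw [Affine.Point.neg_some] at hQ'
      rw [Affine.map_negY (f := r)] at hy
      have e := eq_of_congr hn hodd h₁ ((Affine.nonsingular_neg ..).2 h₂) hP hQ' hns hxv
        (by rw [Affine.map_negY (f := algebraMap A L)]; exact (residue_eq_residue_iff A _ _).1 hy)
      rw [← Affine.Point.neg_some h₂, eq_neg_iff_add_eq_zero] at e
      rw [e, redPt_some W hΔ h₁, redPt_some W hΔ h₂,
        Affine.Point.add_of_Y_eq hx (by rw [Affine.map_negY (f := r)]; exact hy)]
      rfl
  · set w : A := a₁ - a₂
    have hwu : IsUnit w := by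
      by_contra hu
      exact hx (sub_eq_zero.1 ((map_sub r a₁ a₂).symm.trans ((IsLocalRing.residue_eq_zero_iff _).2 hu)))
    obtain ⟨wi, hwi⟩ := hwu.exists_left_inv
    have hgen : ∀ {F : Type _} [Field F] [DecidableEq F] (f : A →+* F), f a₁ ≠ f a₂ →
        (W.map f).toAffine.slope (f a₁) (f a₂) (f b₁) (f b₂) = f (wi * (b₁ - b₂)) := by
      intro F _ _ f hf
      rw [Affine.slope_of_X_ne hf, div_eq_iff (sub_ne_zero.2 hf)]
      have e := congrArg f hwi
      simp only [w, map_mul, map_sub, map_one] at e
      simp only [map_mul, map_sub]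
      linear_combination -(f b₁ - f b₂) * e
    exact key (wi * (b₁ - b₂))
      (hgen (algebraMap A L) fun e => hx (congrArg r (Subtype.val_injective e))) (hgen r hx)
      fun hh => hx hh.1

end Fermat.Agent.EC
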