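import Mathlib

/-!
# The point homomorphism induced by a field embedding fixing the curve
-/

set_option autoImplicit false

namespace Fermat.Agent.EC

open WeierstrassCurve

variable {K K' : Type*} [Field K] [Field K'] {V : WeierstrassCurve K} {V' : WeierstrassCurve K'}
  (f : K →+* K')

lemma nonsingular_of_map (hf : V.map f = V') {x y : K} (h : V.toAffine.Nonsingular x y) :
    V'.toAffine.Nonsingular (f x) (f y) :=
  hf ▸ (Affine.map_nonsingular _ f.injective x y).2 h

/-- The map on points. -/
noncomputable def sigmaFun (hf : V.map f = V') : V.toAffine.Point → V'.toAffine.Point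
  | .zero => 0
  | .some x y h => .some (f x) (f y) (nonsingular_of_map f hf h)

variable [DecidableEq K] [DecidableEq K']

lemma sigmaFun_add (hf : V.map f = V') (P Q : V.toAffine.Point) :
    sigmaFun f hf (P + Q) = sigmaFun f hf P + sigmaFun f hf Q := by
  subst hf
  rcases P with _ | ⟨x₁, y₁, h₁⟩
  · simp only [← Affine.Point.zero_def, zero_add]
    exact (zero_add (sigmaFun f rfl Q)).symm
  rcases Q with _ | ⟨x₂, y₂, h₂⟩
  · simp only [← Affine.Point.zero_def, add_zero]
    exact (add_zero (sigmaFun f rfl (Affine.Point.some x₁ y₁ h₁))).symm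
  by_cases hxy : x₁ = x₂ ∧ y₁ = V.toAffine.negY x₂ y₂
  · rw [Affine.Point.add_of_Y_eq hxy.1 hxy.2]
    exact (Affine.Point.add_of_Y_eq (congrArg f hxy.1)
      (by rw [hxy.2, Affine.map_negY])).symm
  · rw [Affine.Point.add_some hxy]
    have hxy' : ¬(f x₁ = f x₂ ∧ f y₁ = (V.map f).toAffine.negY (f x₂) (f y₂)) := by
      rintro ⟨h, h'⟩
      rw [Affine.map_negY] at h'
      exact hxy ⟨f.injective h, f.injective h'⟩
    refine Eq.trans ?_ (Affine.Point.add_some hxy').symm
    simp only [sigmaFun, Affine.Point.some.injEq, Affine.map_slope, Affine.map_addX,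
      Affine.map_addY, and_self]

/-- The point homomorphism. -/
noncomputable def sigmaPoint (hf : V.map f = V') : V.toAffine.Point →+ V'.toAffine.Point where
  toFun := sigmaFun f hf
  map_zero' := rfl
  map_add' := sigmaFun_add f hf

lemma sigmaPoint_some (hf : V.map f = V') {x y : K} (h : V.toAffine.Nonsingular x y) :
    sigmaPoint f hf (.some x y h) = .some (f x) (f y) (nonsingular_of_map f hf h) := rfl

end Fermat.Agent.EC
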