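import Fermat.Agent.EC.Local.Congr

/-!
# The kernel of reduction

* `redKernel`: for any Weierstrass model over a valuation ring, the points with `v x > 1` (and `0`)
  form a subgroup.
* `prod_abscissae_le`: for odd `n`, `v n · ∏ v x ≤ 1` over abscissae with `v x > 1` of `n`-torsion.
* `mem_redKernel_sub`: two points agreeing to higher order than `2y + a₁x + a₃` differ by an element
  of the kernel of reduction.
-/

set_option autoImplicit false

namespace Fermat.Agent.EC

open WeierstrassCurve Polynomial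

variable {L : Type*} [Field L]

section Peel

variable (A : ValuationSubring L)

/-- Large roots of an integral polynomial are bounded by the leading coefficient. -/
lemma val_coeff_mul_prod_le (S : Finset L) : ∀ (g : L[X]) (d : ℕ), g.natDegree ≤ d →
    (∀ k, A.valuation (g.coeff k) ≤ 1) → (∀ r ∈ S, 1 < A.valuation r ∧ g.eval r = 0) →
      A.valuation (g.coeff d) * ∏ r ∈ S, A.valuation r ≤ 1 := by
  classical
  induction S using Finset.induction_on with
  | empty =>
    intro g d _ hc _
    simpa using hc d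
  | insert r S hr ih =>
    intro g d hd hc hS
    rw [Finset.prod_insert hr]
    obtain ⟨hr1, hr0⟩ := hS r (Finset.mem_insert_self _ _)
    rcases d with _ | d
    · have hg : g.coeff 0 = 0 := by
        rw [eq_C_of_natDegree_le_zero hd, eval_C] at hr0
        exact hr0
      rw [hg, map_zero, zero_mul]
      exact zero_le
    set q := g /ₘ (X - C r) with hq
    have hgq : (X - C r) * q = g := mul_divByMonic_eq_iff_isRoot.2 hr0
    have hqd : q.natDegree ≤ d := by
      rw [hq, natDegree_divByMonic _ (monic_X_sub_C r), natDegree_X_sub_C]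
      omega
    have hsucc : ∀ k, g.coeff (k + 1) = q.coeff k - r * q.coeff (k + 1) := fun k => by
      rw [← hgq, sub_mul, coeff_sub, coeff_X_mul, coeff_C_mul]
    have hzero : g.coeff 0 = -(r * q.coeff 0) := by
      rw [← hgq, sub_mul, coeff_sub, coeff_C_mul, coeff_X_mul_zero, zero_sub]
    have hrq : ∀ k, A.valuation (r * q.coeff k) ≤ 1 := by
      intro k
      induction k with
      | zero =>
        have := hc 0
        rwa [hzero, Valuation.map_neg] at this
      | succ k ihk =>
        have hqk : A.valuation (q.coeff k) ≤ 1 := by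
          rw [map_mul] at ihk
          exact le_trans (le_mul_of_one_le_left zero_le hr1.le) ihk
        have e : r * q.coeff (k + 1) = q.coeff k - g.coeff (k + 1) := by rw [hsucc]; ring
        rw [e]
        exact (A.valuation.map_sub _ _).trans (max_le hqk (hc _))
    have htop : g.coeff (d + 1) = q.coeff d := by
      rw [hsucc, coeff_eq_zero_of_natDegree_lt (by omega : q.natDegree < d + 1), mul_zero, sub_zero]
    have := ih (C r * q) d ((natDegree_C_mul_le _ _).trans hqd)
      (fun k => by rw [coeff_C_mul]; exact hrq k)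
      (fun r' hr' => ⟨(hS r' (Finset.mem_insert_of_mem hr')).1, by
        have h0 := (hS r' (Finset.mem_insert_of_mem hr')).2
        rw [← hgq, eval_mul, eval_sub, eval_X, eval_C, mul_eq_zero] at h0
        rw [eval_mul, eval_C, h0.resolve_left (sub_ne_zero.2 fun e => hr (e ▸ hr')), mul_zero]⟩)
    rw [coeff_C_mul, map_mul] at this
    rw [htop]
    calc A.valuation (q.coeff d) * (A.valuation r * ∏ x ∈ S, A.valuation x)
        = A.valuation r * A.valuation (q.coeff d) * ∏ x ∈ S, A.valuation x := by ac_rfl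
      _ ≤ 1 := this

end Peel

variable [DecidableEq L] {A : ValuationSubring L} {W : WeierstrassCurve A}

/-- A valuation on `L` written as `A.valuation`. -/
local notation "v" => A.valuation

/-- `P = 0` or `v (x P) > 1`. -/
def IsBigPoint (A : ValuationSubring L) {V : WeierstrassCurve L} (P : V.toAffine.Point) : Prop :=
  ∀ (x y : L) (h : V.toAffine.Nonsingular x y), P = Affine.Point.some x y h → 1 < A.valuation x

omit [DecidableEq L] in
lemma isBigPoint_zero {V : WeierstrassCurve L} : IsBigPoint A (0 : V.toAffine.Point) :=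
  fun _ _ h e => absurd e.symm (Affine.Point.some_ne_zero h)

omit [DecidableEq L] in
lemma isBigPoint_some {V : WeierstrassCurve L} {x y : L} (h : V.toAffine.Nonsingular x y) :
    IsBigPoint A (Affine.Point.some x y h) ↔ 1 < v x := by
  refine ⟨fun hb => hb x y h rfl, fun hx x' y' h' e => ?_⟩
  rw [Affine.Point.some.injEq] at e
  rwa [← e.1]

omit [DecidableEq L] in
lemma isBigPoint_neg {V : WeierstrassCurve L} {P : V.toAffine.Point} (hP : IsBigPoint A P) :
    IsBigPoint A (-P) := by
  rcases P with _ | ⟨x, y, h⟩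
  · exact isBigPoint_zero
  · rw [Affine.Point.neg_some, isBigPoint_some]
    exact hP x y h rfl

omit [DecidableEq L] in
lemma forms_big {x₁ x₂ : L} (h₁ : 1 < v x₁) (h₂ : 1 < v x₂) :
    v (sP (W.map (algebraMap A L)) (x₁ * x₂) (x₁ + x₂) 1) = v (x₁ * x₂) ^ 2 ∧
      v (tP (W.map (algebraMap A L)) (x₁ * x₂) (x₁ + x₂) 1) < v (x₁ * x₂) ^ 2 ∧
      v (uP (x₁ * x₂) (x₁ + x₂) 1) < v (x₁ * x₂) ^ 2 := by
  set a := v x₁
  set b := v x₂
  have ha0 : 0 < a := zero_lt_one.trans h₁
  have hb0 : 0 < b := zero_lt_one.trans h₂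
  have hs : v (x₁ * x₂) = a * b := map_mul _ _ _
  have hab : 1 < a * b := h₁.trans_le (le_mul_of_one_le_right zero_le h₂.le)
  have hmax : max a b < a * b :=
    max_lt (lt_mul_of_one_lt_right ha0 h₂) (lt_mul_of_one_lt_left hb0 h₁)
  have hsq : a * b < (a * b) ^ 2 := by
    rw [pow_two]; exact lt_mul_of_one_lt_right (zero_lt_one.trans hab) hab
  have ht : v (x₁ + x₂) ≤ max a b := A.valuation.map_add _ _
  have hc : ∀ z : A, v (algebraMap A L z) ≤ 1 := A.valuation_le_one
  have hb₂ : v (W.map (algebraMap A L)).b₂ ≤ 1 := by rw [map_b₂]; exact hc _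
  have hb₄ : v (W.map (algebraMap A L)).b₄ ≤ 1 := by rw [map_b₄]; exact hc _
  have hb₆ : v (W.map (algebraMap A L)).b₆ ≤ 1 := by rw [map_b₆]; exact hc _
  have hb₈ : v (W.map (algebraMap A L)).b₈ ≤ 1 := by rw [map_b₈]; exact hc _
  have small : ∀ z w : L, v z ≤ 1 → v w ≤ a * b → v (z * w) < (a * b) ^ 2 := fun z w hz hw => by
    rw [map_mul]
    exact lt_of_le_of_lt ((mul_le_mul' hz hw).trans (one_mul _).le) hsq
  have h2 : v (2 : L) ≤ 1 := by simpa [map_ofNat] using hc 2
  refine ⟨?_, ?_, ?_⟩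
  · rw [show sP (W.map (algebraMap A L)) (x₁ * x₂) (x₁ + x₂) 1 = (x₁ * x₂) ^ 2 -
      ((W.map (algebraMap A L)).b₄ * (x₁ * x₂) + (W.map (algebraMap A L)).b₆ * (x₁ + x₂) +
        (W.map (algebraMap A L)).b₈ * 1) by simp only [sP]; ring,
      Valuation.map_sub_eq_of_lt_left, map_pow, hs]
    rw [map_pow, hs]
    exact val_add_lt _ (val_add_lt _ (small _ _ hb₄ hs.le) (small _ _ hb₆ (ht.trans hmax.le)))
      (small _ _ hb₈ (by rw [map_one]; exact hab.le))
  · rw [show tP (W.map (algebraMap A L)) (x₁ * x₂) (x₁ + x₂) 1 =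
      2 * (x₁ + x₂) * (x₁ * x₂) + (W.map (algebraMap A L)).b₂ * (x₁ * x₂) +
        (W.map (algebraMap A L)).b₄ * (x₁ + x₂) + (W.map (algebraMap A L)).b₆ * 1 by
          simp only [tP]; ring, hs]
    refine val_add_lt _ (val_add_lt _ (val_add_lt _ ?_ (small _ _ hb₂ hs.le))
      (small _ _ hb₄ (ht.trans hmax.le))) (small _ _ hb₆ (by rw [map_one]; exact hab.le))
    rw [map_mul, map_mul, hs, pow_two]
    refine mul_lt_mul_of_pos_right ?_ (zero_lt_one.trans hab)
    exact lt_of_le_of_lt ((mul_le_mul' h2 ht).trans (one_mul _).le) hmax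
  · rw [show uP (x₁ * x₂) (x₁ + x₂) 1 = (x₁ - x₂) ^ 2 by simp only [uP]; ring, map_pow, hs]
    exact pow_lt_pow_left₀ (lt_of_le_of_lt (A.valuation.map_sub _ _) hmax) zero_le two_ne_zero

lemma isBigPoint_add {P Q : (W.map (algebraMap A L)).toAffine.Point} (hP : IsBigPoint A P)
    (hQ : IsBigPoint A Q) : IsBigPoint A (P + Q) := by
  rcases P with _ | ⟨x₁, y₁, h₁⟩
  · rwa [← Affine.Point.zero_def, zero_add]
  rcases Q with _ | ⟨x₂, y₂, h₂⟩
  · rwa [← Affine.Point.zero_def, add_zero]
  have e₁ := hP x₁ y₁ h₁ rfl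
  have e₂ := hQ x₂ y₂ h₂ rfl
  rcases eq_or_ne x₁ x₂ with hx | hx
  · subst hx
    rcases (Affine.Point.X_eq_iff (h₁ := h₁) (h₂ := h₂)).1 rfl with e | e
    · rw [← e]
      by_cases hy : 2 * y₁ + (W.map (algebraMap A L)).a₁ * x₁ + (W.map (algebraMap A L)).a₃ = 0
      · rw [(add_self_eq_zero_iff h₁).2 hy]; exact isBigPoint_zero
      · obtain ⟨xa, ya, ha, e', hxa⟩ := double_of_ne h₁ hy
        rw [e', isBigPoint_some]
        by_contra hle
        push Not at hle
        obtain ⟨hS, hT, -⟩ := forms_big (W := W) e₁ e₁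
        refine (lt_irrefl (v (x₁ * x₁) ^ 2)) ?_
        calc v (x₁ * x₁) ^ 2 = v (xa * tP (W.map (algebraMap A L)) (x₁ * x₁) (x₁ + x₁) 1) := by
              rw [hxa, hS]
          _ ≤ 1 * v (tP (W.map (algebraMap A L)) (x₁ * x₁) (x₁ + x₁) 1) := by
              rw [map_mul]; gcongr
          _ < v (x₁ * x₁) ^ 2 := by rw [one_mul]; exact hT
    · rw [e, neg_add_cancel]; exact isBigPoint_zero
  · obtain ⟨xa, ya, xs, ys, hha, hhs, ea, -, hsum, hprod⟩ := addSub_of_ne h₁ h₂ hx
    rw [ea, isBigPoint_some]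
    by_contra hle
    push Not at hle
    obtain ⟨hS, hT, hU⟩ := forms_big (W := W) e₁ e₂
    rw [← hprod, map_mul, map_mul] at hS
    rw [← hsum, map_mul] at hT
    rcases le_or_gt (v xs) 1 with hxs | hxs
    · refine (lt_irrefl (v (x₁ * x₂) ^ 2)) ?_
      calc v (x₁ * x₂) ^ 2 = v xa * v xs * v (uP (x₁ * x₂) (x₁ + x₂) 1) := hS.symm
        _ ≤ 1 * 1 * v (uP (x₁ * x₂) (x₁ + x₂) 1) := by gcongr
        _ < v (x₁ * x₂) ^ 2 := by rw [one_mul, one_mul]; exact hU
    · rw [Valuation.map_add_eq_of_lt_right _ (lt_of_le_of_lt hle hxs), ← hS] at hT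
      refine not_le.2 hT ?_
      rw [mul_assoc]
      exact mul_le_of_le_one_left zero_le hle

variable (A W) in
/-- The kernel of reduction. -/
noncomputable def redKernel : AddSubgroup (W.map (algebraMap A L)).toAffine.Point where
  carrier := {P | IsBigPoint A P}
  zero_mem' := isBigPoint_zero
  add_mem' := fun hP hQ => isBigPoint_add hP hQ
  neg_mem' := fun hP => isBigPoint_neg hP

lemma mem_redKernel_iff {P : (W.map (algebraMap A L)).toAffine.Point} :
    P ∈ redKernel A W ↔ IsBigPoint A P := Iff.rfl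

lemma mem_redKernel_some {x y : L} {h : (W.map (algebraMap A L)).toAffine.Nonsingular x y} :
    Affine.Point.some x y h ∈ redKernel A W ↔ 1 < v x := isBigPoint_some h

/-- Points agreeing beyond the order of `2y + a₁x + a₃` differ by a point in the kernel of
reduction. -/
lemma mem_redKernel_sub {x₁ y₁ x₂ y₂ : L}
    (h₁ : (W.map (algebraMap A L)).toAffine.Nonsingular x₁ y₁)
    (h₂ : (W.map (algebraMap A L)).toAffine.Nonsingular x₂ y₂) (i₁ : v x₁ ≤ 1) (i₂ : v x₂ ≤ 1)
    (hx : v (x₂ - x₁) <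
      v (2 * y₁ + (W.map (algebraMap A L)).a₁ * x₁ + (W.map (algebraMap A L)).a₃))
    (hy : v (y₂ - y₁) <
      v (2 * y₁ + (W.map (algebraMap A L)).a₁ * x₁ + (W.map (algebraMap A L)).a₃)) :
    Affine.Point.some x₂ y₂ h₂ - Affine.Point.some x₁ y₁ h₁ ∈ redKernel A W := by
  rcases eq_or_ne x₂ x₁ with e | e
  · subst e
    rcases (Affine.Point.X_eq_iff (h₁ := h₂) (h₂ := h₁)).1 rfl with e | e
    · rw [e, sub_self]; exact zero_mem _
    · rw [Affine.Point.neg_some, Affine.Point.some.injEq] at e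
      exfalso
      refine (lt_irrefl (v (y₂ - y₁))) (lt_of_lt_of_eq hy ?_)
      rw [← Valuation.map_neg]
      congr 1
      rw [e.2, Affine.negY]
      ring
  · rw [sub_eq_add_neg, Affine.Point.neg_some, Affine.Point.add_of_X_ne e, mem_redKernel_some]
    set num := y₂ - (W.map (algebraMap A L)).toAffine.negY x₁ y₁ with hnum
    set g := v (2 * y₁ + (W.map (algebraMap A L)).a₁ * x₁ + (W.map (algebraMap A L)).a₃) with hg
    have hd : 0 < v (x₂ - x₁) := zero_lt_iff.2 ((_root_.map_ne_zero _).2 (sub_ne_zero.2 e))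
    have hn : v num = g := by
      rw [show num = (2 * y₁ + (W.map (algebraMap A L)).a₁ * x₁ + (W.map (algebraMap A L)).a₃) +
        (y₂ - y₁) by rw [hnum, Affine.negY]; ring,
        Valuation.map_add_eq_of_lt_left _ hy]
    rw [Affine.slope_of_X_ne e, ← hnum, Affine.addX]
    set l := num / (x₂ - x₁) with hl
    have hl1 : 1 < v l := by rw [hl, map_div₀, hn, one_lt_div₀ hd]; exact hx
    have hl0 : 0 < v l := zero_lt_one.trans hl1
    have ha₁ : v (W.map (algebraMap A L)).a₁ ≤ 1 := A.valuation_le_one W.a₁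
    have ha₂ : v (W.map (algebraMap A L)).a₂ ≤ 1 := A.valuation_le_one W.a₂
    have hl2 : v l < v (l ^ 2) := by
      rw [map_pow, pow_two]; exact lt_mul_of_one_lt_right hl0 hl1
    have hrest : v ((W.map (algebraMap A L)).a₁ * l - (W.map (algebraMap A L)).a₂ - x₂ - x₁) ≤ v l := by
      refine (A.valuation.map_sub _ _).trans (max_le ((A.valuation.map_sub _ _).trans
        (max_le ((A.valuation.map_sub _ _).trans (max_le ?_ (ha₂.trans hl1.le)))
          (i₂.trans hl1.le))) (i₁.trans hl1.le))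
      rw [map_mul]
      exact mul_le_of_le_one_left zero_le ha₁
    show 1 < v (l ^ 2 + (W.map (algebraMap A L)).a₁ * l - (W.map (algebraMap A L)).a₂ - x₂ - x₁)
    rw [show l ^ 2 + (W.map (algebraMap A L)).a₁ * l - (W.map (algebraMap A L)).a₂ - x₂ - x₁ =
      l ^ 2 + ((W.map (algebraMap A L)).a₁ * l - (W.map (algebraMap A L)).a₂ - x₂ - x₁) by ring,
      Valuation.map_add_eq_of_lt_left _ (lt_of_le_of_lt hrest hl2)]
    exact hl1.trans hl2

/-- For odd `n`: `v n * ∏ v x ≤ 1` over abscissae `v x > 1` of `n`-torsion points. -/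
theorem prod_abscissae_le [IsAlgClosed L] [CharZero L] [(W.map (algebraMap A L)).IsElliptic]
    {m : ℕ} (hm : 1 ≤ m) (S : Finset L)
    (hS : ∀ x ∈ S, 1 < v x ∧ ∃ (y : L) (h : (W.map (algebraMap A L)).toAffine.Nonsingular x y),
      (2 * m + 1) • Affine.Point.some x y h = 0) :
    v ((2 * m + 1 : ℕ) : L) * ∏ x ∈ S, v x ≤ 1 := by
  obtain ⟨a, b, hab⟩ := exists_mulPair (W := W) (φ := algebraMap A L) Subtype.val_injective m hm
  obtain ⟨a', b', hab'⟩ :=
    exists_mulPair (W := W) (φ := algebraMap A L) Subtype.val_injective (m + 1) (by omega)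
  set g : A[X] := a * b' - b * a' with hg
  have hdeg1 : a.natDegree ≤ m ^ 2 := hab.natDegree_a.le
  have hdeg2 : a'.natDegree ≤ (m + 1) ^ 2 := hab'.natDegree_a.le
  have hm2 : 1 ≤ m ^ 2 := Nat.one_le_pow _ _ hm
  have hm3 : 1 ≤ (m + 1) ^ 2 := Nat.one_le_pow _ _ (by omega)
  set d := m ^ 2 + ((m + 1) ^ 2 - 1) with hd
  have hgd : g.natDegree ≤ d :=
    (natDegree_sub_le _ _).trans (max_le (natDegree_mul_le_add hdeg1 hab'.natDegree_b)
      ((natDegree_mul_le_add hab.natDegree_b hdeg2).trans (by omega)))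
  have hgc : g.coeff d = ((2 * m + 1 : ℕ) : A) := by
    have e1 : (a * b').coeff d = ((m + 1 : ℕ) : A) ^ 2 := by
      rw [hd, coeff_mul_add_eq_of_natDegree_le hdeg1 hab'.natDegree_b, ← hab.natDegree_a,
        hab.monic.coeff_natDegree, one_mul, hab'.coeff_b]
    have e2 : (b * a').coeff d = (m : A) ^ 2 := by
      rw [show d = (m ^ 2 - 1) + (m + 1) ^ 2 by omega,
        coeff_mul_add_eq_of_natDegree_le hab.natDegree_b hdeg2, hab.coeff_b, ← hab'.natDegree_a,
        hab'.monic.coeff_natDegree, mul_one]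
    rw [hg, coeff_sub, e1, e2]
    push_cast
    ring
  have key := val_coeff_mul_prod_le A S (g.map (algebraMap A L)) d (natDegree_map_le.trans hgd)
    (fun k => by rw [coeff_map]; exact A.valuation_le_one _)
    (fun x hx => by
      obtain ⟨h1, y, h, t⟩ := hS x hx
      refine ⟨h1, ?_⟩
      have e : (m + 1) • Affine.Point.some x y h = -(m • Affine.Point.some x y h) := by
        rw [eq_neg_iff_add_eq_zero, ← add_nsmul, show m + 1 + m = 2 * m + 1 by ring]
        exact t
      rcases e0 : m • Affine.Point.some x y h with _ | ⟨x', y', h'⟩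
      · exfalso
        rw [e0, ← Affine.Point.zero_def, neg_zero] at e
        rw [succ_nsmul, e0, ← Affine.Point.zero_def, zero_add] at e
        exact Affine.Point.some_ne_zero h e
      rw [e0, Affine.Point.neg_some] at e
      obtain ⟨-, q1⟩ := hab.spec_some x y h _ _ _ e0
      obtain ⟨-, q2⟩ := hab'.spec_some x y h _ _ _ e
      rw [hg, Polynomial.map_sub, Polynomial.map_mul, Polynomial.map_mul, eval_sub, eval_mul,
        eval_mul, q1, q2]
      ring)
  rw [coeff_map, hgc, map_natCast] at key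
  exact key

end Fermat.Agent.EC
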