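import Fermat.Agent.EC.Local.Mult
import Fermat.Agent.EC.Local.Reduction
import Fermat.Agent.EC.Local.MapPoint

/-!
# Inertia on `E[p]` at a place above `p`

If no nonzero multiple of the `p`-torsion point `P` is in the kernel of reduction, then `σ P - P`
is, for `σ` in inertia — good reduction, or multiplicative reduction with `p ∣ v(Δ)`.
-/

set_option autoImplicit false

namespace Fermat.Agent.EC

open WeierstrassCurve

variable {L : Type*} [Field L] [IsAlgClosed L] [CharZero L] [DecidableEq L]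
variable {F : Type*} [Field F] [Algebra F L]
variable {A : ValuationSubring L} {σ : L ≃ₐ[F] L} {p : ℕ}

local notation "v" => A.valuation

omit [IsAlgClosed L] [CharZero L] in
/-- If the doubling numerator is a unit, `2y + a₁x + a₃` is one unless `2P` is in the kernel of
reduction. -/
lemma val_psi_eq_one (W : WeierstrassCurve A) {x y : L}
    (h : (W.map (algebraMap A L)).toAffine.Nonsingular x y) (hx : v x ≤ 1) (hy : v y ≤ 1)
    (hns : ¬(v (sP (W.map (algebraMap A L)) (x * x) (x + x) 1) < 1 ∧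
      v (tP (W.map (algebraMap A L)) (x * x) (x + x) 1) < 1))
    (h2 : ¬ IsBigPoint A (Affine.Point.some x y h + Affine.Point.some x y h)) :
    v (2 * y + (W.map (algebraMap A L)).a₁ * x + (W.map (algebraMap A L)).a₃) = 1 := by
  have ha : ∀ a : A, v (algebraMap A L a) ≤ 1 := A.valuation_le_one
  have h2' : v (2 : L) ≤ 1 := by simpa [map_ofNat] using ha 2
  have hle : v (2 * y + (W.map (algebraMap A L)).a₁ * x + (W.map (algebraMap A L)).a₃) ≤ 1 :=
    (A.valuation.map_add _ _).trans (max_le ((A.valuation.map_add _ _).trans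
      (max_le (val_mul_le_one _ h2' hy) (val_mul_le_one _ (ha W.a₁) hx))) (ha W.a₃))
  refine hle.lt_or_eq.resolve_left fun hlt => ?_
  have ht : v (tP (W.map (algebraMap A L)) (x * x) (x + x) 1) < 1 := by
    rw [← psi2_sq h.1, map_pow]; exact pow_lt_one₀ zero_le hlt two_ne_zero
  have hy0 : 2 * y + (W.map (algebraMap A L)).a₁ * x + (W.map (algebraMap A L)).a₃ ≠ 0 :=
    fun h0 => h2 (by rw [(add_self_eq_zero_iff h).2 h0]; exact isBigPoint_zero)
  obtain ⟨xa, ya, hha, e, hxa⟩ := double_of_ne h hy0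
  rw [e, isBigPoint_some, not_lt] at h2
  exact hns ⟨by rw [← hxa]; exact val_mul_lt_one' _ h2 ht, ht⟩

omit [IsAlgClosed L] [CharZero L] in
lemma smul_not_big {V : WeierstrassCurve L} {P : V.toAffine.Point}
    (hP : ∀ j : ℕ, ¬ p ∣ j → ¬ IsBigPoint A (j • P)) {j : ℕ} (hj : ¬ p ∣ j) :
    ∃ (x y : L) (h : V.toAffine.Nonsingular x y), j • P = Affine.Point.some x y h ∧ v x ≤ 1 := by
  rcases e : j • P with _ | ⟨x, y, h⟩
  · exact absurd (e ▸ isBigPoint_zero) (hP j hj)
  · refine ⟨x, y, h, rfl, not_lt.1 fun hlt => hP j hj ?_⟩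
    rw [e, isBigPoint_some]; exact hlt

variable [hp : Fact p.Prime]

omit [IsAlgClosed L] [CharZero L] [DecidableEq L] in
lemma val_y_le_one (W : WeierstrassCurve A) {x y : L} (hx : v x ≤ 1)
    (h : (W.map (algebraMap A L)).toAffine.Equation x y) : v y ≤ 1 :=
  (A.valuation_le_one_iff y).2 (y_mem_of_x_mem A W ((A.valuation_le_one_iff x).1 hx) h)

/-- Good reduction at a place above `p`. -/
theorem isBigPoint_sub_good (W : WeierstrassCurve A) (hΔ : IsUnit W.Δ) {V : WeierstrassCurve L}
    (hV : W.map (algebraMap A L) = V) (hσ : ActsInertially A σ) (hodd : Odd p) {x y : L}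
    (h : V.toAffine.Nonsingular x y) (h' : V.toAffine.Nonsingular (σ x) (σ y))
    (hP : ∀ j : ℕ, ¬ p ∣ j → ¬ IsBigPoint A (j • Affine.Point.some x y h)) :
    IsBigPoint A (Affine.Point.some (σ x) (σ y) h' - Affine.Point.some x y h) := by
  subst hV
  have hp3 : 3 ≤ p := by
    obtain ⟨k, hk⟩ := hodd
    have := hp.out.two_le
    omega
  have hx : v x ≤ 1 := by
    have := hP 1 (fun h1 => by have := Nat.le_of_dvd one_pos h1; omega)
    rwa [one_nsmul, isBigPoint_some, not_lt] at this
  have hy := val_y_le_one W hx h.1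
  have h2 := hP 2 (fun h2 => by have := Nat.le_of_dvd two_pos h2; omega)
  rw [two_nsmul] at h2
  have hψ := val_psi_eq_one W h hx hy (forms_not_both_small hΔ hx) h2
  exact mem_redKernel_sub h h' hx (by rw [hσ.valuation_eq]; exact hx)
    (by rw [hψ]; exact hσ.sub_lt x hx) (by rw [hψ]; exact hσ.sub_lt y hy)

/-- The normal form at a place above `p`. -/
theorem isBigPoint_sub_tate {c : A} (hc0 : c ≠ 0) (hc : v (algebraMap A L c) < 1)
    {V : WeierstrassCurve L} [hVe : V.IsElliptic] (hV : V = (tateNF c).map (algebraMap A L))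
    (hσ : ActsInertially A σ) (hfix : σ (algebraMap A L c) = algebraMap A L c)
    (h2 : v (2 : L) = 1) (hodd : Odd p) {w : L}
    (hw : σ w = w) (hwc : v (algebraMap A L c) = v w ^ p) {x y : L}
    (h : V.toAffine.Nonsingular x y) (h' : V.toAffine.Nonsingular (σ x) (σ y))
    (t : p • Affine.Point.some x y h = 0) (t' : p • Affine.Point.some (σ x) (σ y) h' = 0)
    (hP : ∀ j : ℕ, ¬ p ∣ j → ¬ IsBigPoint A (j • Affine.Point.some x y h)) :
    IsBigPoint A (Affine.Point.some (σ x) (σ y) h' - Affine.Point.some x y h) := by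
  subst hV
  have hp3 : 3 ≤ p := by
    obtain ⟨k, hk⟩ := hodd
    have := hp.out.two_le
    omega
  by_cases hunit : ∃ (j : ℕ) (x₁ y₁ : L)
      (h₁ : ((tateNF c).map (algebraMap A L)).toAffine.Nonsingular x₁ y₁),
      ¬ p ∣ j ∧ j • Affine.Point.some x y h = Affine.Point.some x₁ y₁ h₁ ∧ v x₁ = 1
  · obtain ⟨j, x₁, y₁, h₁, hj, ej, hx₁⟩ := hunit
    have hy₁ := val_y_le_one (tateNF c) hx₁.le h₁.1
    have h4 : v (4 : L) ≤ 1 := by exact_mod_cast val_natCast_le_one (A := A) 4
    have hns : ¬(v (sP ((tateNF c).map (algebraMap A L)) (x₁ * x₁) (x₁ + x₁) 1) < 1 ∧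
        v (tP ((tateNF c).map (algebraMap A L)) (x₁ * x₁) (x₁ + x₁) 1) < 1) := by
      rintro ⟨hs, -⟩
      have hxx : v (x₁ + x₁) ≤ 1 := (A.valuation.map_add _ _).trans (max_le hx₁.le hx₁.le)
      rw [tateNF_sP, Valuation.map_sub_eq_of_lt_left] at hs
      · simp [hx₁] at hs
      · simp only [map_pow, map_mul, hx₁, mul_one, one_pow]
        exact val_add_lt _ (val_mul_lt_one _ (val_mul_lt_one' _ h4 hc) hxx) hc
    have h2j := hP (j * 2) (fun hd => (hp.out.dvd_mul.1 hd).elim hj
      (fun h2 => by have := Nat.le_of_dvd two_pos h2; omega))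
    rw [mul_nsmul, ej, two_nsmul] at h2j
    have hψ := val_psi_eq_one (tateNF c) h₁ hx₁.le hy₁ hns h2j
    -- the multiple of the image
    let σp : L →+* L := σ.toAlgHom.toRingHom
    have hmap : ((tateNF c).map (algebraMap A L)).map σp = (tateNF c).map (algebraMap A L) := by
      ext <;> simp [tateNF, σp]
      exact hfix
    have h₁' : ((tateNF c).map (algebraMap A L)).toAffine.Nonsingular (σ x₁) (σ y₁) := by
      exact nonsingular_of_map σp hmap h₁
    have key : ∀ (i : ℕ) (a b : L) (hab : ((tateNF c).map (algebraMap A L)).toAffine.Nonsingular a b),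
        i • Affine.Point.some x y h = Affine.Point.some a b hab →
        ∃ h'', i • Affine.Point.some (σ x) (σ y) h' = Affine.Point.some (σ a) (σ b) h'' := by
      intro i a b hab e
      have e' := congrArg (sigmaPoint σp hmap) e
      rw [map_nsmul, sigmaPoint_some, sigmaPoint_some] at e'
      exact ⟨_, e'⟩
    obtain ⟨h'', ej'⟩ := key j x₁ y₁ h₁ ej
    have hbig := mem_redKernel_sub h₁ h'' hx₁.le (by rw [hσ.valuation_eq]; exact hx₁.le)
      (by rw [hψ]; exact hσ.sub_lt x₁ hx₁.le) (by rw [hψ]; exact hσ.sub_lt y₁ hy₁)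
    rw [← ej, ← ej', ← nsmul_sub] at hbig
    obtain ⟨i, hi⟩ := Nat.exists_mul_mod_eq_one_of_coprime
      (hp.out.coprime_iff_not_dvd.2 hj).symm hp.out.one_lt
    have hd : p • (Affine.Point.some (σ x) (σ y) h' - Affine.Point.some x y h) = 0 := by
      rw [nsmul_sub, t, t', sub_zero]
    have := (redKernel A (tateNF c)).nsmul_mem hbig i
    rw [← mul_nsmul, ← Nat.mod_add_div (j * i) p, add_nsmul, hi.2, one_nsmul, mul_nsmul, hd,
      nsmul_zero, add_zero] at this
    exact this
  · push Not at hunit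
    have hsing : TateSing c p (Affine.Point.some x y h) := fun j hj => by
      obtain ⟨x₁, y₁, h₁, e, hx₁⟩ := smul_not_big hP hj
      refine ⟨x₁, y₁, h₁, e, lt_of_le_of_ne hx₁ (hunit j x₁ y₁ h₁ hj e), ?_⟩
      rw [← e, smul_comm, t, nsmul_zero]
    have hlt : v x < 1 := by
      obtain ⟨x₁, y₁, h₁, e, hx₁, -⟩ := hsing 1 (fun h1 => by
        have := Nat.le_of_dvd one_pos h1; omega)
      rw [one_nsmul, Affine.Point.some.injEq] at e
      rwa [e.1]
    obtain ⟨k, hk⟩ := tate_position_of_sing hc0 hc hodd h t hsing hlt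
    have hC := tate_c_lt_sq_of_sing hc0 hc hodd h hsing hlt
    have hw' : v x = v (w ^ k) := by
      rw [map_pow]
      refine (pow_left_inj₀ zero_le zero_le hp.out.ne_zero).1 ?_
      rw [hk, hwc, ← pow_mul, ← pow_mul, mul_comm]
    have hwk : σ (w ^ k) = w ^ k := by rw [map_pow, hw]
    have hx0 : v x ≠ 0 := fun e0 => by
      rw [e0, zero_pow two_ne_zero] at hC; exact not_lt_zero hC
    have hwk0 : w ^ k ≠ 0 := fun e0 => by rw [hw', e0, map_zero] at hx0; exact hx0 rfl
    have hψ : v (2 * y + ((tateNF c).map (algebraMap A L)).a₁ * x +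
        ((tateNF c).map (algebraMap A L)).a₃) = v x := by
      refine (pow_left_inj₀ zero_le zero_le two_ne_zero).1 ?_
      rw [← map_pow, psi2_sq h.1, tateNF_tP, Valuation.map_add_eq_of_lt_left, map_mul, pow_two]
      have h4 : v (4 : L) ≤ 1 := by exact_mod_cast val_natCast_le_one (A := A) 4
      have hxx : v (x * x) = v x ^ 2 := by rw [map_mul, pow_two]
      rw [hxx]
      refine val_add_lt _ ?_ (lt_of_le_of_lt ?_ hC)
      · rw [map_mul, hxx]
        exact mul_lt_of_lt_one_left (pow_pos (zero_lt_iff.2 hx0) 2)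
          (val_mul_lt_one' _ h2.le (val_add_lt _ hlt hlt))
      · rw [map_mul]
        exact (mul_le_mul' h4 le_rfl).trans (one_mul _).le
    refine mem_redKernel_sub h h' hlt.le (by rw [hσ.valuation_eq]; exact hlt.le) ?_ ?_
    · rw [hψ, hw']; exact hσ.sub_lt_of_le hwk hwk0 hw'.le
    · rw [hψ, hw']; exact hσ.sub_lt_of_le hwk hwk0 (hw' ▸ tate_val_y_le h.1 hlt hC)

omit [IsAlgClosed L] [CharZero L] [DecidableEq L] [Fact p.Prime] in
/-- A change of variables with `v u = 1`, `v r ≤ 1` preserves bigness of abscissae. -/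
lemma one_lt_val_vcX_iff (C : VariableChange L) (hu : v (C.u : L) = 1) (hr : v C.r ≤ 1) (x : L) :
    1 < v (vcX C x) ↔ 1 < v x := by
  rw [vcX, map_div₀, map_pow, hu, one_pow, div_one]
  constructor
  · intro h
    by_contra hle
    push Not at hle
    exact not_lt.2 ((A.valuation.map_sub _ _).trans (max_le hle hr)) h
  · intro h
    rwa [Valuation.map_sub_eq_of_lt_left _ (lt_of_le_of_lt hr h)]

omit [IsAlgClosed L] [CharZero L] [Fact p.Prime] in
lemma isBigPoint_vcHom_iff {V : WeierstrassCurve L} [V.IsElliptic] (C : VariableChange L)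
    (hu : v (C.u : L) = 1) (hr : v C.r ≤ 1) (P : V.toAffine.Point) :
    IsBigPoint A (vcHom C P) ↔ IsBigPoint A P := by
  rcases P with _ | ⟨x, y, h⟩
  · rw [← Affine.Point.zero_def, map_zero]
    exact ⟨fun _ => isBigPoint_zero, fun _ => isBigPoint_zero⟩
  · rw [vcHom_some, isBigPoint_some, isBigPoint_some, one_lt_val_vcX_iff C hu hr]

/-- Multiplicative reduction with `p ∣ v(Δ)` at a place above `p` (residue characteristic `≠ 2, 3`). -/
theorem isBigPoint_sub_mult (W : WeierstrassCurve A) (hΔ : v (algebraMap A L W.Δ) < 1)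
    (hΔ0 : W.Δ ≠ 0) (hc₄ : v (algebraMap A L W.c₄) = 1) (h2 : v (2 : L) = 1)
    (h3 : v (3 : L) = 1) {V : WeierstrassCurve L} [hVe : V.IsElliptic]
    (hV : W.map (algebraMap A L) = V)
    (hfix₁ : σ V.a₁ = V.a₁) (hfix₂ : σ V.a₂ = V.a₂) (hfix₃ : σ V.a₃ = V.a₃)
    (hfix₄ : σ V.a₄ = V.a₄) (hfix₆ : σ V.a₆ = V.a₆)
    (hσ : ActsInertially A σ) (hodd : Odd p) {w : L} (hw : σ w = w)
    (hwc : v (algebraMap A L W.Δ) = v w ^ p) {x y : L} (h : V.toAffine.Nonsingular x y)
    (h' : V.toAffine.Nonsingular (σ x) (σ y)) (t : p • Affine.Point.some x y h = 0)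
    (t' : p • Affine.Point.some (σ x) (σ y) h' = 0)
    (hP : ∀ j : ℕ, ¬ p ∣ j → ¬ IsBigPoint A (j • Affine.Point.some x y h)) :
    IsBigPoint A (Affine.Point.some (σ x) (σ y) h' - Affine.Point.some x y h) := by
  subst hV
  set σp : L →+* L := σ.toAlgHom.toRingHom with hσp
  obtain ⟨u, c, hu, hc0, hc, hcΔ, hC⟩ := exists_tateNF W hΔ hΔ0 hc₄
  set C := toTateNF (W.map (algebraMap A L)) u with hCdef
  have hvu : v (u : L) = 1 := by
    have := congrArg v hu
    rw [map_pow, hc₄] at this
    exact (pow_eq_one_iff_of_nonneg zero_le (by norm_num)).1 this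
  have hfc4 : σ (W.map (algebraMap A L)).c₄ = (W.map (algebraMap A L)).c₄ := by
    simp only [WeierstrassCurve.c₄, WeierstrassCurve.b₂, WeierstrassCurve.b₄, map_sub, map_add,
      map_mul, map_pow, map_ofNat, hfix₁, hfix₂, hfix₃, hfix₄]
  have hσu : σ (u : L) = u := by
    refine hσ.fix_fourth_root h2 hvu ?_
    rwa [hu, ← map_c₄]
  have hσs : σ C.s = C.s := by
    rw [show C.s = ((u : L) - (W.map (algebraMap A L)).a₁) / 2 from rfl, map_div₀ σ, map_sub,
      hσu, hfix₁, map_ofNat]
  have hσr : σ C.r = C.r := by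
    rw [show C.r = (C.s * (W.map (algebraMap A L)).a₁ + C.s ^ 2
        - (W.map (algebraMap A L)).a₂) / 3 from rfl]
    simp only [map_div₀ σ, map_sub, map_add, map_mul, map_pow, hσs, hfix₁, hfix₂, map_ofNat]
  have hσt : σ C.t = C.t := by
    rw [show C.t = -((W.map (algebraMap A L)).a₃ + C.r * (W.map (algebraMap A L)).a₁) / 2 from rfl]
    simp only [map_div₀ σ, map_neg, map_add, map_mul, hσr, hfix₁, hfix₃, map_ofNat]
  have hX : ∀ a, σ (vcX C a) = vcX C (σ a) := fun a => by
    rw [vcX, vcX, map_div₀ σ, map_sub, hσr, map_pow, show C.u = u from rfl, hσu]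
  have hY : ∀ a b, σ (vcY C a b) = vcY C (σ a) (σ b) := fun a b => by
    rw [vcY, vcY, map_div₀ σ, map_sub, map_sub, map_mul, map_sub, hσs, hσr, hσt, map_pow,
      show C.u = u from rfl, hσu]
  have hs : v C.s ≤ 1 := by
    rw [show C.s = ((u : L) - (W.map (algebraMap A L)).a₁) / 2 from rfl, map_div₀, h2, div_one]
    exact (A.valuation.map_sub _ _).trans (max_le hvu.le (A.valuation_le_one W.a₁))
  have hr : v C.r ≤ 1 := by
    rw [show C.r = (C.s * (W.map (algebraMap A L)).a₁ + C.s ^ 2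
        - (W.map (algebraMap A L)).a₂) / 3 from rfl, map_div₀, h3, div_one]
    refine (A.valuation.map_sub _ _).trans (max_le ((A.valuation.map_add _ _).trans (max_le
      (val_mul_le_one _ hs (A.valuation_le_one W.a₁)) ?_)) (A.valuation_le_one W.a₂))
    rw [map_pow]; exact pow_le_one₀ zero_le hs
  have hCu : v (C.u : L) = 1 := hvu
  have hcfix : σ (algebraMap A L c) = algebraMap A L c := by
    have e := congrArg WeierstrassCurve.a₆ hC
    rw [map_a₆, show (tateNF c).a₆ = c from rfl] at e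
    rw [← e, variableChange_a₆]
    simp only [map_mul, map_pow, map_sub, map_add, Units.val_inv_eq_inv_val, map_inv₀,
      show C.u = u from rfl, hσu, hσr, hσt, hfix₁, hfix₂, hfix₃, hfix₄, hfix₆]
  have m : (C • W.map (algebraMap A L)).toAffine.Nonsingular (σ (vcX C x)) (σ (vcY C x y)) := by
    rw [hX, hY]; exact vc_nonsingular C h'
  have e' : Affine.Point.some _ _ m = vcHom C (Affine.Point.some _ _ h') := by
    rw [vcHom_some, Affine.Point.some.injEq]; exact ⟨hX x, hY x y⟩
  have key := isBigPoint_sub_tate hc0 hc hC hσ hcfix h2 hodd hw (hcΔ.trans hwc)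
    (vc_nonsingular C h) m (by rw [← vcHom_some C h, ← map_nsmul, t, map_zero])
    (by rw [e', ← map_nsmul, t', map_zero])
    (fun j hj hb => hP j hj (by
      rwa [← vcHom_some C h, ← map_nsmul, isBigPoint_vcHom_iff C hCu hr] at hb))
  rwa [e', ← vcHom_some C h, ← map_sub, isBigPoint_vcHom_iff C hCu hr] at key

end Fermat.Agent.EC
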