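import Fermat.Agent.EC.Local.Mult
import Fermat.Agent.EC.Local.MapPoint

/-!
# Torsion of odd prime order at a place of residue characteristic `2` and multiplicative reduction

* `two_eigen_fix`: inertia fixes every eigenvector in `E[p]`.
* `two_no_rational`: no point of order `p ≥ 5` whose abscissa behaves like a rational number, for
  models `y² + xy = x³ + a₂x² + a₄x` with `v Δ = v a₄²`, `v a₄ = v 2ᵐ` and `p ∤ 2m`.
-/

set_option autoImplicit false

namespace Fermat.Agent.EC

open WeierstrassCurve

variable {L : Type*} [Field L] [IsAlgClosed L] [CharZero L] [DecidableEq L]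
variable {F : Type*} [Field F] [Algebra F L]
variable {A : ValuationSubring L} {σ : L ≃ₐ[F] L} {p : ℕ} [hp : Fact p.Prime]

local notation "v" => A.valuation

/-- Inertia fixes eigenvectors on the normal form. -/
theorem tate_eigen_fix {c : A} (hc0 : c ≠ 0) (hc : v (algebraMap A L c) < 1)
    {V : WeierstrassCurve L} [hVe : V.IsElliptic] (hV : V = (tateNF c).map (algebraMap A L))
    (hpu : IsUnit (p : A)) (hodd : Odd p) (hσ : ActsInertially A σ) {x y : L}
    (h : V.toAffine.Nonsingular x y) (h' : V.toAffine.Nonsingular (σ x) (σ y))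
    (t : p • Affine.Point.some x y h = 0) (b : ℕ)
    (hb : Affine.Point.some (σ x) (σ y) h' = b • Affine.Point.some x y h) :
    σ x = x ∧ σ y = y := by
  subst hV
  have t' : p • Affine.Point.some (σ x) (σ y) h' = 0 := by rw [hb, smul_comm, t, nsmul_zero]
  have hx := val_torsion_x A (tateNF c) hpu h t
  rcases hx.lt_or_eq with hlt | heq
  · have hC := tate_c_lt_sq hc0 hc hpu hodd h t hlt
    have hx' : v (σ x) = v x := hσ.valuation_eq x
    have hsing : ∀ k : ℕ, k • Affine.Point.some x y h = 0 ∨ ∃ (xk yk : L)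
        (hk : ((tateNF c).map (algebraMap A L)).toAffine.Nonsingular xk yk),
        k • Affine.Point.some x y h = Affine.Point.some xk yk hk ∧ v xk < 1 := by
      intro k
      by_cases hk : p ∣ k
      · obtain ⟨k', rfl⟩ := hk
        exact Or.inl (by rw [mul_nsmul, t, nsmul_zero])
      · obtain ⟨xk, yk, hxk, e, hlt', -⟩ := tate_singular_nsmul hc hpu h t hlt hk
        exact Or.inr ⟨xk, yk, hxk, e, hlt'⟩
    by_cases hxx : σ x = x
    · refine ⟨hxx, ?_⟩
      rcases (Affine.Point.X_eq_iff (h₁ := h') (h₂ := h)).1 hxx with e | e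
      · rw [Affine.Point.some.injEq] at e
        exact e.2
      · exfalso
        rw [Affine.Point.neg_some, Affine.Point.some.injEq] at e
        have hy' : v (σ y) = v y := hσ.valuation_eq y
        rw [e.2, Affine.negY] at hy'
        simp only [tateNF, map_a₁, map_a₃, map_one, map_zero, one_mul, sub_zero] at hy'
        rw [show -y - x = -(y + x) by ring, Valuation.map_neg] at hy'
        have hEq := (Affine.equation_iff ..).1 h.1
        simp only [tateNF, map_a₁, map_a₂, map_a₃, map_a₄, map_a₆, map_one, map_zero, one_mul,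
          zero_mul, add_zero] at hEq
        have hx0 : 0 < v x ^ 2 := lt_of_le_of_lt zero_le hC
        have hlt2 : v y ^ 2 < v x ^ 2 := by
          have : v y ^ 2 = v (x ^ 3 + algebraMap A L c) := by
            rw [← show y * (y + x) = x ^ 3 + algebraMap A L c by linear_combination hEq, map_mul,
              hy', pow_two]
          rw [this]
          refine val_add_lt _ ?_ hC
          rw [map_pow, pow_succ]
          exact mul_lt_of_lt_one_right hx0 hlt
        have hyx : v y < v x := lt_of_pow_lt_pow_left₀ 2 zero_le hlt2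
        rw [Valuation.map_add_eq_of_lt_right _ hyx] at hy'
        exact hyx.ne hy'.symm
    · exfalso
      obtain ⟨xa, ya, xs, ys, hha, hhs, ea, es, hsum, -⟩ := addSub_of_ne h' h hxx
      have ka : v xa < 1 := by
        rcases hsing (b + 1) with e | ⟨xk, yk, hk, e, hlt'⟩
        · rw [succ_nsmul, ← hb, ea] at e
          exact absurd e (Affine.Point.some_ne_zero hha)
        · rw [succ_nsmul, ← hb, ea, Affine.Point.some.injEq] at e
          rwa [e.1]
      have ks : v xs < 1 := by
        have e' : (b + (p - 1)) • Affine.Point.some x y h = Affine.Point.some xs ys hhs := by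
          rw [add_nsmul, ← hb, ← es, sub_eq_add_neg]
          congr 1
          rw [eq_neg_iff_add_eq_zero, ← succ_nsmul, Nat.sub_add_cancel hp.out.one_le, t]
        rcases hsing (b + (p - 1)) with e | ⟨xk, yk, hk, e, hlt'⟩
        · rw [e'] at e
          exact absurd e (Affine.Point.some_ne_zero hhs)
        · rw [e', Affine.Point.some.injEq] at e
          rwa [e.1]
      have hb2 : v (σ x * x) = v x ^ 2 := by rw [map_mul, hx', pow_two]
      have hx0 : 0 < v x ^ 2 := lt_of_le_of_lt zero_le hC
      have h2' : v (2 : L) ≤ 1 := by exact_mod_cast val_natCast_le_one (A := A) 2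
      have h4' : v (4 : L) ≤ 1 := by exact_mod_cast val_natCast_le_one (A := A) 4
      have hT : v (tP ((tateNF c).map (algebraMap A L)) (σ x * x) (σ x + x) 1) = v x ^ 2 := by
        rw [tateNF_tP, Valuation.map_add_eq_of_lt_left, hb2]
        rw [hb2]
        refine val_add_lt _ ?_ (lt_of_le_of_lt ?_ hC)
        · rw [map_mul, hb2]
          exact mul_lt_of_lt_one_left hx0
            (val_mul_lt_one' _ h2' (val_add_lt _ (hx'.symm ▸ hlt) hlt))
        · rw [map_mul]
          exact (mul_le_mul' h4' le_rfl).trans (one_mul _).le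
      have := congrArg v hsum
      rw [map_mul, hT, show uP (σ x * x) (σ x + x) 1 = (σ x - x) ^ 2 by simp only [uP]; ring,
        map_pow] at this
      refine (lt_irrefl (v x ^ 2)) ?_
      calc v x ^ 2 = v (xa + xs) * v (σ x - x) ^ 2 := this.symm
        _ ≤ v (xa + xs) * v x ^ 2 := by
            gcongr
            exact (A.valuation.map_sub _ _).trans (max_le hx'.le le_rfl)
        _ < v x ^ 2 := mul_lt_of_lt_one_left hx0 (val_add_lt _ ka ks)
  · have hy := val_torsion_y A (tateNF c) hpu h t
    have e := eq_of_congr hpu hodd h h' t t' (by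
      rintro ⟨hs, -⟩
      have h4 : v (4 : L) ≤ 1 := by exact_mod_cast val_natCast_le_one (A := A) 4
      have hxx : v (x + x) ≤ 1 := (A.valuation.map_add _ _).trans (max_le heq.le heq.le)
      rw [tateNF_sP, Valuation.map_sub_eq_of_lt_left] at hs
      · simp [heq] at hs
      · simp only [map_pow, map_mul, heq, mul_one, one_pow]
        exact val_add_lt _ (val_mul_lt_one _ (val_mul_lt_one' _ h4 hc) hxx) hc)
      (by rw [← Valuation.map_neg, neg_sub]; exact hσ.sub_lt x hx)
      (by rw [← Valuation.map_neg, neg_sub]; exact hσ.sub_lt y hy)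
    rw [Affine.Point.some.injEq] at e
    exact ⟨e.1.symm, e.2.symm⟩

section Branch

variable (W : WeierstrassCurve A) [(W.map (algebraMap A L)).IsElliptic]

/-- If a torsion point with integral abscissa exists, the normal form has `r` integral and
`u² ≡ b₂ (mod 4)`. -/
lemma toTateNF_branch {u : Lˣ} {c : A} (hu : v (u : L) = 1)
    (hC : toTateNF (W.map (algebraMap A L)) u • W.map (algebraMap A L) =
      (tateNF c).map (algebraMap A L))
    (hpu : IsUnit (p : A)) {x y : L} (h : (W.map (algebraMap A L)).toAffine.Nonsingular x y)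
    (t : p • Affine.Point.some x y h = 0) :
    v (toTateNF (W.map (algebraMap A L)) u).r ≤ 1 ∧
      (u : L) ^ 2 =
        algebraMap A L W.b₂ + 12 * (toTateNF (W.map (algebraMap A L)) u).r := by
  set C := toTateNF (W.map (algebraMap A L)) u with hCdef
  constructor
  · have hx := val_torsion_x A W hpu h t
    haveI hell : ((tateNF c).map (algebraMap A L)).IsElliptic := by rw [← hC]; infer_instance
    have m : ((tateNF c).map (algebraMap A L)).toAffine.Nonsingular (vcX C x) (vcY C x y) :=
      hC ▸ vc_nonsingular C h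
    have tm : p • Affine.Point.some (vcX C x) (vcY C x y) m = 0 := by
      have h0 : p • Affine.Point.some (vcX C x) (vcY C x y) (vc_nonsingular C h) = 0 := by
        rw [← vcHom_some C h, ← map_nsmul, t, map_zero]
      have := congrArg (sigmaPoint (RingHom.id L)
        (show (C • W.map (algebraMap A L)).map (RingHom.id L) = (tateNF c).map (algebraMap A L) by
          rw [← hC]; exact map_id _)) h0
      rwa [map_nsmul, map_zero, sigmaPoint_some] at this
    have hX := val_torsion_x A (tateNF c) hpu m tm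
    rw [show C.r = x - (u : L) ^ 2 * vcX C x by
      rw [vcX, show C.u = u from rfl]; field_simp; ring]
    refine (A.valuation.map_sub _ _).trans (max_le hx (val_mul_le_one _ ?_ hX))
    rw [map_pow, hu, one_pow]
  · have e := congrArg WeierstrassCurve.b₂ hC
    rw [variableChange_b₂, show C.u = u from rfl, map_b₂, map_b₂,
      show (tateNF c).b₂ = 1 by simp [tateNF, WeierstrassCurve.b₂], map_one,
      Units.val_inv_eq_inv_val, inv_pow, inv_mul_eq_one₀ (pow_ne_zero 2 u.ne_zero)] at e
    exact e

omit [IsAlgClosed L] [CharZero L] [DecidableEq L] [(W.map (algebraMap A L)).IsElliptic] in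
lemma val_b₂_eq_one (h2 : v (2 : L) < 1) (ha₁ : W.a₁ = 1) :
    v (algebraMap A L W.b₂ - 1) ≤ v (2 : L) ^ 2 ∧ v (algebraMap A L W.b₂) = 1 := by
  have e : algebraMap A L W.b₂ - 1 = 2 * 2 * algebraMap A L W.a₂ := by
    rw [WeierstrassCurve.b₂, ha₁, map_add, map_mul, map_pow, map_one, map_ofNat]
    ring
  have hle : v (algebraMap A L W.b₂ - 1) ≤ v (2 : L) ^ 2 := by
    rw [e, map_mul, map_mul, ← pow_two]
    exact mul_le_of_le_one_right zero_le (A.valuation_le_one W.a₂)
  refine ⟨hle, ?_⟩
  rw [show algebraMap A L W.b₂ = 1 + (algebraMap A L W.b₂ - 1) by ring,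
    Valuation.map_add_eq_of_lt_left, map_one]
  rw [map_one]
  exact lt_of_le_of_lt hle (pow_lt_one₀ zero_le h2 two_ne_zero)

omit [Fact p.Prime] in
lemma val_twelve (h2 : v (2 : L) < 1) : v (3 : L) = 1 ∧ v (12 : L) = v (2 : L) ^ 2 := by
  have h3 : v (3 : L) = 1 := by
    rw [show (3 : L) = 1 + 2 by norm_num, Valuation.map_add_eq_of_lt_left, map_one]
    rw [map_one]; exact h2
  refine ⟨h3, ?_⟩
  rw [show (12 : L) = 2 * 2 * 3 by norm_num, map_mul, map_mul, h3, mul_one, pow_two]

/-- Inertia fixes eigenvectors at a multiplicative place above `2`. -/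
theorem two_eigen_fix (h2 : v (2 : L) < 1) (ha₁ : W.a₁ = 1)
    (hΔ : v (algebraMap A L W.Δ) < 1) (hΔ0 : W.Δ ≠ 0)
    (hc₄ : v (algebraMap A L W.c₄) = 1)
    {V : WeierstrassCurve L} [hVe : V.IsElliptic] (hV : W.map (algebraMap A L) = V)
    (hfix₁ : σ V.a₁ = V.a₁) (hfix₂ : σ V.a₂ = V.a₂) (hfix₃ : σ V.a₃ = V.a₃)
    (hfix₄ : σ V.c₄ = V.c₄)
    (hσ : ActsInertially A σ) (hpu : IsUnit (p : A)) (hodd : Odd p)
    {x y : L} (h : V.toAffine.Nonsingular x y)
    (h' : V.toAffine.Nonsingular (σ x) (σ y)) (t : p • Affine.Point.some x y h = 0) (b : ℕ)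
    (hb : Affine.Point.some (σ x) (σ y) h' = b • Affine.Point.some x y h) :
    σ x = x ∧ σ y = y := by
  subst hV
  obtain ⟨u, c, hu, hc0, hc, -, hC⟩ := exists_tateNF W hΔ hΔ0 hc₄
  set C := toTateNF (W.map (algebraMap A L)) u with hCdef
  have hvu : v (u : L) = 1 := by
    have := congrArg v hu
    rw [map_pow, hc₄] at this
    exact (pow_eq_one_iff_of_nonneg zero_le (by norm_num)).1 this
  obtain ⟨hr, hu2⟩ := toTateNF_branch W hvu hC hpu h t
  obtain ⟨hb2, -⟩ := val_b₂_eq_one W h2 ha₁
  have h20 : v (2 : L) ≠ 0 := (_root_.map_ne_zero _).2 two_ne_zero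
  obtain ⟨-, h12⟩ := val_twelve (A := A) h2
  have hu1 : v ((u : L) ^ 2 - 1) ≤ v (2 : L) ^ 2 := by
    rw [hu2, show algebraMap A L W.b₂ + 12 * C.r - 1 = (algebraMap A L W.b₂ - 1) + 12 * C.r by ring]
    refine (A.valuation.map_add _ _).trans (max_le hb2 ?_)
    rw [map_mul, h12]
    exact mul_le_of_le_one_right zero_le hr
  have hσu2 : σ ((u : L) ^ 2) = (u : L) ^ 2 := by
    have h4 : σ ((u : L) ^ 4) = (u : L) ^ 4 := by rwa [hu, ← map_c₄]
    have hf : (σ ((u : L) ^ 2) - (u : L) ^ 2) * (σ ((u : L) ^ 2) + (u : L) ^ 2) = 0 := by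
      rw [map_pow] at h4 ⊢; linear_combination h4
    refine sub_eq_zero.1 ((mul_eq_zero.1 hf).resolve_right fun hs => ?_)
    have e : (2 : L) = -(σ ((u : L) ^ 2 - 1) + ((u : L) ^ 2 - 1)) := by
      rw [map_sub, map_one]; linear_combination hs
    have hle : v (2 : L) ≤ v (2 : L) ^ 2 := by
      conv_lhs => rw [e, Valuation.map_neg]
      exact (A.valuation.map_add _ _).trans (max_le (by rw [hσ.valuation_eq]; exact hu1) hu1)
    rw [pow_two] at hle
    exact absurd hle (not_le.2 (mul_lt_of_lt_one_right (zero_lt_iff.2 h20) h2))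
  have hσu : σ (u : L) = u := by
    have hf : (σ (u : L) - u) * (σ (u : L) + u) = 0 := by
      rw [map_pow] at hσu2; linear_combination hσu2
    refine sub_eq_zero.1 ((mul_eq_zero.1 hf).resolve_right fun hs => ?_)
    set z := ((u : L) - 1) / 2 with hz
    have hz2 : v (z * (z + 1)) ≤ 1 := by
      rw [show z * (z + 1) = ((u : L) ^ 2 - 1) / (2 * 2) by rw [hz]; ring, map_div₀, map_mul,
        ← pow_two, div_le_one₀ (pow_pos (zero_lt_iff.2 h20) 2)]
      exact hu1
    have hz1 : v z ≤ 1 := by
      by_contra hgt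
      push Not at hgt
      rw [map_mul, Valuation.map_add_eq_of_lt_left _ (by rwa [map_one])] at hz2
      exact not_lt.2 hz2 (one_lt_mul_of_lt_of_le hgt hgt.le)
    have e : σ z - z = -(1 + 2 * z) := by
      rw [hz, map_div₀ σ, map_sub, map_one, map_ofNat,
        show σ (u : L) = -(u : L) by linear_combination hs]
      field_simp
      ring
    have := hσ.sub_lt z hz1
    rw [e, Valuation.map_neg, Valuation.map_add_eq_of_lt_left, map_one] at this
    · exact lt_irrefl _ this
    · rw [map_one]; exact val_mul_lt_one _ h2 hz1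
  have hσs : σ C.s = C.s := by
    rw [show C.s = ((u : L) - (W.map (algebraMap A L)).a₁) / 2 from rfl, map_div₀ σ, map_sub,
      hσu, hfix₁, map_ofNat]
  have hσr : σ C.r = C.r := by
    rw [show C.r = (C.s * (W.map (algebraMap A L)).a₁ + C.s ^ 2
        - (W.map (algebraMap A L)).a₂) / 3 from rfl]
    simp only [map_div₀ σ, map_sub, map_add, map_mul, map_pow, hσs, hfix₁, hfix₂, map_ofNat]
  have hσt : σ C.t = C.t := by
    rw [show C.t = -((W.map (algebraMap A L)).a₃ + C.r * (W.map (algebraMap A L)).a₁) / 2 from rfl]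
    simp only [map_div₀ σ, map_neg, map_add, map_mul, hσr, hfix₁, hfix₃, map_ofNat]
  have hX : σ (vcX C x) = vcX C (σ x) := by
    rw [vcX, vcX, map_div₀ σ, map_sub, hσr, map_pow, show C.u = u from rfl, hσu]
  have hY : σ (vcY C x y) = vcY C (σ x) (σ y) := by
    rw [vcY, vcY, map_div₀ σ, map_sub, map_sub, map_mul, map_sub, hσs, hσr, hσt, map_pow,
      show C.u = u from rfl, hσu]
  have m : (C • W.map (algebraMap A L)).toAffine.Nonsingular (σ (vcX C x)) (σ (vcY C x y)) := by
    rw [hX, hY]; exact vc_nonsingular C h'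
  have key := tate_eigen_fix hc0 hc hC hpu hodd hσ (vc_nonsingular C h) m
    (by rw [← vcHom_some C h, ← map_nsmul, t, map_zero]) b
    (by
      have e : Affine.Point.some _ _ m = vcHom C (Affine.Point.some _ _ h') := by
        rw [vcHom_some, Affine.Point.some.injEq]; exact ⟨hX, hY⟩
      rw [e, hb, map_nsmul, vcHom_some])
  rw [hX, hY, vcX_inj] at key
  obtain ⟨hxx, hyy⟩ := key
  rw [hxx, vcY_inj] at hyy
  exact ⟨hxx, hyy⟩

/-- No torsion point of order `p ≥ 5` with abscissa behaving like a rational number, when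
`p ∤ v(Δ) = 2m`. -/
theorem two_no_rational (h2 : v (2 : L) < 1) (ha₁ : W.a₁ = 1) (ha₃ : W.a₃ = 0) (ha₆ : W.a₆ = 0)
    {m : ℕ} (hm : 1 ≤ m) (ha₄ : v (algebraMap A L W.a₄) = v (2 : L) ^ m)
    (hΔeq : v (algebraMap A L W.Δ) = v (algebraMap A L W.a₄) ^ 2)
    (hpm : ¬ p ∣ 2 * m) (hp5 : 5 ≤ p) (hpu : IsUnit (p : A))
    {x y : L} (h : (W.map (algebraMap A L)).toAffine.Nonsingular x y)
    (t : p • Affine.Point.some x y h = 0)
    (hx : (v x = 1 ∧ v (x - 1) < 1) ∨ x = 0 ∨ ∃ i : ℕ, 1 ≤ i ∧ v x = v (2 : L) ^ i) : False := by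
  have hodd : Odd p := hp.out.odd_of_ne_two (by omega)
  have h20 : v (2 : L) ≠ 0 := (_root_.map_ne_zero _).2 two_ne_zero
  have h2p : 0 < v (2 : L) := zero_lt_iff.2 h20
  have hm1 : v (algebraMap A L W.a₄) < 1 := by
    rw [ha₄]; exact pow_lt_one₀ zero_le h2 (by omega)
  have hΔ : v (algebraMap A L W.Δ) < 1 := by
    rw [hΔeq]; exact pow_lt_one₀ zero_le hm1 two_ne_zero
  have hΔ0 : W.Δ ≠ 0 := by
    intro e
    have := (W.map (algebraMap A L)).isUnit_Δ
    rw [map_Δ, e, map_zero] at this
    exact not_isUnit_zero this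
  obtain ⟨hb2', hb2⟩ := val_b₂_eq_one W h2 ha₁
  have hb4 : algebraMap A L W.b₄ = 2 * algebraMap A L W.a₄ := by
    rw [WeierstrassCurve.b₄, ha₁, ha₃, mul_zero, add_zero, map_mul, map_ofNat]
  have hb6 : algebraMap A L W.b₆ = 0 := by simp [WeierstrassCurve.b₆, ha₃, ha₆]
  have hb8 : algebraMap A L W.b₈ = -(algebraMap A L W.a₄) ^ 2 := by
    simp [WeierstrassCurve.b₈, ha₃, ha₆]
  have hvb4 : v (algebraMap A L W.b₄) < 1 := by rw [hb4]; exact val_mul_lt_one _ h2 hm1.le
  have hvb8 : v (algebraMap A L W.b₈) < 1 := by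
    rw [hb8, Valuation.map_neg, map_pow]; exact pow_lt_one₀ zero_le hm1 two_ne_zero
  have h24 : v (24 : L) ≤ 1 := by exact_mod_cast val_natCast_le_one (A := A) 24
  have hc₄ : v (algebraMap A L W.c₄) = 1 := by
    rw [WeierstrassCurve.c₄, map_sub, map_mul, map_pow, map_ofNat,
      Valuation.map_sub_eq_of_lt_left, map_pow, hb2, one_pow]
    rw [map_pow, hb2, one_pow]
    exact val_mul_lt_one' _ h24 hvb4
  rcases hx with ⟨hx1, hx1'⟩ | hx
  · -- odd abscissa
    have hb2lt : v (algebraMap A L W.b₂ - 1) < 1 :=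
      lt_of_le_of_lt hb2' (pow_lt_one₀ zero_le h2 two_ne_zero)
    have sq1 : ∀ z : L, v z ≤ 1 → v (z - 1) < 1 → v (z * z - 1) < 1 := fun z hz hz1 => by
      rw [show z * z - 1 = (z - 1) * (z + 1) by ring]
      exact val_mul_lt_one _ hz1 ((A.valuation.map_add _ _).trans (max_le hz (by rw [map_one])))
    have hS : ∀ x' : L, v x' ≤ 1 → v (x' - 1) < 1 →
        v (sP (W.map (algebraMap A L)) (x * x') (x + x') 1 - 1) < 1 := by
      intro x' hx' hx1''
      have hs : v (x * x' - 1) < 1 := by
        rw [show x * x' - 1 = (x - 1) * x' + (x' - 1) by ring]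
        exact val_add_lt _ (val_mul_lt_one _ hx1' hx') hx1''
      rw [show sP (W.map (algebraMap A L)) (x * x') (x + x') 1 - 1 = ((x * x') * (x * x') - 1) -
        algebraMap A L W.b₄ * (x * x') - algebraMap A L W.b₈ by
          simp only [sP, map_b₄, map_b₆, map_b₈, hb6]; ring]
      exact val_sub_lt _ (val_sub_lt _ (sq1 _ (val_mul_le_one _ hx1.le hx') hs)
        (val_mul_lt_one _ hvb4 (val_mul_le_one _ hx1.le hx'))) hvb8
    have hT : v (tP (W.map (algebraMap A L)) (x * x) (x + x) 1 - 1) < 1 := by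
      rw [show tP (W.map (algebraMap A L)) (x * x) (x + x) 1 - 1 = 2 * (2 * x * (x * x)) +
        (algebraMap A L W.b₂ - 1) * (x * x) + (x * x - 1) + algebraMap A L W.b₄ * (x + x) by
          simp only [tP, map_b₂, map_b₄, map_b₆, hb6]; ring]
      have hxx : v (x * x) ≤ 1 := val_mul_le_one _ hx1.le hx1.le
      exact val_add_lt _ (val_add_lt _ (val_add_lt _
        (val_mul_lt_one _ h2 (val_mul_le_one _ (val_mul_le_one _ h2.le hx1.le) hxx))
        (val_mul_lt_one _ hb2lt hxx)) (sq1 _ hx1.le hx1'))
        (val_mul_lt_one _ hvb4 ((A.valuation.map_add _ _).trans (max_le hx1.le hx1.le)))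
    have hT1 : v (tP (W.map (algebraMap A L)) (x * x) (x + x) 1) = 1 := by
      have := Valuation.map_add_eq_of_lt_right A.valuation (y := (1 : L)) (by rwa [map_one])
        (x := tP (W.map (algebraMap A L)) (x * x) (x + x) 1 - 1)
      rwa [sub_add_cancel, map_one] at this
    have hy0 : 2 * y + (W.map (algebraMap A L)).a₁ * x + (W.map (algebraMap A L)).a₃ ≠ 0 := by
      intro h0
      rw [← psi2_sq h.1, h0, zero_pow two_ne_zero, map_zero] at hT1
      exact zero_ne_one hT1
    obtain ⟨xa, ya, hha, e2, hxa⟩ := double_of_ne h hy0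
    have ta : p • Affine.Point.some xa ya hha = 0 := by rw [← e2, nsmul_add, t, add_zero]
    have ia := val_torsion_x A W hpu hha ta
    have hxa1 : v (xa - 1) < 1 := by
      have e : v ((xa - 1) * tP (W.map (algebraMap A L)) (x * x) (x + x) 1) < 1 := by
        rw [sub_mul, one_mul, hxa, show sP (W.map (algebraMap A L)) (x * x) (x + x) 1 -
          tP (W.map (algebraMap A L)) (x * x) (x + x) 1 =
          (sP (W.map (algebraMap A L)) (x * x) (x + x) 1 - 1) -
          (tP (W.map (algebraMap A L)) (x * x) (x + x) 1 - 1) by ring]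
        exact val_sub_lt _ (hS x hx1.le hx1') hT
      rwa [map_mul, hT1, mul_one] at e
    have hne : x ≠ xa := by
      intro e
      rcases (Affine.Point.X_eq_iff (h₁ := h) (h₂ := hha)).1 e with e' | e'
      · rw [← e2, left_eq_add] at e'
        exact Affine.Point.some_ne_zero h e'
      · rw [← e2, eq_neg_iff_add_eq_zero] at e'
        have h3 : 3 • Affine.Point.some x y h = 0 := by
          rw [succ_nsmul, two_nsmul, add_assoc]; exact e'
        have hcop : Nat.Coprime 3 p := (hp.out.coprime_iff_not_dvd.2 (fun hd => by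
            have := Nat.le_of_dvd (by norm_num) hd; omega)).symm
        obtain ⟨i, hi⟩ := Nat.exists_mul_mod_eq_one_of_coprime hcop hp.out.one_lt
        have : (3 * i) • Affine.Point.some x y h = 0 := by rw [mul_nsmul, h3, nsmul_zero]
        rw [← Nat.mod_add_div (3 * i) p, add_nsmul, hi.2, one_nsmul, mul_nsmul, t, nsmul_zero,
          add_zero] at this
        exact Affine.Point.some_ne_zero h this
    obtain ⟨x3, y3, xs, ys, hh3, hhs, e3, es, -, hprod⟩ := addSub_of_ne h hha hne
    have i3 := val_torsion_x A W hpu hh3 (by rw [← e3, nsmul_add, t, ta, add_zero])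
    have is := val_torsion_x A W hpu hhs (by rw [← es, nsmul_sub, t, ta, sub_zero])
    have hU : v (uP (x * xa) (x + xa) 1) < 1 := by
      rw [show uP (x * xa) (x + xa) 1 = ((x - 1) - (xa - 1)) ^ 2 by simp only [uP]; ring, map_pow]
      exact pow_lt_one₀ zero_le (val_sub_lt _ hx1' hxa1) two_ne_zero
    have hS1 : v (sP (W.map (algebraMap A L)) (x * xa) (x + xa) 1) = 1 := by
      have := Valuation.map_add_eq_of_lt_right A.valuation (y := (1 : L))
        (by rw [map_one]; exact hS xa ia hxa1)
        (x := sP (W.map (algebraMap A L)) (x * xa) (x + xa) 1 - 1)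
      rwa [sub_add_cancel, map_one] at this
    rw [← hprod] at hS1
    exact absurd hS1 (val_mul_lt_one' _ (val_mul_le_one _ i3 is) hU).ne
  · -- even abscissa
    obtain ⟨u, c, hu, hc0, hc, hcΔ, hC⟩ := exists_tateNF W hΔ hΔ0 hc₄
    set C := toTateNF (W.map (algebraMap A L)) u with hCdef
    have hvu : v (u : L) = 1 := by
      have := congrArg v hu
      rw [map_pow, hc₄] at this
      exact (pow_eq_one_iff_of_nonneg zero_le (by norm_num)).1 this
    obtain ⟨hr, hu2⟩ := toTateNF_branch W hvu hC hpu h t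
    obtain ⟨h3, h12⟩ := val_twelve (A := A) h2
    -- bound on `r`
    have hd : v ((u : L) ^ 2 - algebraMap A L W.b₂) ≤ v (2 : L) ^ 2 := by
      rw [hu2, add_sub_cancel_left, map_mul, h12]
      exact mul_le_of_le_one_right zero_le hr
    have hsum : v ((u : L) ^ 2 + algebraMap A L W.b₂) = v (2 : L) := by
      rw [show (u : L) ^ 2 + algebraMap A L W.b₂ =
        ((u : L) ^ 2 - algebraMap A L W.b₂) + 2 * algebraMap A L W.b₂ by ring,
        Valuation.map_add_eq_of_lt_right, map_mul, hb2, mul_one]
      rw [map_mul, hb2, mul_one]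
      exact lt_of_le_of_lt hd (by rw [pow_two]; exact mul_lt_of_lt_one_right h2p h2)
    have hrv : v C.r < v (algebraMap A L W.a₄) := by
      have e : (12 * C.r) * ((u : L) ^ 2 + algebraMap A L W.b₂) =
          -(2 * 2 * 2 * 2 * 3 * algebraMap A L W.a₄) := by
        have hu4 := hu
        rw [WeierstrassCurve.c₄, map_sub, map_mul, map_pow, map_ofNat, hb4] at hu4
        linear_combination hu4 - ((u : L) ^ 2 + algebraMap A L W.b₂) * hu2
      have := congrArg v e
      rw [map_mul, map_mul, hsum, h12, Valuation.map_neg] at this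
      simp only [map_mul, h3, mul_one] at this
      have hval : v C.r = v (2 : L) * v (algebraMap A L W.a₄) := by
        apply mul_left_cancel₀ (pow_ne_zero 3 h20)
        rw [pow_succ, pow_two]
        calc v (2 : L) * v (2 : L) * v (2 : L) * v C.r
            = v (2 : L) ^ 2 * v C.r * v (2 : L) := by rw [pow_two]; ac_rfl
          _ = _ := this
          _ = _ := by ac_rfl
      rw [hval]
      exact mul_lt_of_lt_one_left (by rw [ha₄]; exact pow_pos h2p m) h2
    haveI hell : ((tateNF c).map (algebraMap A L)).IsElliptic := by rw [← hC]; infer_instance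
    have mm : ((tateNF c).map (algebraMap A L)).toAffine.Nonsingular (vcX C x) (vcY C x y) :=
      hC ▸ vc_nonsingular C h
    have tm : p • Affine.Point.some (vcX C x) (vcY C x y) mm = 0 := by
      have h0 : p • Affine.Point.some (vcX C x) (vcY C x y) (vc_nonsingular C h) = 0 := by
        rw [← vcHom_some C h, ← map_nsmul, t, map_zero]
      have := congrArg (sigmaPoint (RingHom.id L)
        (show (C • W.map (algebraMap A L)).map (RingHom.id L) = (tateNF c).map (algebraMap A L) by
          rw [← hC]; exact map_id _)) h0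
      rwa [map_nsmul, map_zero, sigmaPoint_some] at this
    have hvX : v (vcX C x) = v (x - C.r) := by
      rw [vcX, map_div₀, map_pow, show C.u = u from rfl, hvu, one_pow, div_one]
    have hxle : v x ≤ v (algebraMap A L W.a₄) ∨
        ∃ i : ℕ, 1 ≤ i ∧ i < m ∧ v x = v (2 : L) ^ i := by
      rcases hx with rfl | ⟨i, hi, e⟩
      · exact Or.inl (by rw [map_zero]; exact zero_le)
      · rcases lt_or_ge i m with hlt | hge
        · exact Or.inr ⟨i, hi, hlt, e⟩
        · exact Or.inl (by rw [e, ha₄]; exact pow_le_pow_right_of_le_one' h2.le hge)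
    rcases hxle with hle | ⟨i, hi, him, e⟩
    · have hXle : v (vcX C x) ≤ v (algebraMap A L W.a₄) := by
        rw [hvX]; exact (A.valuation.map_sub _ _).trans (max_le hle hrv.le)
      have hC' := tate_c_lt_sq hc0 hc hpu hodd mm tm (lt_of_le_of_lt hXle hm1)
      rw [hcΔ, hΔeq] at hC'
      exact not_le.2 hC' (pow_le_pow_left₀ zero_le hXle 2)
    · have hXe : v (vcX C x) = v (2 : L) ^ i := by
        rw [hvX, Valuation.map_sub_eq_of_lt_left, e]
        rw [e]
        refine hrv.trans_le ?_
        rw [ha₄]; exact pow_le_pow_right_of_le_one' h2.le him.le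
      obtain ⟨k, hk⟩ := tate_position hc0 hc hpu hodd mm tm
        (by rw [hXe]; exact pow_lt_one₀ zero_le h2 (by omega))
      rw [hXe, hcΔ, hΔeq, ha₄, ← pow_mul, ← pow_mul, ← pow_mul] at hk
      have hke : i * p = m * (2 * k) := by
        have hk' := (pow_right_strictAnti₀ h2p h2).injective hk
        rw [hk']
      have hpk : p ∣ k := by
        have : p ∣ 2 * m * k := ⟨i, by rw [mul_comm p i, hke]; ring⟩
        exact (hp.out.dvd_mul.1 this).resolve_left hpm
      obtain ⟨k', rfl⟩ := hpk
      have : i = 2 * m * k' := by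
        apply Nat.eq_of_mul_eq_mul_right hp.out.pos
        rw [hke]; ring
      rcases Nat.eq_zero_or_pos k' with h0 | h0
      · rw [h0] at this; omega
      · have : m ≤ 2 * m * k' := by nlinarith
        omega

end Branch

end Fermat.Agent.EC
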