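import Fermat.Agent.EC.Local.Line
import Fermat.Agent.EC.DetCyclo

/-!
# Inertia at `p` on `E[p]` when `p` divides `abc`: diagonal characters `ω` and `1`
-/

set_option autoImplicit false

namespace Fermat.Agent.EC

open WeierstrassCurve WeierstrassCurve.Affine.Point
open scoped WeierstrassCurve.Affine

local notation "Qbar" => AlgebraicClosure ℚ

variable (P : FreyPackage) [Fact P.p.Prime] {A : ValuationSubring Qbar}

local notation "ρE" => galoisRepModuleEnd (K := Qbar) ℚ P.freyCurve.toAffine P.p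

/-- The mod `p` cyclotomic character. -/
noncomputable def freyOmega (σ : Qbar ≃ₐ[ℚ] Qbar) : ZMod P.p :=
  PadicInt.toZMod (GalRep.cyc P.p σ : ℤ_[P.p])

lemma det_eq_freyOmega (σ : Qbar ≃ₐ[ℚ] Qbar) : LinearMap.det (ρE σ) = freyOmega P σ :=
  det_freyTorsion P σ

/-- An inertia element moves every point by a big point. -/
theorem smul_sub_mem_big_all (hA : A.LiesOverPrime P.p) (hd : (P.p : ℤ) ∣ P.a * P.b * P.c)
    {σ : Qbar ≃ₐ[ℚ] Qbar} (hσ : σ ∈ A.inertiaSubgroupIn ℚ) (x : FreyTorsion P) :
    σ • x - x ∈ bigTorsion P A := by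
  have hout : ∀ z : FreyTorsion P, z ∉ bigTorsion P A → σ • z - z ∈ bigTorsion P A := by
    intro z hz
    refine smul_sub_mem_bigTorsion P hA hσ z fun j hj hjz => hz ?_
    have hj' : (j : ZMod P.p) ≠ 0 := fun e => hj ((ZMod.natCast_eq_zero_iff _ _).1 e)
    have h := (bigTorsion P A).nsmul_mem hjz ((j : ZMod P.p)⁻¹).val
    rwa [← Nat.cast_smul_eq_nsmul (ZMod P.p), ← Nat.cast_smul_eq_nsmul (ZMod P.p) j, smul_smul,
      ZMod.natCast_rightInverse, inv_mul_cancel₀ hj', one_smul] at h
  by_cases hx : x ∈ bigTorsion P A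
  · obtain ⟨z, hz⟩ : ∃ z, z ∉ bigTorsion P A := by
      by_contra h
      push Not at h
      exact bigTorsion_ne_top P hA hd (eq_top_iff.2 fun y _ => h y)
    have hzx : z + x ∉ bigTorsion P A := fun h => hz (by
      simpa using (bigTorsion P A).sub_mem h hx)
    have := (bigTorsion P A).sub_mem (hout _ hzx) (hout z hz)
    rw [smul_add] at this
    convert this using 1
    abel
  · exact hout x hx

/-- Inertia at `p` is killed by `(g - 1)(g - ω g)`. -/
theorem inertia_quadratic (hA : A.LiesOverPrime P.p) (hd : (P.p : ℤ) ∣ P.a * P.b * P.c)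
    {σ : Qbar ≃ₐ[ℚ] Qbar} (hσ : σ ∈ A.inertiaSubgroupIn ℚ) :
    (ρE σ - 1) * (ρE σ - freyOmega P σ • 1) = 0 := by
  classical
  have hrk := finrank_torsionBy (K := Qbar) P.freyCurve.toAffine P.p
  haveI : Module.Finite (ZMod P.p) (FreyTorsion P) := Module.finite_of_finrank_eq_succ hrk
  set bs := Module.finBasisOfFinrankEq (ZMod P.p) _ hrk with hbs
  have h1 : LinearMap.det (ρE σ - 1) = 0 := by
    by_contra h
    refine bigTorsion_ne_top P hA hd (eq_top_iff.2 fun y _ => ?_)
    obtain ⟨x, rfl⟩ : ∃ x, (ρE σ - 1) x = y :=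
      (Module.End.isUnit_iff _).1 ((LinearMap.isUnit_iff_isUnit_det _).2
        (isUnit_iff_ne_zero.2 h)) |>.surjective y
    exact smul_sub_mem_big_all P hA hd hσ x
  have h2 := det_eq_freyOmega P σ
  set e := LinearMap.toMatrixAlgEquiv bs
  set M := e (ρE σ) with hM
  have d1 : (M - 1).det = 0 := by
    rw [hM, ← map_one e, ← map_sub]
    exact (LinearMap.det_toMatrix bs _).trans h1
  have d2 : M.det = freyOmega P σ := (LinearMap.det_toMatrix bs _).trans h2
  apply e.injective
  rw [map_mul, map_sub, map_sub, map_one, map_smul, map_one, _root_.map_zero, ← hM]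
  simp only [Matrix.det_fin_two, Matrix.sub_apply, Matrix.one_apply, Fin.isValue] at d1 d2
  simp only [if_true, zero_ne_one, one_ne_zero, if_false, sub_zero] at d1
  ext i j
  simp only [Matrix.mul_apply, Fin.sum_univ_two, Matrix.sub_apply, Matrix.one_apply,
    Matrix.smul_apply, smul_eq_mul, Matrix.zero_apply]
  fin_cases i <;> fin_cases j <;>
    simp only [if_true, zero_ne_one, one_ne_zero, if_false, sub_zero, Fin.zero_eta, Fin.mk_one,
      Fin.isValue, mul_one, mul_zero]
  · linear_combination -(M 0 0) * d1 + (M 0 0) * d2 - d2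
  · linear_combination -(M 0 1) * d1 + (M 0 1) * d2
  · linear_combination -(M 1 0) * d1 + (M 1 0) * d2
  · linear_combination -(M 1 1) * d1 + (M 1 1) * d2 - d2

end Fermat.Agent.EC
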