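import Fermat.Agent.EC.Torsion

/-!
# Congruent torsion points are equal

Over a valuation ring in which the odd number `n` is invertible, two `n`-torsion points congruent
modulo the maximal ideal coincide, provided the doubling forms do not both vanish mod the maximal
ideal at their common abscissa (e.g. good reduction, or nonsingular reduction of the point).
-/

set_option autoImplicit false

namespace Fermat.Agent.EC

open WeierstrassCurve

section Val

variable {R : Type*} [CommRing R] {Γ : Type*} [LinearOrderedCommGroupWithZero Γ]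
  (v : Valuation R Γ)

lemma val_add_lt {a b : R} {g : Γ} (ha : v a < g) (hb : v b < g) : v (a + b) < g :=
  lt_of_le_of_lt (v.map_add a b) (max_lt ha hb)

lemma val_sub_lt {a b : R} {g : Γ} (ha : v a < g) (hb : v b < g) : v (a - b) < g :=
  lt_of_le_of_lt (v.map_sub a b) (max_lt ha hb)

lemma val_mul_le_one {a b : R} (ha : v a ≤ 1) (hb : v b ≤ 1) : v (a * b) ≤ 1 := by
  rw [map_mul]; exact mul_le_one' ha hb

lemma val_mul_lt_one {a b : R} (ha : v a < 1) (hb : v b ≤ 1) : v (a * b) < 1 := by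
  rw [map_mul]; exact mul_lt_one_of_lt_of_le ha hb

lemma val_mul_lt_one' {a b : R} (ha : v a ≤ 1) (hb : v b < 1) : v (a * b) < 1 := by
  rw [mul_comm]; exact val_mul_lt_one v hb ha

end Val

variable {L : Type*} [Field L] [IsAlgClosed L] [CharZero L] [DecidableEq L]
  (A : ValuationSubring L) (W : WeierstrassCurve A) [(W.map (algebraMap A L)).IsElliptic]

/-- A valuation on `L` written as `A.valuation`. -/
local notation "v" => A.valuation

lemma val_coe_le_one (a : A) : v (algebraMap A L a) ≤ 1 := A.valuation_le_one a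

lemma val_torsion_x {n : ℕ} (hn : IsUnit (n : A)) {x y : L}
    (h : (W.map (algebraMap A L)).toAffine.Nonsingular x y)
    (hP : n • Affine.Point.some x y h = 0) : v x ≤ 1 :=
  (A.valuation_le_one_iff x).2 (torsion_x_mem A W hn h hP)

lemma val_torsion_y {n : ℕ} (hn : IsUnit (n : A)) {x y : L}
    (h : (W.map (algebraMap A L)).toAffine.Nonsingular x y)
    (hP : n • Affine.Point.some x y h = 0) : v y ≤ 1 :=
  (A.valuation_le_one_iff y).2 (y_mem_of_x_mem A W (torsion_x_mem A W hn h hP) h.1)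

variable {A W}

lemma eq_of_congr {n : ℕ} (hn : IsUnit (n : A)) (hodd : Odd n) {x₁ y₁ x₂ y₂ : L}
    (h₁ : (W.map (algebraMap A L)).toAffine.Nonsingular x₁ y₁)
    (h₂ : (W.map (algebraMap A L)).toAffine.Nonsingular x₂ y₂)
    (t₁ : n • Affine.Point.some x₁ y₁ h₁ = 0) (t₂ : n • Affine.Point.some x₂ y₂ h₂ = 0)
    (hns : ¬(v (sP (W.map (algebraMap A L)) (x₁ * x₁) (x₁ + x₁) 1) < 1 ∧
      v (tP (W.map (algebraMap A L)) (x₁ * x₁) (x₁ + x₁) 1) < 1))
    (hx : v (x₁ - x₂) < 1) (hy : v (y₁ - y₂) < 1) :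
    Affine.Point.some x₁ y₁ h₁ = Affine.Point.some x₂ y₂ h₂ := by
  have i₁ := val_torsion_x A W hn h₁ t₁
  have i₂ := val_torsion_x A W hn h₂ t₂
  have j₁ := val_torsion_y A W hn h₁ t₁
  have ha : ∀ a : A, v (algebraMap A L a) ≤ 1 := val_coe_le_one A
  have hb₁ : v (W.map (algebraMap A L)).a₁ ≤ 1 := ha _
  have hb₃ : v (W.map (algebraMap A L)).a₃ ≤ 1 := ha _
  have hb₂ : v (W.map (algebraMap A L)).b₂ ≤ 1 := by rw [map_b₂]; exact ha _
  have hb₄ : v (W.map (algebraMap A L)).b₄ ≤ 1 := by rw [map_b₄]; exact ha _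
  have hb₆ : v (W.map (algebraMap A L)).b₆ ≤ 1 := by rw [map_b₆]; exact ha _
  rcases eq_or_ne x₁ x₂ with hxx | hxx
  · subst hxx
    rcases (Affine.Point.X_eq_iff (h₁ := h₁) (h₂ := h₂)).1 rfl with e | e
    · exact e
    rw [Affine.Point.neg_some, Affine.Point.some.injEq] at e
    have hpsi : v (2 * y₁ + (W.map (algebraMap A L)).a₁ * x₁ + (W.map (algebraMap A L)).a₃) < 1 := by
      have : 2 * y₁ + (W.map (algebraMap A L)).a₁ * x₁ + (W.map (algebraMap A L)).a₃ = y₁ - y₂ := by
        rw [e.2, Affine.negY]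
        ring
      rwa [this]
    have ht : v (tP (W.map (algebraMap A L)) (x₁ * x₁) (x₁ + x₁) 1) < 1 := by
      rw [← psi2_sq h₁.1, map_pow]
      exact pow_lt_one₀ zero_le hpsi two_ne_zero
    by_contra
    have hy0 : 2 * y₁ + (W.map (algebraMap A L)).a₁ * x₁ + (W.map (algebraMap A L)).a₃ ≠ 0 := by
      intro h0
      obtain ⟨k, hk⟩ := hodd
      have h2 := (add_self_eq_zero_iff h₁).2 h0
      rw [hk, succ_nsmul, mul_comm, mul_nsmul', two_nsmul, h2, nsmul_zero, zero_add] at t₁
      exact Affine.Point.some_ne_zero h₁ t₁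
    obtain ⟨xa, ya, hha, e', hxa⟩ := double_of_ne h₁ hy0
    have ta : n • Affine.Point.some xa ya hha = 0 := by rw [← e', nsmul_add, t₁, add_zero]
    refine hns ⟨?_, ht⟩
    rw [← hxa]
    exact val_mul_lt_one' _ (val_torsion_x A W hn hha ta) ht
  · obtain ⟨xa, ya, xs, ys, hha, hhs, ea, es, hsum, hprod⟩ := addSub_of_ne h₁ h₂ hxx
    have ta : n • Affine.Point.some xa ya hha = 0 := by rw [← ea, nsmul_add, t₁, t₂, add_zero]
    have ts : n • Affine.Point.some xs ys hhs = 0 := by rw [← es, nsmul_sub, t₁, t₂, sub_zero]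
    have ia := val_torsion_x A W hn hha ta
    have is := val_torsion_x A W hn hhs ts
    exfalso
    have hu : v (uP (x₁ * x₂) (x₁ + x₂) 1) < 1 := by
      rw [show uP (x₁ * x₂) (x₁ + x₂) 1 = (x₁ - x₂) ^ 2 by simp only [uP]; ring, map_pow]
      exact pow_lt_one₀ zero_le hx two_ne_zero
    have hS : v (sP (W.map (algebraMap A L)) (x₁ * x₂) (x₁ + x₂) 1) < 1 := by
      rw [← hprod]
      exact val_mul_lt_one' _ (val_mul_le_one _ ia is) hu
    have hT : v (tP (W.map (algebraMap A L)) (x₁ * x₂) (x₁ + x₂) 1) < 1 := by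
      rw [← hsum]
      exact val_mul_lt_one' _ (le_trans (A.valuation.map_add _ _) (max_le ia is)) hu
    refine hns ⟨?_, ?_⟩
    · rw [show sP (W.map (algebraMap A L)) (x₁ * x₁) (x₁ + x₁) 1 = sP (W.map (algebraMap A L)) (x₁ * x₂) (x₁ + x₂) 1
        + (x₁ - x₂) * (x₁ * x₁ * x₁ + x₁ * x₁ * x₂ - (W.map (algebraMap A L)).b₄ * x₁ - (W.map (algebraMap A L)).b₆) by simp only [sP]; ring]
      refine val_add_lt _ hS (val_mul_lt_one _ hx ?_)
      refine le_trans (A.valuation.map_sub _ _) (max_le (le_trans (A.valuation.map_sub _ _) (max_le ?_ ?_)) hb₆)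
      · refine le_trans (A.valuation.map_add _ _) (max_le ?_ ?_) <;>
          exact val_mul_le_one _ (val_mul_le_one _ i₁ i₁) (by assumption)
      · exact val_mul_le_one _ hb₄ i₁
    · rw [show tP (W.map (algebraMap A L)) (x₁ * x₁) (x₁ + x₁) 1 = tP (W.map (algebraMap A L)) (x₁ * x₂) (x₁ + x₂) 1
        + (x₁ - x₂) * (2 * (x₁ * (2 * x₁ + x₂)) + (W.map (algebraMap A L)).b₂ * x₁ + (W.map (algebraMap A L)).b₄) by simp only [tP]; ring]
      refine val_add_lt _ hT (val_mul_lt_one _ hx ?_)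
      have h2 : v (2 : L) ≤ 1 := by simpa [map_ofNat] using ha 2
      refine le_trans (A.valuation.map_add _ _) (max_le (le_trans (A.valuation.map_add _ _) (max_le ?_ ?_)) hb₄)
      · exact val_mul_le_one _ h2 (val_mul_le_one _ i₁
          (le_trans (A.valuation.map_add _ _) (max_le (val_mul_le_one _ h2 i₁) i₂)))
      · exact val_mul_le_one _ hb₂ i₁

omit [IsAlgClosed L] [CharZero L] [DecidableEq L] [(W.map (algebraMap A L)).IsElliptic] in
/-- With unit discriminant the hypothesis of `eq_of_congr` always holds. -/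
lemma forms_not_both_small (hΔ : IsUnit W.Δ) {x : L} (hx : v x ≤ 1) :
    ¬(v (sP (W.map (algebraMap A L)) (x * x) (x + x) 1) < 1 ∧
      v (tP (W.map (algebraMap A L)) (x * x) (x + x) 1) < 1) := by
  rintro ⟨hs, ht⟩
  set z : A := ⟨x, A.mem_of_valuation_le_one x hx⟩ with hz
  let r := IsLocalRing.residue A
  have hr : ∀ a : A, A.valuation (algebraMap A L a) < 1 → r a = 0 := fun a ha => by
    rw [IsLocalRing.residue_eq_zero_iff]
    exact (A.valuation_lt_one_iff a).2 ha
  refine forms_ne_zero (W.map r) (by rw [map_Δ]; exact hΔ.map r)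
    (s := r (z * z)) (t := r (z + z)) (u := r 1) (by simp) ⟨?_, ?_, ?_⟩
  · rw [map_sP]
    refine hr _ ?_
    rwa [← map_sP, map_mul, map_add, map_one]
  · rw [map_tP]
    refine hr _ ?_
    rwa [← map_tP, map_mul, map_add, map_one]
  · rw [map_uP, show uP (z * z) (z + z) (1 : A) = 0 by simp only [uP]; ring, map_zero]

end Fermat.Agent.EC
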