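import Fermat.Agent.EC.Local.Peu
import Fermat.Agent.ConductorMatch.NodalMul

/-!
# With multiplicative reduction not every `p`-torsion point is big
-/

set_option autoImplicit false

namespace Fermat.Agent.EC

open WeierstrassCurve Polynomial

section General

variable {L : Type*} [Field L] {A : ValuationSubring L}

local notation "v" => A.valuation

/-- A product of monic linear factors with big roots is dominated by its constant term. -/
lemma val_coeff_prod_le (s : Multiset L) (hs : ∀ a ∈ s, 1 < v a) (k : ℕ) :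
    v (((s.map fun a => X - C a).prod).coeff k) ≤ v (((s.map fun a => X - C a).prod).coeff 0) := by
  induction s using Multiset.induction generalizing k with
  | empty =>
    rcases k with _ | k
    · exact le_rfl
    · simp [coeff_one]
  | cons a s ih =>
    have h := ih (fun b hb => hs b (Multiset.mem_cons_of_mem hb))
    have ha := (hs a (Multiset.mem_cons_self a s)).le
    rw [Multiset.map_cons, Multiset.prod_cons]
    set r := (s.map fun a => X - C a).prod
    have h0 : v (((X - C a) * r).coeff 0) = v a * v (r.coeff 0) := by simp [sub_mul]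
    rw [h0]
    rcases k with _ | k
    · exact h0.le
    rw [sub_mul, coeff_sub, coeff_X_mul, coeff_C_mul]
    refine (A.valuation.map_sub _ _).trans (max_le ((h k).trans ?_) ?_)
    · exact le_mul_of_one_le_left' ha
    · rw [map_mul]; exact mul_le_mul' le_rfl (h _)

/-- A split polynomial with big roots is dominated by its constant term. -/
lemma val_coeff_le_of_roots [IsAlgClosed L] (q : L[X]) (hq : ∀ a ∈ q.roots, 1 < v a) (k : ℕ) :
    v (q.coeff k) ≤ v (q.coeff 0) := by
  rw [(IsAlgClosed.splits q).eq_prod_roots, coeff_C_mul, coeff_C_mul, map_mul, map_mul]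
  exact mul_le_mul' le_rfl (val_coeff_prod_le _ hq k)

variable [IsAlgClosed L] [CharZero L] [DecidableEq L]

/-- A `p`-torsion point of the normal form with integral abscissa. -/
theorem exists_not_big_torsion (c : A) (hc : v (algebraMap A L c) < 1)
    [((tateNF c).map (algebraMap A L)).IsElliptic] {p : ℕ} (hp : 2 ≤ p) :
    ∃ (x y : L) (h : ((tateNF c).map (algebraMap A L)).toAffine.Nonsingular x y),
      p • Affine.Point.some x y h = 0 ∧ v x ≤ 1 := by
  by_contra hno
  push Not at hno
  have hφ : Function.Injective (algebraMap A L) := Subtype.val_injective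
  obtain ⟨a, b, hab⟩ := exists_mulPair (W := tateNF c) hφ p (by omega)
  set r := IsLocalRing.residue A with hr
  have hc' : r c = 0 := (IsLocalRing.residue_eq_zero_iff _).2
    ((A.valuation_lt_one_iff c).2 hc)
  have hW : (tateNF c).map r = ConductorMatch.nodalCubic _ := by
    ext <;> simp [tateNF, ConductorMatch.nodalCubic, WeierstrassCurve.map, hc']
  obtain ⟨-, hnod⟩ := ConductorMatch.mulPair_nodal r hφ hW p (by omega) hab
  have hroots : ∀ x ∈ (b.map (algebraMap A L)).roots, 1 < v x := by
    intro x hx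
    obtain ⟨hq0, hev⟩ := mem_roots'.1 hx
    obtain ⟨y, hy⟩ := exists_point (W := tateNF c) (φ := algebraMap A L) x
    refine hno x y hy ?_
    rcases he : p • Affine.Point.some x y hy with _ | ⟨x', y', h'⟩
    · rfl
    · exact absurd hev (hab.spec_some x y hy _ _ _ he).1
  have h0 : r (b.coeff 0) = 0 := by
    have e := congrArg (Polynomial.eval 0) hnod
    simp only [eval_comp, eval_mul, eval_pow, eval_add, eval_X] at e
    rw [zero_pow two_ne_zero, add_zero, zero_pow (Nat.mul_ne_zero (by omega) (by omega)),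
      zero_mul, ← coeff_zero_eq_eval_zero, coeff_map] at e
    exact e
  have hv0 : v (algebraMap A L (b.coeff 0)) < 1 :=
    (A.valuation_lt_one_iff _).1 ((IsLocalRing.residue_eq_zero_iff _).1 h0)
  have hbz : b.map r = 0 := by
    ext k
    rw [coeff_map, coeff_zero, IsLocalRing.residue_eq_zero_iff, A.valuation_lt_one_iff]
    have := val_coeff_le_of_roots (A := A) _ hroots k
    rw [coeff_map, coeff_map] at this
    exact lt_of_le_of_lt this hv0
  rw [hbz, zero_comp, eq_comm, mul_eq_zero] at hnod
  rcases hnod with e | e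
  · have := congrArg (fun q : (IsLocalRing.ResidueField A)[X] => q.coeff 1)
      (pow_eq_zero_iff'.1 e).1
    simp [coeff_X_pow] at this
  · exact ConductorMatch.nodalD_ne_zero (by omega) ((pow_eq_zero_iff two_ne_zero).1 e)

/-- Torsion points of a changed equation come from torsion points. -/
lemma exists_vc_preimage {K : Type*} [Field K] [IsAlgClosed K] [CharZero K] [DecidableEq K]
    {V T : WeierstrassCurve K} [V.IsElliptic] (C : VariableChange K) (hC : C • V = T) {x y : K}
    (h : T.toAffine.Nonsingular x y) {n : ℕ} (hn : n • Affine.Point.some x y h = 0) :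
    ∃ (x₀ y₀ : K) (h₀ : V.toAffine.Nonsingular x₀ y₀),
      n • Affine.Point.some x₀ y₀ h₀ = 0 ∧ vcX C x₀ = x := by
  subst hC
  obtain ⟨y₀, hy₀⟩ := exists_point (W := V) (φ := RingHom.id K) ((C.u : K) ^ 2 * x + C.r)
  rw [WeierstrassCurve.map_id] at hy₀
  have hvx : vcX C ((C.u : K) ^ 2 * x + C.r) = x := by
    rw [vcX, add_sub_cancel_right, mul_div_cancel_left₀ _ (pow_ne_zero 2 C.u.ne_zero)]
  refine ⟨_, y₀, hy₀, vcHom_injective C (W := V) ?_, hvx⟩
  rw [map_nsmul, map_zero, vcHom_some]
  rcases (Affine.Point.X_eq_iff (h₁ := vc_nonsingular C hy₀) (h₂ := h)).1 hvx with e | e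
  · rw [e, hn]
  · rw [e, neg_nsmul, hn, neg_zero]

end General

section Frey

variable (P : FreyPackage)

local notation "Qbar" => AlgebraicClosure ℚ

/-- Where `p` divides `abc` not all of `E[p]` reduces to the origin. -/
theorem bigTorsion_ne_top {A : ValuationSubring Qbar} (hA : A.LiesOverPrime P.p)
    (hd : (P.p : ℤ) ∣ P.a * P.b * P.c) : bigTorsion P A ≠ ⊤ := by
  classical
  haveI : Fact P.p.Prime := ⟨P.pp⟩
  have hp5 := P.hp5
  have hv : ∀ n : ℕ, 0 < n → n < P.p → A.valuation (n : Qbar) = 1 := fun n hn hnp => by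
    simpa using val_intCast_eq_one (A := A) P.pp hA (n := (n : ℤ)) (fun h => by
      have := Nat.le_of_dvd hn (Int.natCast_dvd_natCast.1 h)
      omega)
  have hv2 : A.valuation (2 : Qbar) = 1 := by simpa using hv 2 (by omega) (by omega)
  have hv3 : A.valuation (3 : Qbar) = 1 := by simpa using hv 3 (by omega) (by omega)
  have hlt : A.valuation (algebraMap A Qbar (freyModel P A).Δ) < 1 := by
    rw [freyModel_val_Δ, show (256 : Qbar) = 2 ^ 8 by norm_num, map_pow A.valuation (2 : Qbar), hv2,
      one_pow, div_one]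
    exact pow_lt_one₀ zero_le (pow_lt_one₀ zero_le (val_intCast_lt_one hA hd) P.hp0) two_ne_zero
  have hc₄ : A.valuation (algebraMap A Qbar (freyModel P A).c₄) = 1 := by
    rw [freyModel_c₄]
    exact val_intCast_eq_one P.pp hA (not_dvd_c₄_of_dvd P P.pp hd)
  obtain ⟨C, c, hc0, hc, -, hC, hu, hr, -⟩ :=
    exists_tate_coords (F := ℚ) (freyModel P A) hlt (freyModel_Δ_ne_zero P A) hc₄ hv2 hv3
      (freyModel_map P A)
  set V : WeierstrassCurve Qbar := P.freyCurve⁄Qbar with hVdef
  haveI : V.IsElliptic := inferInstanceAs (P.freyCurve⁄Qbar).IsElliptic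
  haveI : (C • V).IsElliptic := inferInstance
  set T := (tateNF c).map (algebraMap A Qbar) with hT
  haveI : T.IsElliptic := hC ▸ inferInstance
  obtain ⟨x, y, h, hpR, hx⟩ := exists_not_big_torsion c hc (p := P.p) (by omega)
  obtain ⟨x₀, y₀, h₀, hQT, hvx⟩ := exists_vc_preimage (V := V) C hC h hpR
  intro htop
  obtain ⟨Q, hQ⟩ : ∃ Q : FreyTorsion P, Q.1 = Affine.Point.some x₀ y₀ h₀ :=
    ⟨⟨_, by rw [Submodule.mem_torsionBy_iff, natCast_zsmul, hQT]⟩, rfl⟩
  have hmem : Q ∈ bigTorsion P A := by
    rw [htop]; exact AddSubgroup.mem_top _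
  rw [mem_bigTorsion_iff, hQ, isBigPoint_some, ← one_lt_val_vcX_iff C hu hr, hvx] at hmem
  exact not_lt.2 hx hmem

end Frey

end Fermat.Agent.EC
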