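import Fermat.Agent.EC.Reducible

/-!
# Wild inertia on `E[p]` with multiplicative reduction and `p ∣ v(Δ)`

If an element `σ` of inertia moves a point `P` with no big multiple by a big point `Q` that it fixes,
some normalised abscissa `φ` is moved by at least the value of `ζ_p - 1`:
`v p ≤ v (σ φ - φ) ^ (p - 1)`. This bounds the ramification break of the field of `E[p]`.
-/

set_option autoImplicit false

namespace Fermat.Agent.EC

open WeierstrassCurve

section General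

variable {L : Type*} [Field L] {F : Type*} [Field F] [Algebra F L]
variable {A : ValuationSubring L} {σ : L ≃ₐ[F] L}

local notation "v" => A.valuation

/-- An iterate moves an element no further than one step does. -/
lemma val_iterate_sub_le (hσ : ActsInertially A σ) (x : L) :
    ∀ n : ℕ, v ((σ : L → L)^[n] x - x) ≤ v (σ x - x)
  | 0 => by simp
  | n + 1 => by
    rw [Function.iterate_succ_apply', show σ ((σ : L → L)^[n] x) - x =
      σ ((σ : L → L)^[n] x - x) + (σ x - x) by rw [map_sub]; ring]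
    refine (A.valuation.map_add _ _).trans (max_le ?_ le_rfl)
    rw [hσ.valuation_eq]
    exact val_iterate_sub_le hσ x n

lemma val_iterate (hσ : ActsInertially A σ) (x : L) :
    ∀ n : ℕ, v ((σ : L → L)^[n] x) = v x
  | 0 => rfl
  | n + 1 => by rw [Function.iterate_succ_apply', hσ.valuation_eq, val_iterate hσ x n]

variable [DecidableEq L]

/-- The change to the normal form is fixed by inertia. -/
theorem exists_tate_coords [IsAlgClosed L] [CharZero L] (W : WeierstrassCurve A)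
    (hΔ : v (algebraMap A L W.Δ) < 1) (hΔ0 : W.Δ ≠ 0) (hc₄ : v (algebraMap A L W.c₄) = 1)
    (h2 : v (2 : L) = 1) (h3 : v (3 : L) = 1) {V : WeierstrassCurve L}
    (hV : W.map (algebraMap A L) = V) :
    ∃ (C : VariableChange L) (c : A), c ≠ 0 ∧ v (algebraMap A L c) < 1 ∧
      v (algebraMap A L c) = v (algebraMap A L W.Δ) ∧
      C • V = (tateNF c).map (algebraMap A L) ∧ v (C.u : L) = 1 ∧ v C.r ≤ 1 ∧
      ∀ g : L ≃ₐ[F] L, ActsInertially A g → g V.a₁ = V.a₁ → g V.a₂ = V.a₂ → g V.a₃ = V.a₃ →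
        g V.a₄ = V.a₄ → g V.a₆ = V.a₆ →
        g C.u = C.u ∧ g C.r = C.r ∧ g C.s = C.s ∧ g C.t = C.t ∧
          g (algebraMap A L c) = algebraMap A L c := by
  subst hV
  obtain ⟨u, c, hu, hc0, hc, hcΔ, hC⟩ := exists_tateNF W hΔ hΔ0 hc₄
  set V := W.map (algebraMap A L) with hVdef
  set C := toTateNF V u with hCdef
  have hvu : v (u : L) = 1 := by
    have := congrArg v hu
    rw [map_pow, hc₄] at this
    exact (pow_eq_one_iff_of_nonneg zero_le (by norm_num)).1 this
  have hs : v C.s ≤ 1 := by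
    rw [show C.s = ((u : L) - V.a₁) / 2 from rfl, map_div₀, h2, div_one]
    exact (A.valuation.map_sub _ _).trans (max_le hvu.le (A.valuation_le_one W.a₁))
  have hr : v C.r ≤ 1 := by
    rw [show C.r = (C.s * V.a₁ + C.s ^ 2 - V.a₂) / 3 from rfl, map_div₀, h3, div_one]
    refine (A.valuation.map_sub _ _).trans (max_le ((A.valuation.map_add _ _).trans (max_le
      (val_mul_le_one _ hs (A.valuation_le_one W.a₁)) ?_)) (A.valuation_le_one W.a₂))
    rw [map_pow]; exact pow_le_one₀ zero_le hs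
  refine ⟨C, c, hc0, hc, hcΔ, hC, hvu, hr, fun g hg f₁ f₂ f₃ f₄ f₆ => ?_⟩
  have hfc4 : g V.c₄ = V.c₄ := by
    simp only [WeierstrassCurve.c₄, WeierstrassCurve.b₂, WeierstrassCurve.b₄, map_sub, map_add,
      map_mul, map_pow, map_ofNat, f₁, f₂, f₃, f₄]
  have gu : g (u : L) = u := by
    refine hg.fix_fourth_root h2 hvu ?_
    rwa [hu, ← map_c₄]
  have gs : g C.s = C.s := by
    rw [show C.s = ((u : L) - V.a₁) / 2 from rfl, map_div₀ g, map_sub, gu, f₁, map_ofNat]
  have gr : g C.r = C.r := by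
    rw [show C.r = (C.s * V.a₁ + C.s ^ 2 - V.a₂) / 3 from rfl]
    simp only [map_div₀ g, map_sub, map_add, map_mul, map_pow, gs, f₁, f₂, map_ofNat]
  have gt : g C.t = C.t := by
    rw [show C.t = -(V.a₃ + C.r * V.a₁) / 2 from rfl]
    simp only [map_div₀ g, map_neg, map_add, map_mul, gr, f₁, f₃, map_ofNat]
  refine ⟨gu, gr, gs, gt, ?_⟩
  have e := congrArg WeierstrassCurve.a₆ hC
  rw [map_a₆, show (tateNF c).a₆ = c from rfl] at e
  rw [← e, variableChange_a₆]
  simp only [map_mul, map_pow, map_sub, map_add, Units.val_inv_eq_inv_val, map_inv₀,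
    show C.u = u from rfl, gu, gr, gt, f₁, f₂, f₃, f₄, f₆]

omit [DecidableEq L] in
lemma addX_sub_addX {V : WeierstrassCurve L} (ha₁ : V.a₁ = 1) (ha₂ : V.a₂ = 0) (ha₃ : V.a₃ = 0)
    {x₁ y₁ x₂ y₂ : L} (hd : x₁ - x₂ ≠ 0) :
    V.toAffine.addX x₁ x₂ ((y₁ - V.toAffine.negY x₂ y₂) / (x₁ - x₂)) -
        V.toAffine.addX x₁ x₂ ((y₁ - y₂) / (x₁ - x₂)) =
      (2 * y₂ + x₂) * (2 * y₁ + x₁) / (x₁ - x₂) ^ 2 := by
  simp only [Affine.addX, Affine.negY, ha₁, ha₂, ha₃]
  field_simp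
  ring

/-- `x(P - Q) - x(P + Q)` for `Q` in the kernel of reduction. -/
lemma tate_addSub_diff {c : A} (h2 : v (2 : L) = 1) {x₁ y₁ x₂ y₂ : L}
    (h₁ : ((tateNF c).map (algebraMap A L)).toAffine.Nonsingular x₁ y₁)
    (h₂ : ((tateNF c).map (algebraMap A L)).toAffine.Nonsingular x₂ y₂)
    (hx₁ : v x₁ ≤ 1) (hx₂ : 1 < v x₂) :
    ∃ (xa ya xs ys : L) (ha : ((tateNF c).map (algebraMap A L)).toAffine.Nonsingular xa ya)
      (hs : ((tateNF c).map (algebraMap A L)).toAffine.Nonsingular xs ys),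
      Affine.Point.some x₁ y₁ h₁ + Affine.Point.some x₂ y₂ h₂ = Affine.Point.some xa ya ha ∧
      Affine.Point.some x₁ y₁ h₁ - Affine.Point.some x₂ y₂ h₂ = Affine.Point.some xs ys hs ∧
      v (xs - xa) ^ 2 * v x₂ = v (2 * y₁ + x₁) ^ 2 := by
  have hne : x₁ ≠ x₂ := fun e => not_lt.2 hx₁ (e ▸ hx₂)
  have hd : x₁ - x₂ ≠ 0 := sub_ne_zero.2 hne
  have h₂' := (Affine.nonsingular_neg ..).2 h₂
  refine ⟨_, _, _, _, Affine.nonsingular_add h₁ h₂ fun hxy => hne hxy.1,
    Affine.nonsingular_add h₁ h₂' fun hxy => hne hxy.1, ?_, ?_, ?_⟩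
  · exact Affine.Point.add_of_X_ne hne
  · rw [sub_eq_add_neg, Affine.Point.neg_some]
    exact Affine.Point.add_of_X_ne hne
  rw [Affine.slope_of_X_ne hne, Affine.slope_of_X_ne hne,
    addX_sub_addX (V := (tateNF c).map (algebraMap A L)) (by simp [tateNF]) (by simp [tateNF])
      (by simp [tateNF]) hd]
  have he₂ := (Affine.equation_iff ..).1 h₂.1
  simp only [tateNF, WeierstrassCurve.map, map_one, map_zero, one_mul, zero_mul, add_zero] at he₂
  have hb : (2 * y₂ + x₂) ^ 2 = 4 * x₂ ^ 3 + (x₂ ^ 2 + 4 * algebraMap A L c) := by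
    linear_combination 4 * he₂
  have h4 : v (4 : L) = 1 := by rw [show (4 : L) = 2 * 2 by norm_num, map_mul, h2, one_mul]
  have hv2 : v (2 * y₂ + x₂) ^ 2 = v x₂ ^ 3 := by
    rw [← map_pow, hb, Valuation.map_add_eq_of_lt_left, map_mul, h4, one_mul, map_pow]
    rw [map_mul, h4, one_mul, map_pow]
    refine lt_of_le_of_lt (A.valuation.map_add _ _) (max_lt ?_ ?_)
    · rw [map_pow]; exact pow_lt_pow_right₀ hx₂ (by norm_num)
    · rw [map_mul, h4, one_mul]
      exact lt_of_le_of_lt (A.valuation_le_one c) (one_lt_pow₀ hx₂ (by norm_num))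
  have hdv : v (x₁ - x₂) = v x₂ := Valuation.map_sub_eq_of_lt_right _ (lt_of_le_of_lt hx₁ hx₂)
  have h0 : v x₂ ≠ 0 := (zero_lt_one.trans hx₂).ne'
  rw [map_div₀, map_mul, map_pow, hdv, div_pow, mul_pow, hv2]
  field_simp

end General

section Frey

variable (P : FreyPackage)

local notation "Qbar" => AlgebraicClosure ℚ
local notation "GQ" => (AlgebraicClosure ℚ) ≃ₐ[ℚ] (AlgebraicClosure ℚ)

set_option maxHeartbeats 2000000 in
/-- An abscissa moved at least as far as `ζ_p - 1`. -/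
theorem exists_moved_of_wild {A : ValuationSubring Qbar} (hA : A.LiesOverPrime P.p)
    (hd : (P.p : ℤ) ∣ P.a * P.b * P.c) {σ : GQ} (hσ : σ ∈ A.inertiaSubgroupIn ℚ)
    (x : FreyTorsion P) (hx : ∀ j : ℕ, ¬ P.p ∣ j → j • x ∉ bigTorsion P A)
    (hne : σ • x ≠ x) (hfix : σ • (σ • x - x) = σ • x - x) :
    ∃ φ : Qbar, A.valuation φ ≤ 1 ∧
      (∀ g ∈ A.inertiaSubgroupIn ℚ, (∀ y : FreyTorsion P, g • y = y) → g φ = φ) ∧
      A.valuation (P.p : Qbar) ≤ A.valuation (σ φ - φ) ^ (P.p - 1) := by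
  classical
  haveI : Fact P.p.Prime := ⟨P.pp⟩
  have hin := actsInertially_of_mem hσ
  have hp5 := P.hp5
  have hv : ∀ n : ℕ, 0 < n → n < P.p → A.valuation (n : Qbar) = 1 := fun n hn hnp => by
    simpa using val_intCast_eq_one (A := A) P.pp hA (n := (n : ℤ)) (fun h => by
      have := Nat.le_of_dvd hn (Int.natCast_dvd_natCast.1 h)
      omega)
  have hv2 : A.valuation (2 : Qbar) = 1 := by simpa using hv 2 (by omega) (by omega)
  have hv3 : A.valuation (3 : Qbar) = 1 := by simpa using hv 3 (by omega) (by omega)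
  have h256 : A.valuation (256 : Qbar) = 1 := by
    rw [show (256 : Qbar) = 2 ^ 8 by norm_num, map_pow, hv2, one_pow]
  have hlt : A.valuation (algebraMap A Qbar (freyModel P A).Δ) < 1 := by
    rw [freyModel_val_Δ, h256, div_one]
    exact pow_lt_one₀ zero_le (pow_lt_one₀ zero_le (val_intCast_lt_one hA hd) P.hp0) two_ne_zero
  have hc₄ : A.valuation (algebraMap A Qbar (freyModel P A).c₄) = 1 := by
    rw [freyModel_c₄]
    exact val_intCast_eq_one P.pp hA (not_dvd_c₄_of_dvd P P.pp hd)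
  obtain ⟨m', hm'⟩ := exists_val_intCast_eq_pow (A := A) P.pp hA P.habc0
  set w : Qbar := (P.p : Qbar) ^ (2 * m') with hw
  obtain ⟨C, c, hc0, hc, hcΔ, hC, hu, hr, hCfix⟩ :=
    exists_tate_coords (F := ℚ) (freyModel P A) hlt (freyModel_Δ_ne_zero P A) hc₄ hv2 hv3
      (freyModel_map P A)
  have hwc : A.valuation (algebraMap A Qbar c) = A.valuation w ^ P.p := by
    rw [hcΔ, freyModel_val_Δ, h256, div_one, hm', hw, map_pow, ← pow_mul, ← pow_mul, ← pow_mul]
    ring_nf
  set V : WeierstrassCurve Qbar := P.freyCurve⁄Qbar with hVdef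
  haveI : V.IsElliptic := inferInstanceAs (P.freyCurve⁄Qbar).IsElliptic
  set T := (tateNF c).map (algebraMap A Qbar) with hT
  have hcf : ∀ g ∈ A.inertiaSubgroupIn ℚ,
      g C.u = C.u ∧ g C.r = C.r ∧ g C.s = C.s ∧ g C.t = C.t := fun g hg => by
    obtain ⟨q1, q2, q3, q4, -⟩ := hCfix g (actsInertially_of_mem hg) (g.commutes _) (g.commutes _)
      (g.commutes _) (g.commutes _) (g.commutes _)
    exact ⟨q1, q2, q3, q4⟩
  -- coordinates in the normal form
  haveI : (C • V).IsElliptic := inferInstance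
  haveI : T.IsElliptic := hC ▸ inferInstance
  let Φ : V.toAffine.Point →+ T.toAffine.Point := hC ▸ vcHom C
  have hΦs : ∀ (a b : Qbar) (h : V.toAffine.Nonsingular a b),
      ∃ h', Φ (Affine.Point.some a b h) = Affine.Point.some (vcX C a) (vcY C a b) h' := by
    intro a b h
    refine ⟨hC ▸ vc_nonsingular C h, ?_⟩
    simp only [Φ]
    generalize hT' : T = T' at hC
    subst hC
    exact vcHom_some C h
  have hΦbig : ∀ Q : V.toAffine.Point, IsBigPoint A (Φ Q) ↔ IsBigPoint A Q := by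
    intro Q
    rcases Q with _ | ⟨a, b, h⟩
    · rw [← Affine.Point.zero_def, map_zero]
      exact ⟨fun _ => isBigPoint_zero, fun _ => isBigPoint_zero⟩
    · obtain ⟨h', e⟩ := hΦs a b h
      rw [e, isBigPoint_some, isBigPoint_some, one_lt_val_vcX_iff C hu hr]
  have hvc : ∀ g ∈ A.inertiaSubgroupIn ℚ, ∀ a b : Qbar,
      g (vcX C a) = vcX C (g a) ∧ g (vcY C a b) = vcY C (g a) (g b) := by
    intro g hg a b
    obtain ⟨gu, gr, gs, gt⟩ := hcf g hg
    constructor
    · rw [vcX, vcX, map_div₀ g, map_sub, gr, map_pow, gu]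
    · rw [vcY, vcY, map_div₀ g, map_sub, map_sub, map_mul, map_sub, gs, gr, gt, map_pow, gu]
  -- the abscissa of a torsion point in the normal form
  have hcoord : ∀ (g : GQ), g ∈ A.inertiaSubgroupIn ℚ → ∀ (y : FreyTorsion P) (a b : Qbar)
      (h : T.toAffine.Nonsingular a b), Φ y.1 = Affine.Point.some a b h →
      ∃ h', Φ (g • y).1 = Affine.Point.some (g a) (g b) h' := by
    intro g hg y a b h e
    rcases hy : y.1 with _ | ⟨a₀, b₀, h₀⟩
    · rw [hy, ← Affine.Point.zero_def, map_zero] at e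
      exact absurd e.symm (Affine.Point.some_ne_zero h)
    obtain ⟨h', e'⟩ := hΦs a₀ b₀ h₀
    rw [hy, e', Affine.Point.some.injEq] at e
    obtain ⟨h₀', e₀⟩ := smul_point_some P g h₀
    obtain ⟨h'', e''⟩ := hΦs (g a₀) (g b₀) h₀'
    rw [show (g • y).1 = g • y.1 from rfl, hy, e₀, e'', ← e.1, ← e.2]
    obtain ⟨q1, q2⟩ := hvc g hg a₀ b₀
    refine ⟨q1 ▸ q2 ▸ h'', ?_⟩
    rw [Affine.Point.some.injEq]
    exact ⟨q1.symm, q2.symm⟩
  have htor : ∀ y : FreyTorsion P, P.p • Φ y.1 = 0 := fun y => by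
    rw [← map_nsmul, torsion_nsmul P y.2, map_zero]
  set Q₀ : FreyTorsion P := σ • x - x with hQ₀
  have hQ₀0 : Q₀ ≠ 0 := sub_ne_zero.2 hne
  have hQbig : Q₀ ∈ bigTorsion P A := smul_sub_mem_bigTorsion P hA hσ x hx
  -- the multiples of the big point
  have hjQ : ∀ j : ℕ, ¬ P.p ∣ j → ∃ (a b : Qbar) (h : T.toAffine.Nonsingular a b),
      Φ (j • Q₀).1 = Affine.Point.some a b h ∧ 1 < A.valuation a := by
    intro j hj
    have hb : IsBigPoint A (Φ (j • Q₀).1) :=
      (hΦbig _).2 ((mem_bigTorsion_iff P).1 ((bigTorsion P A).nsmul_mem hQbig j))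
    have h0 : j • Q₀ ≠ 0 := fun e => by
      rw [← Nat.cast_smul_eq_nsmul (ZMod P.p), smul_eq_zero] at e
      exact hj ((ZMod.natCast_eq_zero_iff _ _).1 (e.resolve_right hQ₀0))
    rcases hh : (j • Q₀).1 with _ | ⟨a₀, b₀, h₀⟩
    · exact absurd (Subtype.ext hh) h0
    obtain ⟨h', e'⟩ := hΦs a₀ b₀ h₀
    rw [hh, e', isBigPoint_some] at hb
    exact ⟨_, _, h', e', hb⟩
  obtain ⟨M, hM⟩ := P.hp_odd
  have hndvd : ∀ j, j ∈ Finset.Icc 1 M → ¬ P.p ∣ j := fun j hj h => by
    rw [Finset.mem_Icc] at hj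
    have := Nat.le_of_dvd (by omega) h
    omega
  let xQ : ℕ → Qbar := fun j =>
    if h : ¬ P.p ∣ j then (hjQ j h).choose else 0
  have hxQ : ∀ j, ¬ P.p ∣ j → ∃ (b : Qbar) (h : T.toAffine.Nonsingular (xQ j) b),
      Φ (j • Q₀).1 = Affine.Point.some (xQ j) b h ∧ 1 < A.valuation (xQ j) := fun j hj => by
    simp only [xQ, dif_pos hj]
    exact (hjQ j hj).choose_spec
  obtain ⟨j, hjI, hjmin⟩ := (Finset.Icc 1 M).exists_min_image (fun i => A.valuation (xQ i))
    (Finset.nonempty_Icc.2 (by omega))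
  have hinj : Set.InjOn xQ (Finset.Icc 1 M : Finset ℕ) := by
    intro i hi k hk e
    rw [Finset.mem_coe] at hi hk
    obtain ⟨bi, hbi, ei, -⟩ := hxQ i (hndvd i hi)
    obtain ⟨bk, hbk, ek, -⟩ := hxQ k (hndvd k hk)
    have hΦinj : Function.Injective Φ := by
      intro a a' h
      rcases a with _ | ⟨a₁, b₁, h₁⟩ <;> rcases a' with _ | ⟨a₂, b₂, h₂⟩
      · rfl
      · obtain ⟨h', e'⟩ := hΦs a₂ b₂ h₂
        rw [← Affine.Point.zero_def, map_zero, e'] at h
        exact absurd h.symm (Affine.Point.some_ne_zero h')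
      · obtain ⟨h', e'⟩ := hΦs a₁ b₁ h₁
        rw [← Affine.Point.zero_def, map_zero, e'] at h
        exact absurd h (Affine.Point.some_ne_zero h')
      · obtain ⟨h', e'⟩ := hΦs a₁ b₁ h₁
        obtain ⟨h'', e''⟩ := hΦs a₂ b₂ h₂
        rw [e', e'', Affine.Point.some.injEq] at h
        have hx12 : a₁ = a₂ := (vcX_inj (C := C)).1 h.1
        subst hx12
        rw [Affine.Point.some.injEq]
        exact ⟨rfl, (vcY_inj (C := C)).1 h.2⟩
    rw [Finset.mem_Icc] at hi hk
    rcases (Affine.Point.X_eq_iff (h₁ := hbi) (h₂ := hbk)).1 e with e' | e'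
    · rw [← ei, ← ek] at e'
      have := Subtype.ext (hΦinj e')
      rw [← Nat.cast_smul_eq_nsmul (ZMod P.p) i, ← Nat.cast_smul_eq_nsmul (ZMod P.p) k] at this
      have h' : (i : ZMod P.p) = k := smul_left_injective (ZMod P.p) hQ₀0 this
      rw [ZMod.natCast_eq_natCast_iff] at h'
      exact Nat.ModEq.eq_of_lt_of_lt h' (by omega) (by omega)
    · rw [← ei, ← ek, ← map_neg] at e'
      have hk' : (i • Q₀).1 = (-(k • Q₀)).1 := hΦinj e'
      have := Subtype.ext hk'
      rw [eq_neg_iff_add_eq_zero, ← add_nsmul, ← Nat.cast_smul_eq_nsmul (ZMod P.p),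
        smul_eq_zero] at this
      have h' := (ZMod.natCast_eq_zero_iff _ _).1 (this.resolve_right hQ₀0)
      have := Nat.le_of_dvd (by omega) h'
      omega
  have hprod := prod_abscissae_le_of_eq (V := T) (W := tateNF c) rfl (m := M) (by omega)
    ((Finset.Icc 1 M).image xQ) (by
      intro a ha
      obtain ⟨i, hi, rfl⟩ := Finset.mem_image.1 ha
      obtain ⟨b, hb, e, h1⟩ := hxQ i (hndvd i hi)
      exact ⟨h1, b, hb, by rw [← hM, ← e, htor]⟩)
  rw [Finset.prod_image hinj, ← hM] at hprod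
  have hmin : A.valuation (P.p : Qbar) * A.valuation (xQ j) ^ M ≤ 1 := by
    refine le_trans (mul_le_mul' le_rfl ?_) hprod
    refine le_trans (le_of_eq ?_) (Finset.prod_le_prod' hjmin)
    rw [Finset.prod_const, Nat.card_Icc, Nat.add_sub_cancel]
  -- a multiple of the point, with `v (2y + x) = v x` a value of inertia fixed elements
  obtain ⟨i, x₁, y₁, h₁, hi, ei, hx₁, k, hψ, hxw⟩ :
      ∃ (i : ℕ) (x₁ y₁ : Qbar) (h₁ : T.toAffine.Nonsingular x₁ y₁), ¬ P.p ∣ i ∧
        Φ (i • x).1 = Affine.Point.some x₁ y₁ h₁ ∧ A.valuation x₁ ≤ 1 ∧ ∃ k : ℕ,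
        A.valuation (2 * y₁ + x₁) = A.valuation (w ^ k) ∧
        A.valuation x₁ = A.valuation (w ^ k) := by
    have hsm : ∀ j : ℕ, ¬ P.p ∣ j → ¬ IsBigPoint A (j • Φ x.1) := by
      intro j hj hb
      rw [← map_nsmul, hΦbig, ← AddSubmonoidClass.coe_nsmul, ← mem_bigTorsion_iff] at hb
      exact hx j hj hb
    have ha₁ : T.a₁ = 1 := by simp [hT, tateNF]
    have ha₃ : T.a₃ = 0 := by simp [hT, tateNF]
    by_cases hunit : ∃ (j : ℕ) (x₁ y₁ : Qbar) (h₁ : T.toAffine.Nonsingular x₁ y₁),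
        ¬ P.p ∣ j ∧ j • Φ x.1 = Affine.Point.some x₁ y₁ h₁ ∧ A.valuation x₁ = 1
    · obtain ⟨j', x₁, y₁, h₁, hj', ej, hx₁⟩ := hunit
      have hy₁ := val_y_le_one (tateNF c) hx₁.le h₁.1
      have h4 : A.valuation (4 : Qbar) ≤ 1 := by
        exact_mod_cast val_natCast_le_one (A := A) 4
      have hns : ¬(A.valuation (sP T (x₁ * x₁) (x₁ + x₁) 1) < 1 ∧
          A.valuation (tP T (x₁ * x₁) (x₁ + x₁) 1) < 1) := by
        rintro ⟨hs, -⟩
        have hxx : A.valuation (x₁ + x₁) ≤ 1 :=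
          (A.valuation.map_add _ _).trans (max_le hx₁.le hx₁.le)
        rw [hT, tateNF_sP, Valuation.map_sub_eq_of_lt_left] at hs
        · simp [hx₁] at hs
        · simp only [map_pow, map_mul, hx₁, mul_one, one_pow]
          exact val_add_lt _ (val_mul_lt_one _ (val_mul_lt_one' _ h4 hc) hxx) hc
      have h2j := hsm (j' * 2) (fun hd' => (P.pp.dvd_mul.1 hd').elim hj'
        (fun h2 => by have := Nat.le_of_dvd two_pos h2; omega))
      rw [mul_nsmul, ej, two_nsmul] at h2j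
      have h := val_psi_eq_one (tateNF c) h₁ hx₁.le hy₁ hns h2j
      rw [← hT, ha₁, ha₃, one_mul, add_zero] at h
      exact ⟨j', x₁, y₁, h₁, hj', by rw [← ej, ← map_nsmul]; rfl, hx₁.le, 0,
        by rw [pow_zero, map_one, h], by rw [pow_zero, map_one, hx₁]⟩
    · push Not at hunit
      rcases hx1 : Φ x.1 with _ | ⟨a, b, h⟩
      · exact absurd (by rw [one_nsmul, hx1]; exact isBigPoint_zero) (hsm 1 P.pp.not_dvd_one)
      rw [hx1] at hsm hunit
      have t : P.p • Affine.Point.some a b h = 0 := by rw [← hx1, htor]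
      have hsing : TateSing c P.p (Affine.Point.some a b h) := fun j hj => by
        obtain ⟨x₁, y₁, h₁, e, hx₁⟩ := smul_not_big hsm hj
        refine ⟨x₁, y₁, h₁, e, lt_of_le_of_ne hx₁ (hunit j x₁ y₁ h₁ hj e), ?_⟩
        rw [← e, smul_comm, t, nsmul_zero]
      have hlta : A.valuation a < 1 := by
        obtain ⟨x₁, y₁, h₁, e, hx₁, -⟩ := hsing 1 P.pp.not_dvd_one
        rw [one_nsmul, Affine.Point.some.injEq] at e
        rwa [e.1]
      obtain ⟨k, hk⟩ := tate_position_of_sing hc0 hc P.hp_odd h t hsing hlta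
      have hC2 := tate_c_lt_sq_of_sing hc0 hc P.hp_odd h hsing hlta
      have hw' : A.valuation a = A.valuation (w ^ k) := by
        rw [map_pow]
        refine (pow_left_inj₀ zero_le zero_le P.hp0).1 ?_
        rw [hk, hwc, ← pow_mul, ← pow_mul, mul_comm]
      have hψ : A.valuation (2 * b + a) = A.valuation a := by
        refine (pow_left_inj₀ zero_le zero_le two_ne_zero).1 ?_
        have he := (Affine.equation_iff ..).1 h.1
        simp only [hT, tateNF, WeierstrassCurve.map, map_one, map_zero, one_mul, zero_mul,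
          add_zero] at he
        have hb' : (2 * b + a) ^ 2 = a ^ 2 + (4 * a ^ 3 + 4 * algebraMap A Qbar c) := by
          linear_combination 4 * he
        have h4 : A.valuation (4 : Qbar) = 1 := by
          rw [show (4 : Qbar) = 2 * 2 by norm_num, map_mul, hv2, one_mul]
        rw [← map_pow, hb', Valuation.map_add_eq_of_lt_left, map_pow]
        rw [map_pow]
        refine val_add_lt _ ?_ ?_
        · rw [map_mul, h4, one_mul, map_pow]
          refine pow_lt_pow_right_of_lt_one₀ (zero_lt_iff.2 fun e0 => ?_) hlta (by norm_num)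
          rw [e0, zero_pow two_ne_zero] at hC2
          exact not_lt_zero hC2
        · rw [map_mul, h4, one_mul]; exact hC2
      exact ⟨1, a, b, h, P.pp.not_dvd_one, by rw [one_nsmul, hx1], hlta.le, k,
        hψ.trans hw', hw'⟩
  have hjp := hndvd j hjI
  obtain ⟨b₂, h₂, e₂, hbig₂⟩ := hxQ j hjp
  obtain ⟨xa, ya, xs, ys, ha, hs, hea, hes, hdiff⟩ := tate_addSub_diff hv2 h₁ h₂ hx₁ hbig₂
  -- the translates are conjugate
  have hfixj : ∀ n : ℕ, σ • (n • Q₀) = n • Q₀ := fun n => by rw [smul_comm, hfix]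
  have hpow : ∀ (n : ℕ) (y : FreyTorsion P) (r : ℕ), σ • y = y + r • Q₀ →
      (σ ^ n) • y = y + (n * r) • Q₀ := by
    intro n y r hy
    induction n with
    | zero => simp
    | succ n ih =>
      rw [pow_succ', mul_smul, ih, smul_add, hy, hfixj, Nat.succ_mul, add_nsmul]
      abel
  set y : FreyTorsion P := i • x - j • Q₀ with hy
  have hσy : σ • y = y + i • Q₀ := by
    rw [hy, smul_sub, hfixj, smul_comm, show σ • x = x + Q₀ by rw [hQ₀, add_sub_cancel], nsmul_add]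
    abel
  obtain ⟨n, hn⟩ : ∃ n : ℕ, (σ ^ n) • y = i • x + j • Q₀ := by
    refine ⟨((2 * j : ℕ) * (i : ZMod P.p)⁻¹ : ZMod P.p).val, ?_⟩
    rw [hpow _ _ _ hσy, ← Nat.cast_smul_eq_nsmul (ZMod P.p), Nat.cast_mul,
      ZMod.natCast_rightInverse, mul_assoc, inv_mul_cancel₀
        (fun e => hi ((ZMod.natCast_eq_zero_iff _ _).1 e)), mul_one, Nat.cast_smul_eq_nsmul,
      hy, two_mul, add_nsmul]
    abel
  have hΦy : Φ y.1 = Affine.Point.some xs ys hs := by
    rw [← hes, ← ei, ← e₂, ← map_sub]; rfl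
  have hiter : ∀ n : ℕ, (σ ^ n : GQ) xs = (σ : Qbar → Qbar)^[n] xs := fun n => by
    induction n with
    | zero => rfl
    | succ n ih => rw [Function.iterate_succ_apply', ← ih, pow_succ']; rfl
  have hxa : (σ : Qbar → Qbar)^[n] xs = xa := by
    obtain ⟨h', e'⟩ := hcoord (σ ^ n) (pow_mem hσ n) y xs ys hs hΦy
    rw [hn, show ((i • x + j • Q₀ : FreyTorsion P) : V.toAffine.Point) =
      (i • x).1 + (j • Q₀).1 from rfl, map_add, ei, e₂, hea, Affine.Point.some.injEq] at e'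
    rw [← hiter]
    exact e'.1.symm
  have hwk : A.valuation (w ^ k) ≠ 0 := by
    rw [map_ne_zero, hw]
    exact pow_ne_zero _ (pow_ne_zero _ (Nat.cast_ne_zero.2 P.hp0))
  have hwfix : ∀ g : GQ, g (w ^ k) = w ^ k := fun g => by simp [hw]
  refine ⟨xs / w ^ k, ?_, fun g hg hgy => ?_, ?_⟩
  · obtain ⟨n₂, hn₂⟩ : ∃ n₂ : ℕ, (σ ^ n₂) • y = i • x := by
      refine ⟨((j : ℕ) * (i : ZMod P.p)⁻¹ : ZMod P.p).val, ?_⟩
      rw [hpow _ _ _ hσy, ← Nat.cast_smul_eq_nsmul (ZMod P.p), Nat.cast_mul,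
        ZMod.natCast_rightInverse, mul_assoc, inv_mul_cancel₀
          (fun e => hi ((ZMod.natCast_eq_zero_iff _ _).1 e)), mul_one, Nat.cast_smul_eq_nsmul,
        hy, sub_add_cancel]
    obtain ⟨h', e'⟩ := hcoord (σ ^ n₂) (pow_mem hσ n₂) y xs ys hs hΦy
    rw [hn₂, ei, Affine.Point.some.injEq, hiter] at e'
    rw [map_div₀, ← val_iterate hin xs n₂, ← e'.1, hxw, div_self hwk]
  · obtain ⟨h', e'⟩ := hcoord g hg y xs ys hs hΦy
    rw [hgy y, hΦy, Affine.Point.some.injEq] at e'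
    rw [map_div₀ g, ← e'.1, hwfix]
  · have hle : A.valuation (xs - xa) ≤ A.valuation (σ xs - xs) := by
      rw [← Valuation.map_neg, neg_sub, ← hxa]
      exact val_iterate_sub_le hin xs n
    rw [map_div₀ σ, hwfix, ← sub_div, map_div₀, show P.p - 1 = 2 * M by omega, pow_mul, div_pow]
    have hx2 : A.valuation (xQ j) ≠ 0 := (zero_lt_one.trans hbig₂).ne'
    have h1 : (A.valuation (xQ j))⁻¹ ≤ A.valuation (σ xs - xs) ^ 2 / A.valuation (w ^ k) ^ 2 := by
      rw [le_div_iff₀ (zero_lt_iff.2 (pow_ne_zero 2 hwk)), ← hψ, ← hdiff, mul_comm,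
        mul_inv_cancel_right₀ hx2]
      exact pow_le_pow_left₀ zero_le hle 2
    refine le_trans ?_ (pow_le_pow_left₀ zero_le h1 M)
    rw [inv_pow, ← one_div, le_div_iff₀ (zero_lt_iff.2 (pow_ne_zero M hx2))]
    exact hmin

end Frey

end Fermat.Agent.EC
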