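import Fermat.Agent.EC.Local.Borel
import Fermat.Agent.EC.Local.Peu
import Fermat.Agent.EC.Rep
import Fermat.Agent.GalRep.InertiaBase.Exports
import Fermat.Agent.GalRep.InertiaBase.Aut
import Fermat.Agent.GalRep.InertiaBase.Wild

/-!
# The field of `E[p]` over the inertia field, in the wild case: degree `p (p - 1)` and the break

`torsionFld P` is the field cut out by `E[p]`. For `p ∣ abc` and a wild element of inertia, its
compositum with the inertia field is totally ramified of index `p (p - 1)`, and a wild element has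
break `1 ≤ b ≤ p - 1` on a uniformiser.
-/

set_option autoImplicit false
set_option linter.style.haveILetI false
set_option linter.unusedSectionVars false

noncomputable section

namespace Fermat.Agent.EC

open WeierstrassCurve
open WeierstrassCurve.Affine.Point (galoisRepModuleEnd galoisRepModuleEnd_apply)
open scoped WeierstrassCurve.Affine
open Fermat.Agent.GalRep.InertiaBase
open Fermat.Agent.NewVec

local notation "Qbar" => AlgebraicClosure ℚ
local notation "GQ" => (AlgebraicClosure ℚ) ≃ₐ[ℚ] (AlgebraicClosure ℚ)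

/-! ## The cyclotomic character modulo `p` -/

theorem toZMod_eq_of_toZModPow {p : ℕ} [Fact p.Prime] {x : ℤ_[p]} {n : ℕ}
    (h : PadicInt.toZModPow 1 x = (n : ZMod (p ^ 1))) : PadicInt.toZMod x = (n : ZMod p) := by
  have h1 : x - (n : ℤ_[p]) ∈ RingHom.ker (PadicInt.toZModPow (p := p) 1) := by
    rw [RingHom.mem_ker, map_sub, map_natCast, h, sub_self]
  rw [PadicInt.ker_toZModPow, pow_one, ← PadicInt.maximalIdeal_eq_span_p, ← PadicInt.ker_toZMod,
    RingHom.mem_ker, map_sub, map_natCast, sub_eq_zero] at h1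
  exact h1

theorem toZModPow_eq_of_toZMod {p : ℕ} [Fact p.Prime] {x : ℤ_[p]} {n : ℕ}
    (h : PadicInt.toZMod x = (n : ZMod p)) : PadicInt.toZModPow 1 x = (n : ZMod (p ^ 1)) := by
  have h1 : x - (n : ℤ_[p]) ∈ RingHom.ker (PadicInt.toZMod (p := p)) := by
    rw [RingHom.mem_ker, map_sub, map_natCast, h, sub_self]
  rw [PadicInt.ker_toZMod, PadicInt.maximalIdeal_eq_span_p, ← pow_one (p : ℤ_[p]),
    ← PadicInt.ker_toZModPow, RingHom.mem_ker, map_sub, map_natCast, sub_eq_zero] at h1
  exact h1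

variable (P : FreyPackage) [Fact P.p.Prime]

local notation "ρE" => galoisRepModuleEnd (K := Qbar) ℚ P.freyCurve.toAffine P.p

theorem freyOmega_eq_of_root {σ : GQ} {z : Qbar} (hz : IsPrimitiveRoot z P.p) {n : ℕ}
    (h : σ z = z ^ n) : freyOmega P σ = n :=
  toZMod_eq_of_toZModPow
    (GalRep.toZModPow_cyc_eq P.p σ one_ne_zero (by rwa [pow_one]) h)

theorem freyOmega_one_iff {σ : GQ} :
    freyOmega P σ = 1 ↔ ∀ z : Qbar, z ^ P.p = 1 → σ z = z := by
  haveI : NeZero P.p := ⟨P.hp0⟩
  constructor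
  · intro h z hz
    have h1 : PadicInt.toZModPow 1 (GalRep.cyc P.p σ : ℤ_[P.p]) = ((1 : ℕ) : ZMod (P.p ^ 1)) :=
      toZModPow_eq_of_toZMod (by rw [Nat.cast_one]; exact h)
    rw [GalRep.cyc_spec P.p σ (k := 1) z (by rwa [pow_one]), h1, Nat.cast_one]
    haveI : Fact (1 < P.p ^ 1) := ⟨by rw [pow_one]; exact P.pp.one_lt⟩
    rw [ZMod.val_one, pow_one]
  · intro h
    obtain ⟨z, hz⟩ := HasEnoughRootsOfUnity.exists_primitiveRoot Qbar P.p
    have := freyOmega_eq_of_root P hz (σ := σ) (n := 1) (by rw [pow_one]; exact h z hz.pow_eq_one)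
    simpa using this

/-! ## The field of `E[p]` -/

/-- The kernel of the action on `E[p]`. -/
def torsionKer : Subgroup GQ where
  carrier := {σ | ∀ x : FreyTorsion P, σ • x = x}
  one_mem' := one_smul _
  mul_mem' {σ τ} hσ hτ x := by rw [mul_smul, hτ x, hσ x]
  inv_mem' {σ} hσ x := by rw [inv_smul_eq_iff, hσ x]

theorem mem_torsionKer {σ : GQ} : σ ∈ torsionKer P ↔ ∀ x : FreyTorsion P, σ • x = x := Iff.rfl

theorem freyOmega_of_mem_torsionKer {σ : GQ} (hσ : σ ∈ torsionKer P) : freyOmega P σ = 1 := by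
  rw [← det_eq_freyOmega, show ρE σ = 1 from LinearMap.ext fun x => hσ x, map_one]

/-- The field cut out by `E[p]`. -/
def torsionFld : IntermediateField ℚ Qbar := IntermediateField.fixedField (torsionKer P)

theorem exists_level_le : ∃ F : IntermediateField ℚ Qbar, FiniteDimensional ℚ F ∧
    F.fixingSubgroup ≤ torsionKer P := by
  obtain ⟨F, hF, hfix⟩ := exists_finite_level (K := Qbar) ℚ P.freyCurve.toAffine P.p P.pp.one_le
  exact ⟨F, hF, fun σ hσ x => hfix σ ((IntermediateField.mem_fixingSubgroup_iff F σ).mp hσ) x⟩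

instance finite_torsionFld : FiniteDimensional ℚ (torsionFld P) := by
  obtain ⟨F, hF, hle⟩ := exists_level_le P
  have h : torsionFld P ≤ F := by
    rw [← InfiniteGalois.fixedField_fixingSubgroup F]
    exact IntermediateField.fixedField_antitone hle
  exact FiniteDimensional.of_injective (IntermediateField.inclusion h).toLinearMap
    (IntermediateField.inclusion h).injective

theorem fixingSubgroup_torsionFld : (torsionFld P).fixingSubgroup = torsionKer P := by
  obtain ⟨F, hF, hle⟩ := exists_level_le P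
  exact InfiniteGalois.fixingSubgroup_fixedField ⟨torsionKer P, Subgroup.isClosed_of_isOpen _
    (Subgroup.isOpen_mono hle (IntermediateField.fixingSubgroup_isOpen F))⟩

/-- An element of `G_ℚ` fixes the field iff it fixes `E[p]`. -/
theorem fix_torsionFld_iff {σ : GQ} :
    (∀ x ∈ torsionFld P, σ x = x) ↔ ∀ x : FreyTorsion P, σ • x = x := by
  rw [← IntermediateField.mem_fixingSubgroup_iff, fixingSubgroup_torsionFld, mem_torsionKer]

instance normal_torsionFld : Normal ℚ (torsionFld P) := by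
  haveI : Normal ℚ Qbar := IsGalois.to_normal
  refine IntermediateField.normal_iff_forall_map_le'.mpr ?_
  rintro σ _ ⟨x, hx, rfl⟩
  show σ x ∈ torsionFld P
  rw [torsionFld, IntermediateField.mem_fixedField_iff]
  intro h hh
  have hc : σ⁻¹ * h * σ ∈ torsionKer P := fun y => by
    rw [mul_smul, mul_smul, hh, inv_smul_smul]
  refine σ.symm.injective ?_
  rw [σ.symm_apply_apply]
  exact (IntermediateField.mem_fixedField_iff _ _).mp hx _ hc

theorem zetaQ_mem_torsionFld [NeZero P.p] : zetaQ P.p ∈ torsionFld P := by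
  rw [torsionFld, IntermediateField.mem_fixedField_iff]
  exact fun h hh => (freyOmega_one_iff P).mp (freyOmega_of_mem_torsionKer P hh) _
    (isPrimitiveRoot_zetaQ P.p).pow_eq_one

variable {A : ValuationSubring Qbar}

theorem fix_rFld {L : IntermediateField ℚ Qbar} {s : GQ} (hs : s ∈ A.inertiaSubgroupIn ℚ)
    (h : ∀ x ∈ L, s x = x) {x : Qbar} (hx : x ∈ rFld A L) : s x = x := by
  induction hx using IntermediateField.adjoin_induction with
  | mem x hx => exact h x hx
  | algebraMap x => exact (mem_inertiaFld A).mp x.2 s hs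
  | add x y _ _ hx hy => rw [map_add, hx, hy]
  | inv x _ hx => rw [map_inv₀, hx]
  | mul x y _ _ hx hy => rw [map_mul, hx, hy]

/-! ## The image of inertia -/

variable (hA : A.LiesOverPrime P.p) (hd : (P.p : ℤ) ∣ P.a * P.b * P.c)
include hA hd

theorem exists_not_mem_big : ∃ x₀ : FreyTorsion P, x₀ ∉ bigTorsion P A := by
  by_contra h
  push Not at h
  exact bigTorsion_ne_top P hA hd (eq_top_iff.2 fun y _ => h y)

theorem finrank_big_le : Module.finrank (ZMod P.p) (bigTorsion P A) ≤ 1 := by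
  have hrk := finrank_torsionBy (K := Qbar) P.freyCurve.toAffine P.p
  haveI : Module.Finite (ZMod P.p) (FreyTorsion P) := Module.finite_of_finrank_eq_succ hrk
  have h2 := lt_of_lt_of_eq (Submodule.finrank_lt (bigTorsion_ne_top P hA hd)) hrk
  omega

theorem natCard_big_le : Nat.card (bigTorsion P A) ≤ P.p := by
  have hrk := finrank_torsionBy (K := Qbar) P.freyCurve.toAffine P.p
  haveI : Module.Finite (ZMod P.p) (FreyTorsion P) := Module.finite_of_finrank_eq_succ hrk
  rw [Module.natCard_eq_pow_finrank (K := ZMod P.p), Nat.card_zmod]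
  exact (Nat.pow_le_pow_right P.pp.pos (finrank_big_le P hA hd)).trans (pow_one _).le

/-- A nonzero big point and a point that is not big span. -/
theorem exists_decomp {b x₀ : FreyTorsion P} (hb : b ∈ bigTorsion P A) (hb0 : b ≠ 0)
    (hx₀ : x₀ ∉ bigTorsion P A) (y : FreyTorsion P) :
    ∃ c d : ZMod P.p, y = c • x₀ + d • b := by
  have hrk := finrank_torsionBy (K := Qbar) P.freyCurve.toAffine P.p
  haveI : Module.Finite (ZMod P.p) (FreyTorsion P) := Module.finite_of_finrank_eq_succ hrk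
  have hli : LinearIndependent (ZMod P.p) ![x₀, b] := by
    rw [LinearIndependent.pair_iff]
    intro s t hst
    have hs : s = 0 := by
      by_contra hs
      refine hx₀ ?_
      rw [← inv_smul_smul₀ hs x₀, eq_neg_of_add_eq_zero_left hst]
      exact (bigTorsion P A).smul_mem _ ((bigTorsion P A).neg_mem ((bigTorsion P A).smul_mem _ hb))
    subst hs
    rw [zero_smul, zero_add, smul_eq_zero] at hst
    exact ⟨rfl, hst.resolve_right hb0⟩
  have hspan := hli.span_eq_top_of_card_eq_finrank (by rw [Fintype.card_fin]; exact hrk.symm)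
  rw [Matrix.range_cons, Matrix.range_cons, Matrix.range_empty, Set.union_empty,
    Set.singleton_union] at hspan
  obtain ⟨c, d, h⟩ := Submodule.mem_span_pair.mp (hspan ▸ Submodule.mem_top (x := y))
  exact ⟨c, d, h.symm⟩

/-- On the big points inertia acts by `ω`. -/
theorem smul_of_mem_big {σ : GQ} (hσ : σ ∈ A.inertiaSubgroupIn ℚ) {z : FreyTorsion P}
    (hz : z ∈ bigTorsion P A) : ρE σ z = freyOmega P σ • z := by
  obtain ⟨x₀, hx₀⟩ := exists_not_mem_big P hA hd
  have hquad : ∀ y, ρE σ (ρE σ y - freyOmega P σ • y) - (ρE σ y - freyOmega P σ • y) = 0 :=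
    fun y => DFunLike.congr_fun (inertia_quadratic P hA hd hσ) y
  have hbig : ∀ y, ρE σ y - y ∈ bigTorsion P A := fun y => smul_sub_mem_big_all P hA hd hσ y
  rcases eq_or_ne z 0 with rfl | hz0
  · rw [map_zero, smul_zero]
  -- multiples of `z`
  have hline : ∀ y ∈ bigTorsion P A, ∃ r : ZMod P.p, y = r • z := fun y hy => by
    obtain ⟨c, d, rfl⟩ := exists_decomp P hA hd hz hz0 hx₀ y
    rcases eq_or_ne c 0 with rfl | hc
    · exact ⟨d, by rw [zero_smul, zero_add]⟩
    · refine absurd ?_ hx₀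
      rw [← inv_smul_smul₀ hc x₀]
      exact (bigTorsion P A).smul_mem _
        (((bigTorsion P A).add_mem_iff_left ((bigTorsion P A).smul_mem d hz)).mp hy)
  obtain ⟨r, hr⟩ := hline _ (hbig z)
  rw [sub_eq_iff_eq_add] at hr
  rcases eq_or_ne r 0 with rfl | hr0
  · rw [zero_smul, zero_add] at hr
    obtain ⟨t, ht⟩ := hline _ (hbig x₀)
    rcases eq_or_ne t 0 with rfl | ht0
    · rw [zero_smul, sub_eq_zero] at ht
      have h1 : ρE σ = 1 := LinearMap.ext fun y => by
        obtain ⟨c, d, rfl⟩ := exists_decomp P hA hd hz hz0 hx₀ y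
        rw [map_add, map_smul, map_smul, hr, ht]
        rfl
      rw [hr, ← det_eq_freyOmega, h1, map_one, one_smul]
    · have h := hquad x₀
      rw [sub_eq_iff_eq_add] at ht
      rw [ht] at h
      simp only [map_sub, map_add, map_smul, hr, ht] at h
      have h' : (t * (1 - freyOmega P σ)) • z = 0 := by
        rw [← h]
        module
      have hw := (smul_eq_zero.mp h').resolve_right hz0
      rw [hr, ← sub_eq_zero.mp ((mul_eq_zero.mp hw).resolve_left ht0), one_smul]
  · have h := hquad z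
    rw [hr] at h
    simp only [map_sub, map_add, map_smul, hr] at h
    have h' : (r * (r + 1 - freyOmega P σ)) • z = 0 := by
      rw [← h]
      module
    have hw := (smul_eq_zero.mp h').resolve_right hz0
    rw [hr, ← sub_eq_zero.mp ((mul_eq_zero.mp hw).resolve_left hr0), add_smul, one_smul]

/-- The index of ramification of the field is at most `p (p - 1)`. -/
theorem rIdx_torsionFld_le :
    rIdx (L := torsionFld P) P.pp hA ≤ P.p * (P.p - 1) := by
  classical
  haveI : Normal ℚ Qbar := IsGalois.to_normal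
  haveI : Normal (inertiaFld A) Qbar := Normal.tower_top_of_normal ℚ _ _
  haveI : NeZero P.p := ⟨P.hp0⟩
  obtain ⟨x₀, hx₀⟩ := exists_not_mem_big P hA hd
  rw [← finrank_rFld (L := torsionFld P) P.pp hA,
    ← AlgHom.natCard_of_splits (inertiaFld A) (rFld A (torsionFld P)) Qbar
      fun _ => IsAlgClosed.splits _]
  have hext : ∀ f : rFld A (torsionFld P) →ₐ[inertiaFld A] Qbar,
      ∃ s ∈ A.inertiaSubgroupIn ℚ, ∀ x : rFld A (torsionFld P), s (x : Qbar) = f x := fun f => by
    obtain ⟨g, hg⟩ : ∃ g : Qbar →ₐ[inertiaFld A] Qbar, ∀ x : rFld A (torsionFld P),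
        g (x : Qbar) = f x :=
      ⟨f.liftNormal Qbar, fun x => f.liftNormal_commutes Qbar x⟩
    obtain ⟨s, hs, hsg⟩ := exists_inertia_eq A (torsionFld P)
      (σ := (AlgEquiv.ofBijective g (Algebra.IsAlgebraic.algHom_bijective g)).restrictScalars ℚ)
      fun y hy => g.commutes ⟨y, hy⟩
    exact ⟨s, hs, fun x => (hsg x x.2).trans (hg x)⟩
  choose s hs hsf using hext
  let d : (rFld A (torsionFld P) →ₐ[inertiaFld A] Qbar) → (ZMod P.p)ˣ × bigTorsion P A := fun f =>
    (Units.map (PadicInt.toZMod (p := P.p) : ℤ_[P.p] →* ZMod P.p) (GalRep.cyc P.p (s f)),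
      ⟨s f • x₀ - x₀, smul_sub_mem_big_all P hA hd (hs f) x₀⟩)
  have hinj : Function.Injective d := fun f g h => by
    have hw : freyOmega P (s f) = freyOmega P (s g) :=
      congrArg (fun t => (t.1 : ZMod P.p)) h
    have hx : s f • x₀ = s g • x₀ :=
      sub_left_injective (congrArg (fun t => (t.2 : FreyTorsion P)) h)
    have hall : ∀ y : FreyTorsion P, s f • y = s g • y := fun y => by
      show ρE (s f) y = ρE (s g) y
      rcases eq_or_ne (bigTorsion P A) ⊥ with hB | hB
      · have hfix : ∀ σ ∈ A.inertiaSubgroupIn ℚ, ρE σ y = y := fun σ hσ => by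
          have := smul_sub_mem_big_all P hA hd hσ y
          rw [hB, Submodule.mem_bot, sub_eq_zero] at this
          exact this
        rw [hfix _ (hs f), hfix _ (hs g)]
      · obtain ⟨b, hb, hb0⟩ := Submodule.exists_mem_ne_zero_of_ne_bot hB
        obtain ⟨c, e, rfl⟩ := exists_decomp P hA hd hb hb0 hx₀ y
        rw [map_add, map_add, map_smul, map_smul, map_smul, map_smul,
          show ρE (s f) x₀ = ρE (s g) x₀ from hx, smul_of_mem_big P hA hd (hs f) hb,
          smul_of_mem_big P hA hd (hs g) hb, hw]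
    have hker : (s g)⁻¹ * s f ∈ torsionKer P := fun y => by
      rw [mul_smul, hall, inv_smul_smul]
    refine AlgHom.ext fun x => ?_
    rw [← hsf, ← hsf]
    have := fix_rFld (mul_mem (inv_mem (hs g)) (hs f)) ((fix_torsionFld_iff P).mpr hker) x.2
    conv_rhs => rw [← this]
    exact ((s g).apply_symm_apply _).symm
  have hrk := finrank_torsionBy (K := Qbar) P.freyCurve.toAffine P.p
  haveI : Module.Finite (ZMod P.p) (FreyTorsion P) := Module.finite_of_finrank_eq_succ hrk
  haveI : Finite (FreyTorsion P) := Module.finite_of_finite (ZMod P.p)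
  refine (Nat.card_le_card_of_injective d hinj).trans ?_
  rw [Nat.card_prod, Nat.card_eq_fintype_card, ZMod.card_units_eq_totient, Nat.totient_prime P.pp,
    mul_comm]
  exact Nat.mul_le_mul_right _ (natCard_big_le P hA hd)

/-- Wild inertia on the field of `E[p]`: the index, a wild element, its break. -/
theorem exists_wild_base (h : ∃ s ∈ A.inertiaSubgroupIn ℚ,
    (∀ z : Qbar, z ^ P.p = 1 → s z = z) ∧ ∃ x : FreyTorsion P, s • x ≠ x) :
    rIdx (L := torsionFld P) P.pp hA = P.p * (P.p - 1) ∧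
      ∃ τ ∈ A.inertiaSubgroupIn ℚ, (∀ z : Qbar, z ^ P.p = 1 → τ z = z) ∧
        (∃ x : FreyTorsion P, τ • x ≠ x) ∧ ∃ b : ℕ, 1 ≤ b ∧ b ≤ P.p - 1 ∧
          A.valuation (τ (rVal A _ (rUnif (L := torsionFld P) P.pp hA)) /
              rVal A _ (rUnif (L := torsionFld P) P.pp hA) - 1) =
            A.valuation (rVal A _ (rUnif (L := torsionFld P) P.pp hA)) ^ b := by
  haveI : NeZero P.p := ⟨P.hp0⟩
  obtain ⟨τ, hτ, hτμ, x, hx⟩ := h
  have hw : freyOmega P τ = 1 := (freyOmega_one_iff P).mpr hτμ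
  have hB : bigTorsion P A ≠ ⊥ := fun hB => hx (sub_eq_zero.mp (by
    have := smul_sub_mem_big_all P hA hd hτ x
    rwa [hB, Submodule.mem_bot] at this))
  obtain ⟨b₁, hb₁, hb₁0⟩ := Submodule.exists_mem_ne_zero_of_ne_bot hB
  obtain ⟨x₀, hx₀⟩ := exists_not_mem_big P hA hd
  have hfixB : ∀ z ∈ bigTorsion P A, τ • z = z := fun z hz => by
    show ρE τ z = z
    rw [smul_of_mem_big P hA hd hτ hz, hw, one_smul]
  have hx₀ne : τ • x₀ ≠ x₀ := fun he => hx (by
    obtain ⟨c, e, rfl⟩ := exists_decomp P hA hd hb₁ hb₁0 hx₀ x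
    show ρE τ _ = _
    rw [map_add, map_smul, map_smul, show ρE τ x₀ = x₀ from he,
      show ρE τ b₁ = b₁ from hfixB b₁ hb₁])
  have hnm : ∀ j : ℕ, ¬ P.p ∣ j → j • x₀ ∉ bigTorsion P A := fun j hj hjx => hx₀ (by
    have hj' : (j : ZMod P.p) ≠ 0 := fun e => hj ((ZMod.natCast_eq_zero_iff _ _).1 e)
    rw [← inv_smul_smul₀ hj' x₀, Nat.cast_smul_eq_nsmul (ZMod P.p) j]
    exact (bigTorsion P A).smul_mem _ hjx)
  obtain ⟨φ, hφ1, hφfix, hφ⟩ := exists_moved_of_wild P hA hd hτ x₀ hnm hx₀ne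
    (hfixB _ (smul_sub_mem_big_all P hA hd hτ x₀))
  -- the element on the field
  let σ : A.inertiaSubgroupIn ℚ := ⟨τ, hτ⟩
  have hper : ∀ y ∈ rFld A (torsionFld P), ((σ ^ P.p : A.inertiaSubgroupIn ℚ) : GQ) y = y := by
    refine fun y hy => fix_rFld (σ ^ P.p).2 ((fix_torsionFld_iff P).mpr fun z => ?_) hy
    have hd' := smul_sub_mem_big_all P hA hd hτ z
    have hpow : ∀ n : ℕ, (τ ^ n) • z = z + (n : ZMod P.p) • (τ • z - z) := by
      intro n
      induction n with
      | zero => rw [pow_zero, one_smul, Nat.cast_zero, zero_smul, add_zero]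
      | succ n ih =>
        rw [pow_succ', mul_smul, ih, smul_add, smul_comm, hfixB _ hd', Nat.cast_succ, add_smul,
          one_smul]
        abel
    show ((σ ^ P.p : A.inertiaSubgroupIn ℚ) : GQ) • z = z
    rw [SubgroupClass.coe_pow, show (σ : GQ) = τ from rfl, hpow, ZMod.natCast_self, zero_smul,
      add_zero]
  have hmov : ∃ y ∈ rFld A (torsionFld P), (σ : GQ) y ≠ y := by
    by_contra hcon
    push Not at hcon
    exact hx ((fix_torsionFld_iff P).mp (fun y hy => hcon y (mem_rFld_of_mem A _ hy)) x)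
  obtain ⟨hpe, b, hb1, hbv, hbφ⟩ := exists_break P.pp hA hper hmov
  have hφL : φ ∈ rFld A (torsionFld P) :=
    mem_rFld_of_fixed A _ fun s hs hsL => hφfix s hs ((fix_torsionFld_iff P).mp hsL)
  set e := rIdx (L := torsionFld P) P.pp hA with he
  set vπ := A.valuation (rVal A _ (rUnif (L := torsionFld P) P.pp hA)) with hvπ
  have hvπ0 : (0 : A.ValueGroup) < vπ :=
    zero_lt_iff.mpr (by simpa [vπ] using rUnif_ne (L := torsionFld P) P.pp hA)
  have hanti := pow_right_strictAnti₀ hvπ0 (val_rUnif_lt (L := torsionFld P) P.pp hA)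
  have hp1 : ¬ P.p ∣ 1 := P.pp.not_dvd_one
  have hμ := isPrimitiveRoot_mu (m := 1) P.pp (M := P.p) (mul_one _).symm
  have hμv := val_mu_sub_one (m := 1) P.pp hA (M := P.p) (mul_one _).symm
  obtain ⟨k, hk⟩ := exists_val_rFld P.pp hA (L := torsionFld P)
    (sub_mem (pow_mem (mem_rFld_of_mem A _ (zetaQ_mem_torsionFld P)) 1) (one_mem _))
    (sub_ne_zero.mpr (hμ.ne_one P.pp.one_lt))
  have hdvd : (P.p - 1) ∣ e := by
    rw [hk, ← val_rUnif_pow (L := torsionFld P) P.pp hA, ← zpow_natCast, ← zpow_mul,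
      ← zpow_natCast (A.valuation (rVal A _ (rUnif (L := torsionFld P) P.pp hA)))] at hμv
    have hinj := (zpow_right_strictAnti₀ hvπ0
      (val_rUnif_lt (L := torsionFld P) P.pp hA)).injective hμv
    exact Int.natCast_dvd_natCast.mp ⟨k, by rw [← hinj, mul_comm]⟩
  have hp5 := P.hp5
  have heq : e = P.p * (P.p - 1) := by
    refine le_antisymm (rIdx_torsionFld_le P hA hd) (Nat.le_of_dvd (rIdx_pos P.pp hA) ?_)
    refine Nat.Coprime.mul_dvd_of_dvd_of_dvd ?_ hpe hdvd
    exact (Nat.Prime.coprime_iff_not_dvd P.pp).mpr fun hdv => by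
      have := Nat.le_of_dvd (by omega) hdv
      omega
  refine ⟨heq, τ, hτ, hτμ, ⟨x, hx⟩, b, hb1, ?_, hbv⟩
  have hchain : vπ ^ e ≤ vπ ^ ((b + 1) * (P.p - 1)) := by
    rw [hvπ, he, val_rUnif_pow (L := torsionFld P) P.pp hA, pow_mul]
    exact hφ.trans (pow_le_pow_left₀ zero_le (hbφ φ hφL hφ1) _)
  have hle : (b + 1) * (P.p - 1) ≤ e := hanti.le_iff_ge.mp hchain
  rw [heq] at hle
  have := Nat.le_of_mul_le_mul_right hle (by omega)
  omega

/-- The same data in terms of a field over the inertia field and valuations. -/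
theorem exists_wild (h : ∃ s ∈ A.inertiaSubgroupIn ℚ,
    (∀ z : Qbar, z ^ P.p = 1 → s z = z) ∧ ∃ x : FreyTorsion P, s • x ≠ x) :
    ∃ (L : IntermediateField (inertiaFld A) Qbar) (_ : FiniteDimensional (inertiaFld A) L)
      (π : Qbar) (τ : GQ) (b : ℕ),
      (∀ s ∈ A.inertiaSubgroupIn ℚ, ((∀ x ∈ L, s x = x) ↔
        ((∀ x : FreyTorsion P, s • x = x) ∧ ∀ z : Qbar, z ^ P.p = 1 → s z = z))) ∧
      π ∈ L ∧ π ≠ 0 ∧ A.valuation π ^ (P.p * (P.p - 1)) = A.valuation (P.p : Qbar) ∧
      (∀ x ∈ L, x ≠ 0 → ∃ k : ℤ, A.valuation x = A.valuation π ^ k) ∧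
      τ ∈ A.inertiaSubgroupIn ℚ ∧ (∀ z : Qbar, z ^ P.p = 1 → τ z = z) ∧
      (∃ x : FreyTorsion P, τ • x ≠ x) ∧ 1 ≤ b ∧ b ≤ P.p - 1 ∧
      A.valuation (τ π / π - 1) = A.valuation π ^ b := by
  obtain ⟨he, τ, hτ, hτμ, hτx, b, hb1, hb2, hbv⟩ := exists_wild_base P hA hd h
  refine ⟨rFld A (torsionFld P), finite_rFld A _, rVal A _ (rUnif (L := torsionFld P) P.pp hA),
    τ, b, fun s hs => ⟨fun hfix => ?_, fun hfix x hx => ?_⟩, rVal_mem_rFld A _ _,
    rUnif_ne P.pp hA, he ▸ val_rUnif_pow P.pp hA, fun x hx => exists_val_rFld P.pp hA hx,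
    hτ, hτμ, hτx, hb1, hb2, hbv⟩
  · have h1 := (fix_torsionFld_iff P).mp fun x hx => hfix x (mem_rFld_of_mem A _ hx)
    exact ⟨h1, (freyOmega_one_iff P).mp (freyOmega_of_mem_torsionKer P h1)⟩
  · exact fix_rFld hs ((fix_torsionFld_iff P).mpr hfix.1) hx

omit hd in
/-- Inertia at `p` has full image under `ω`. -/
theorem exists_inertia_freyOmega (a : (ZMod P.p)ˣ) :
    ∃ s ∈ A.inertiaSubgroupIn ℚ, freyOmega P s = a := by
  haveI : NeZero P.p := ⟨P.hp0⟩
  obtain ⟨L, hfd, hn, -, hζ⟩ := exists_field P.p (S := ∅) Set.finite_empty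
  obtain ⟨g, hg, hgμ⟩ := exists_fix_mu (m := 1) P.pp hA (M := P.p) (mul_one _).symm
    P.pp.not_dvd_one a
  obtain ⟨s, hs, hsg⟩ := exists_inertia_eq A L hg
  refine ⟨s, hs, ?_⟩
  rw [freyOmega_eq_of_root P (isPrimitiveRoot_zetaQ P.p) (n := (a : ZMod P.p).val)
    (by rw [hsg _ (mem_rFld_of_mem A L hζ)]; simpa using hgμ), ZMod.natCast_zmod_val]

end Fermat.Agent.EC
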